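import Fermat.Agent.BR.F.Interface
import Fermat.Agent.S24.FunAlgInv

/-!
# BR / F, package F-W2 (helper81): `f ↦ f ∘ W` on `ℚ̄[j_d : d ∣ N]` (`Stmt_ALAlg`).

General key identity (no primality of `r` is needed): for `r = a a'`, `M = c c'`
`j_{a c}(W z) = j_{a' c}(z)`, because
`diag(a c, 1) W = a [[a x, c y], [c', a']] diag(a' c, 1)` and `a a' x - c c' y = 1`.
-/

set_option autoImplicit false

namespace Fermat.Agent.BR.F.W2

open UpperHalfPlane CongruenceSubgroup
open scoped MatrixGroups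
open Fermat.Agent.S24 (Qbar funAlg jFun jFunD jAlg funGens)
attribute [local instance] Fermat.Agent.S24.algQbarComplex

variable {N r : ℕ}

theorem coe_W_smul (X : ALMat N r) (z : ℍ) :
    ((X.W • z : ℍ) : ℂ) = (((r : ℂ) * (X.x : ℂ)) * z + (X.y : ℂ)) / ((N : ℂ) * z + (r : ℂ)) := by
  rw [UpperHalfPlane.coe_smul_of_det_pos X.det_W_pos]
  simp [num, denom, ALMat.mat]

theorem W_denom_ne (X : ALMat N r) (z : ℍ) : ((N : ℂ) * z + (r : ℂ)) ≠ 0 := by
  have := denom_ne_zero X.W z
  simpa [denom, ALMat.mat] using this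

/-- the key identity. -/
theorem key (X : ALMat N r) (a a' c c' : ℕ) (hr : r = a * a') (hM : X.M = c * c') (hc : 0 < c)
    (z : ℍ) : jFunD (a * c) (X.W • z) = jFunD (a' * c) z := by
  have ha' : 0 < a' := by
    rcases Nat.eq_zero_or_pos a' with h | h
    · have := X.hr
      rw [hr, h, mul_zero] at this
      exact absurd this (lt_irrefl 0)
    · exact h
  have ha : 0 < a := by
    rcases Nat.eq_zero_or_pos a with h | h
    · have := X.hr
      rw [hr, h, zero_mul] at this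
      exact absurd this (lt_irrefl 0)
    · exact h
  have hdet : (a : ℤ) * X.x * (a' : ℤ) - (c : ℤ) * X.y * (c' : ℤ) = 1 := by
    have h0 := X.hdet
    have hrZ : (r : ℤ) = (a : ℤ) * a' := by exact_mod_cast hr
    have hMZ : (X.M : ℤ) = (c : ℤ) * c' := by exact_mod_cast hM
    linear_combination h0 - X.x * hrZ + X.y * hMZ
  let g : SL(2, ℤ) := ⟨!![(a : ℤ) * X.x, (c : ℤ) * X.y; (c' : ℤ), (a' : ℤ)], by
    rw [Matrix.det_fin_two_of]; linear_combination hdet⟩
  have him : 0 < ((((a' * c : ℕ) : ℂ)) * (z : ℂ)).im := by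
    have h1 : (0 : ℝ) < ((a' * c : ℕ) : ℝ) := by exact_mod_cast Nat.mul_pos ha' hc
    have := mul_pos h1 z.im_pos
    simpa using this
  set σ : ℍ := ⟨((a' * c : ℕ) : ℂ) * (z : ℂ), him⟩ with hσ
  have h1 : ofComplex (((a' * c : ℕ) : ℂ) * (z : ℂ)) = σ := ofComplex_apply_of_im_pos him
  have hcoe : ((a * c : ℕ) : ℂ) * ((X.W • z : ℍ) : ℂ) = ((g • σ : ℍ) : ℂ) := by
    rw [coe_W_smul, Fermat.Agent.S24.Hermite.coe_smul_eq]
    have hσc : (σ : ℂ) = ((a' * c : ℕ) : ℂ) * (z : ℂ) := rfl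
    have hd1 := W_denom_ne X z
    have hd2 := Fermat.Agent.S24.Hermite.denom_ne g σ
    have g00 : g 0 0 = (a : ℤ) * X.x := rfl
    have g01 : g 0 1 = (c : ℤ) * X.y := rfl
    have g10 : g 1 0 = (c' : ℤ) := rfl
    have g11 : g 1 1 = (a' : ℤ) := rfl
    rw [g10, g11, hσc] at hd2
    rw [g00, g01, g10, g11, hσc]
    have hNC : (N : ℂ) = (a : ℂ) * a' * (c * c') := by
      have : N = a * a' * (c * c') := by rw [X.hN, hM, ← hr]
      exact_mod_cast this
    have hrC : (r : ℂ) = (a : ℂ) * a' := by exact_mod_cast hr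
    rw [hNC, hrC] at hd1 ⊢
    push_cast at hd2 ⊢
    rw [mul_div_assoc', div_eq_div_iff hd1 hd2]
    ring
  have h2 : ofComplex (((a * c : ℕ) : ℂ) * ((X.W • z : ℍ) : ℂ)) = g • σ := by
    rw [hcoe]
    exact ofComplex_apply _
  unfold jFunD
  rw [h1, h2, Fermat.Agent.S24.jFun_smul]

/-- decomposition of the divisors of `N = r M`. -/
theorem exists_decomp (X : ALMat N r) {d : ℕ} (hd : d ∣ N) :
    ∃ a a' c c' : ℕ, r = a * a' ∧ X.M = c * c' ∧ d = a * c := by
  rw [X.hN, Nat.dvd_mul] at hd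
  obtain ⟨a, c, ⟨a', ha⟩, ⟨c', hc⟩, rfl⟩ := hd
  exact ⟨a, a', c, c', ha, hc, rfl⟩

theorem M_pos [NeZero N] (X : ALMat N r) : 0 < X.M := by
  rcases Nat.eq_zero_or_pos X.M with h | h
  · have := X.hN
    rw [h, mul_zero] at this
    exact absurd this (NeZero.ne N)
  · exact h

/-- `f ↦ f ∘ W` preserves `funAlg N`. -/
theorem comp_mem [NeZero N] (X : ALMat N r) {θ : ℍ → ℂ} (hθ : θ ∈ funAlg N) :
    (fun z => θ (X.W • z)) ∈ funAlg N := by
  induction hθ using Algebra.adjoin_induction with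
  | mem f hf =>
    obtain ⟨d, hd, rfl⟩ := hf
    obtain ⟨a, a', c, c', hr, hM, rfl⟩ := exists_decomp X hd
    have hc : 0 < c := by
      have := M_pos X
      rw [hM] at this
      exact Nat.pos_of_mul_pos_right this
    have e : (fun z => jFunD (a * c) (X.W • z)) = jFunD (a' * c) := by
      funext z
      exact key X a a' c c' hr hM hc z
    rw [e]
    refine Fermat.Agent.S24.jFunD_mem_funAlg ?_
    rw [X.hN, hM]
    exact mul_dvd_mul (Dvd.intro_left a hr.symm) (Dvd.intro c' rfl)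
  | algebraMap q => exact (funAlg N).algebraMap_mem q
  | add f g _ _ hf hg => exact (funAlg N).add_mem hf hg
  | mul f g _ _ hf hg => exact (funAlg N).mul_mem hf hg

/-- `W` acts as an involution on `funAlg N`. -/
theorem comp_comp [NeZero N] (X : ALMat N r) {θ : ℍ → ℂ} (hθ : θ ∈ funAlg N) (z : ℍ) :
    θ (X.W • (X.W • z)) = θ z := by
  induction hθ using Algebra.adjoin_induction with
  | mem f hf =>
    obtain ⟨d, hd, rfl⟩ := hf
    obtain ⟨a, a', c, c', hr, hM, rfl⟩ := exists_decomp X hd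
    have hc : 0 < c := by
      have := M_pos X
      rw [hM] at this
      exact Nat.pos_of_mul_pos_right this
    rw [key X a a' c c' hr hM hc, key X a' a c c' (by rw [hr, mul_comm]) hM hc]
  | algebraMap q => rfl
  | add f g _ _ hf hg => rw [Pi.add_apply, Pi.add_apply, hf, hg]
  | mul f g _ _ hf hg => rw [Pi.mul_apply, Pi.mul_apply, hf, hg]

/-- `f ↦ f ∘ W` as an algebra endomorphism of `funAlg N`. -/
noncomputable def wHom [NeZero N] (X : ALMat N r) : funAlg N →ₐ[Qbar] funAlg N where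
  toFun f := ⟨fun z => (f : ℍ → ℂ) (X.W • z), comp_mem X f.2⟩
  map_one' := rfl
  map_mul' _ _ := rfl
  map_zero' := rfl
  map_add' _ _ := rfl
  commutes' _ := rfl

theorem wHom_apply [NeZero N] (X : ALMat N r) (f : funAlg N) (z : ℍ) :
    (wHom X f : ℍ → ℂ) z = (f : ℍ → ℂ) (X.W • z) := rfl

theorem wHom_wHom [NeZero N] (X : ALMat N r) : (wHom X).comp (wHom X) = AlgHom.id Qbar _ := by
  ext f z
  exact comp_comp X f.2 z

theorem alAlg : Stmt_ALAlg := by
  intro N _ r X
  refine ⟨AlgEquiv.ofAlgHom (wHom X) (wHom X) (wHom_wHom X) (wHom_wHom X), fun f z => rfl, ?_⟩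
  intro d d' hd hd' hdd
  subst hdd
  have hdM : d ∣ X.M := by
    have h1 : r * d ∣ r * X.M := by
      rw [← X.hN, mul_comm]; exact hd'
    exact Nat.dvd_of_mul_dvd_mul_left X.hr h1
  obtain ⟨c', hc'⟩ := hdM
  have hd0 : 0 < d := Nat.pos_of_dvd_of_pos hd (NeZero.pos N)
  constructor
  · apply Subtype.ext
    funext z
    have := key X 1 r d c' (one_mul r).symm hc' hd0 z
    rw [one_mul, mul_comm r d] at this
    exact this
  · apply Subtype.ext
    funext z
    have := key X r 1 d c' (mul_one r).symm hc' hd0 z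
    rw [one_mul, mul_comm r d] at this
    exact this

/-- the signature announced in the task (the hypothesis is not needed). -/
theorem alAlg' (_ : Stmt_ALSq) : Stmt_ALAlg := alAlg

end Fermat.Agent.BR.F.W2
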