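import Fermat.Agent.BR.F.Interface

/-!
# BR / F, package F-W1 : Atkin-Lehner matrices (pure `2 × 2` integer matrix computations)
-/

set_option autoImplicit false

namespace Fermat.Agent.BR.F.W1

open CongruenceSubgroup Matrix.SpecialLinearGroup
open scoped MatrixGroups
open Fermat.Agent.S16.HH (jG jG_apply jG_injective mapGL_entry mem_Gamma0_of_dvd dvd_of_mem_Gamma0)

/-! ### (W1) Bezout -/

theorem alMat : Stmt_ALMat := by
  intro N r hr hrN hr2
  obtain ⟨M, hM⟩ := hrN
  have hcop : Nat.Coprime r M := by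
    rcases (Nat.coprime_or_dvd_of_prime hr M) with h | h
    · exact h
    · exfalso
      obtain ⟨M', rfl⟩ := h
      exact hr2 ⟨M', by rw [hM]; ring⟩
  have hb := Int.gcd_eq_gcd_ab (r : ℤ) (M : ℤ)
  have hg : Int.gcd (r : ℤ) (M : ℤ) = 1 := by
    rw [Int.gcd_natCast_natCast]; exact hcop
  rw [hg] at hb
  exact ⟨{ x := Int.gcdA r M, y := - Int.gcdB r M, M := M, hr := hr.pos, hN := hM
           hdet := by push_cast at hb; linear_combination -hb }⟩

/-! ### pure integer identities -/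

/-- `W g W⁻¹`. -/
def cmat (R M x y a b c d : ℤ) : Matrix (Fin 2) (Fin 2) ℤ :=
  !![R * x * a + y * (R * M * c) - x * b * (R * M) - y * d * M,
      -x * a * y - y ^ 2 * M * c + R * x ^ 2 * b + x * y * d;
    R * M * a + R * (R * M * c) - R * M * M * b - R * M * d,
      -M * a * y - (R * M * c) * y + R * M * b * x + R * d * x]

theorem cmat_det (R M x y a b c d : ℤ) (hD : R * x - M * y = 1)
    (hdet : a * d - b * (R * M * c) = 1) : (cmat R M x y a b c d).det = 1 := by
  rw [cmat, Matrix.det_fin_two_of]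
  linear_combination ((R * x - M * y) + 1) * (a * d - b * (R * M * c)) * hD + hdet

theorem cmat_mul (R M x y a b c d : ℤ) (hD : R * x - M * y = 1) :
    cmat R M x y a b c d * !![R * x, y; R * M, R]
      = !![R * x, y; R * M, R] * !![a, b; R * M * c, d] := by
  rw [cmat, Matrix.mul_fin_two, Matrix.mul_fin_two]
  ext i j
  fin_cases i <;> fin_cases j
  · simp only [Fin.zero_eta, Fin.isValue, Matrix.of_apply, Matrix.cons_val', Matrix.cons_val_zero,
      Matrix.cons_val_fin_one]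
    linear_combination (R * x * a + y * (R * M * c)) * hD
  · simp only [Fin.zero_eta, Fin.mk_one, Fin.isValue, Matrix.of_apply, Matrix.cons_val',
      Matrix.cons_val_zero, Matrix.cons_val_one, Matrix.cons_val_fin_one]
    linear_combination (R * x * b + y * d) * hD
  · simp only [Fin.zero_eta, Fin.mk_one, Fin.isValue, Matrix.of_apply, Matrix.cons_val',
      Matrix.cons_val_zero, Matrix.cons_val_one, Matrix.cons_val_fin_one]
    linear_combination (R * M * a + R * (R * M * c)) * hD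
  · simp only [Fin.mk_one, Fin.isValue, Matrix.of_apply, Matrix.cons_val',
      Matrix.cons_val_one, Matrix.cons_val_fin_one]
    linear_combination (R * M * b + R * d) * hD

/-- `W⁻¹ g W`. -/
def cmat' (R M x y a b c d : ℤ) : Matrix (Fin 2) (Fin 2) ℤ :=
  !![R * a * x - x * y * (R * M * c) + b * (R * M) - y * d * M,
      a * y - y ^ 2 * M * c + R * b - y * d;
    -(R * M) * a * x + R * x ^ 2 * (R * M * c) - R * M * M * b + x * d * (R * M),
      -M * a * y + x * (R * M * c) * y - R * M * b + R * x * d]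

theorem cmat'_det (R M x y a b c d : ℤ) (hD : R * x - M * y = 1)
    (hdet : a * d - b * (R * M * c) = 1) : (cmat' R M x y a b c d).det = 1 := by
  rw [cmat', Matrix.det_fin_two_of]
  linear_combination ((R * x - M * y) + 1) * (a * d - b * (R * M * c)) * hD + hdet

theorem cmat'_mul (R M x y a b c d : ℤ) (hD : R * x - M * y = 1) :
    !![R * x, y; R * M, R] * cmat' R M x y a b c d
      = !![a, b; R * M * c, d] * !![R * x, y; R * M, R] := by
  rw [cmat', Matrix.mul_fin_two, Matrix.mul_fin_two]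
  ext i j
  fin_cases i <;> fin_cases j
  · simp only [Fin.zero_eta, Fin.isValue, Matrix.of_apply, Matrix.cons_val', Matrix.cons_val_zero,
      Matrix.cons_val_fin_one]
    linear_combination (a * (R * x) + b * (R * M)) * hD
  · simp only [Fin.zero_eta, Fin.mk_one, Fin.isValue, Matrix.of_apply, Matrix.cons_val',
      Matrix.cons_val_zero, Matrix.cons_val_one, Matrix.cons_val_fin_one]
    linear_combination (a * y + b * R) * hD
  · simp only [Fin.zero_eta, Fin.mk_one, Fin.isValue, Matrix.of_apply, Matrix.cons_val',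
      Matrix.cons_val_zero, Matrix.cons_val_one, Matrix.cons_val_fin_one]
    linear_combination (R * M * c * (R * x) + d * (R * M)) * hD
  · simp only [Fin.mk_one, Fin.isValue, Matrix.of_apply, Matrix.cons_val',
      Matrix.cons_val_one, Matrix.cons_val_fin_one]
    linear_combination (R * M * c * y + d * R) * hD

/-! ### integer matrices -/

section

variable {N r : ℕ} (X : ALMat N r)

/-- the integer Atkin-Lehner matrix. -/
def Wz : Matrix (Fin 2) (Fin 2) ℤ := !![(r : ℤ) * X.x, X.y; (N : ℤ), (r : ℤ)]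

theorem mat_eq_map : X.mat = (Wz X).map (Int.cast : ℤ → ℝ) := by
  ext i j
  fin_cases i <;> fin_cases j <;> simp [ALMat.mat, Wz]

theorem val_jG (γ : Gamma0 N) : ((jG N γ : GL (Fin 2) ℝ) : Matrix (Fin 2) (Fin 2) ℝ)
    = ((γ : SL(2, ℤ)) : Matrix (Fin 2) (Fin 2) ℤ).map (Int.cast : ℤ → ℝ) := by
  ext i j
  exact mapGL_entry _ i j

theorem map_mul_cast (A B : Matrix (Fin 2) (Fin 2) ℤ) :
    (A * B).map (Int.cast : ℤ → ℝ) = A.map (Int.cast : ℤ → ℝ) * B.map (Int.cast : ℤ → ℝ) :=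
  Matrix.map_mul (f := Int.castRingHom ℝ)

theorem map_cast_injective :
    Function.Injective (fun A : Matrix (Fin 2) (Fin 2) ℤ => A.map (Int.cast : ℤ → ℝ)) :=
  Matrix.map_injective Int.cast_injective

theorem hNz : (N : ℤ) = (r : ℤ) * (X.M : ℤ) := by exact_mod_cast X.hN

theorem lift_left {g g' : Gamma0 N}
    (h : ((g' : SL(2, ℤ)) : Matrix (Fin 2) (Fin 2) ℤ) * Wz X
      = Wz X * ((g : SL(2, ℤ)) : Matrix (Fin 2) (Fin 2) ℤ)) :
    jG N g' * X.W = X.W * jG N g := by
  apply Units.ext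
  rw [Units.val_mul, Units.val_mul, val_jG, val_jG, ALMat.val_W, mat_eq_map, ← map_mul_cast,
    ← map_mul_cast, h]

/-- entries and determinant of an element of `Γ₀(N)`. -/
theorem entries (g : Gamma0 N) : ∃ a b c d : ℤ,
    ((g : SL(2, ℤ)) : Matrix (Fin 2) (Fin 2) ℤ) = !![a, b; (r : ℤ) * X.M * c, d] ∧
      a * d - b * ((r : ℤ) * X.M * c) = 1 := by
  obtain ⟨c, hc⟩ := dvd_of_mem_Gamma0 g.2
  rw [hNz X] at hc
  have h1 : ((g : SL(2, ℤ)) : Matrix (Fin 2) (Fin 2) ℤ)
      = !![(g : SL(2, ℤ)) 0 0, (g : SL(2, ℤ)) 0 1; (r : ℤ) * X.M * c, (g : SL(2, ℤ)) 1 1] := by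
    rw [← hc]
    exact Matrix.eta_fin_two _
  refine ⟨_, _, c, _, h1, ?_⟩
  have h2 := (g : SL(2, ℤ)).2
  rw [h1, Matrix.det_fin_two_of] at h2
  exact h2

theorem exists_conj (g : Gamma0 N) : ∃ g' : Gamma0 N, jG N g' * X.W = X.W * jG N g := by
  obtain ⟨a, b, c, d, hg, hdet⟩ := entries X g
  let G' : SL(2, ℤ) := ⟨cmat r X.M X.x X.y a b c d, cmat_det _ _ _ _ _ _ _ _ X.hdet hdet⟩
  have hmem : G' ∈ Gamma0 N := by
    apply mem_Gamma0_of_dvd
    rw [hNz X]
    exact ⟨a + r * c - X.M * b - d, by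
      show (r : ℤ) * X.M * a + r * (r * X.M * c) - r * X.M * X.M * b - r * X.M * d = _
      ring⟩
  refine ⟨⟨G', hmem⟩, lift_left X ?_⟩
  rw [hg, Wz, hNz X]
  exact cmat_mul _ _ _ _ _ _ _ _ X.hdet

theorem exists_conj' (g : Gamma0 N) : ∃ g' : Gamma0 N, X.W * jG N g' = jG N g * X.W := by
  obtain ⟨a, b, c, d, hg, hdet⟩ := entries X g
  let G' : SL(2, ℤ) := ⟨cmat' r X.M X.x X.y a b c d, cmat'_det _ _ _ _ _ _ _ _ X.hdet hdet⟩
  have hmem : G' ∈ Gamma0 N := by
    apply mem_Gamma0_of_dvd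
    rw [hNz X]
    exact ⟨-a * X.x + r * X.x ^ 2 * c - X.M * b + X.x * d, by
      show -((r : ℤ) * X.M) * a * X.x + r * X.x ^ 2 * (r * X.M * c) - r * X.M * X.M * b
        + X.x * d * (r * X.M) = _
      ring⟩
  refine ⟨⟨G', hmem⟩, (lift_left X ?_).symm⟩
  rw [hg, Wz, hNz X]
  exact (cmat'_mul _ _ _ _ _ _ _ _ X.hdet).symm

/-- `γ₀ = W² / r`. -/
def smat (R M x y : ℤ) : Matrix (Fin 2) (Fin 2) ℤ :=
  !![R * x ^ 2 + y * M, y * (x + 1); R * M * (x + 1), M * y + R]

theorem smat_det (R M x y : ℤ) (hD : R * x - M * y = 1) : (smat R M x y).det = 1 := by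
  rw [smat, Matrix.det_fin_two_of]
  linear_combination ((R * x - M * y) + 1) * hD

theorem smat_mul (R M x y : ℤ) :
    !![R * x, y; R * M, R] * !![R * x, y; R * M, R] = R • smat R M x y := by
  rw [smat, Matrix.mul_fin_two, Matrix.smul_of, Matrix.smul_cons, Matrix.smul_cons,
    Matrix.smul_cons, Matrix.smul_cons, Matrix.smul_cons, Matrix.smul_cons]
  ext i j
  fin_cases i <;> fin_cases j <;> simp <;> ring

theorem exists_sq : ∃ γ₀ : Gamma0 N,
    Wz X * Wz X = (r : ℤ) • ((γ₀ : SL(2, ℤ)) : Matrix (Fin 2) (Fin 2) ℤ) := by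
  let G' : SL(2, ℤ) := ⟨smat r X.M X.x X.y, smat_det _ _ _ _ X.hdet⟩
  have hmem : G' ∈ Gamma0 N := by
    apply mem_Gamma0_of_dvd
    rw [hNz X]
    exact ⟨X.x + 1, rfl⟩
  refine ⟨⟨G', hmem⟩, ?_⟩
  rw [Wz, hNz X]
  exact smat_mul _ _ _ _

theorem sq_real : ∃ γ₀ : Gamma0 N,
    ((X.W * X.W : GL (Fin 2) ℝ) : Matrix (Fin 2) (Fin 2) ℝ)
      = (r : ℝ) • ((jG N γ₀ : GL (Fin 2) ℝ) : Matrix (Fin 2) (Fin 2) ℝ) := by
  obtain ⟨γ₀, h⟩ := exists_sq X
  refine ⟨γ₀, ?_⟩
  rw [Units.val_mul, ALMat.val_W, mat_eq_map, ← map_mul_cast, h, val_jG]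
  ext i j
  rw [Matrix.map_apply, Matrix.smul_apply, Matrix.smul_apply, Matrix.map_apply, smul_eq_mul,
    smul_eq_mul]
  push_cast
  rfl

end

theorem alConj : Stmt_ALConj := by
  intro N r X
  choose f hf using exists_conj X
  choose f' hf' using exists_conj' X
  have h1 : ∀ γ, jG N (f γ) = X.W * jG N γ * X.W⁻¹ := fun γ => by
    rw [← hf γ, mul_assoc, mul_inv_cancel, mul_one]
  have h2 : ∀ γ, jG N (f' γ) = X.W⁻¹ * jG N γ * X.W := fun γ => by
    rw [mul_assoc, ← hf' γ, inv_mul_cancel_left]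
  refine ⟨{ toFun := f, invFun := f', left_inv := ?_, right_inv := ?_, map_mul' := ?_ }, h1⟩
  · intro γ
    apply jG_injective N
    rw [h2, h1]
    group
  · intro γ
    apply jG_injective N
    rw [h1, h2]
    group
  · intro γ γ'
    apply jG_injective N
    rw [map_mul, h1, h1, h1, map_mul]
    group

theorem alSq : Stmt_ALSq := fun _ _ X => sq_real X

theorem al_chr_invol : Stmt_AL_chr_invol := by
  intro N _ r X B _ χ
  obtain ⟨γ₀, h0⟩ := sq_real X.toALMat
  have hr0 : (r : ℝ) ≠ 0 := by exact_mod_cast X.hr.ne'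
  apply AddMonoidHom.ext
  intro γ'
  obtain ⟨γ, rfl⟩ : ∃ γ, Additive.ofMul γ = γ' := ⟨γ'.toMul, rfl⟩
  rw [AL.chr_apply, AL.chr_apply]
  have h1 : jG N (X.θ (X.θ γ)) * (X.W * X.W) = (X.W * X.W) * jG N γ := by
    rw [X.hθ, X.hθ]
    group
  have h2 : jG N (X.θ (X.θ γ)) * jG N γ₀ = jG N γ₀ * jG N γ := by
    apply Units.ext
    have h3 := congrArg (Units.val) h1
    rw [Units.val_mul, Units.val_mul _ (jG N γ), h0, Matrix.mul_smul, Matrix.smul_mul] at h3
    rw [Units.val_mul, Units.val_mul]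
    exact smul_right_injective _ hr0 h3
  have h4 : X.θ (X.θ γ) * γ₀ = γ₀ * γ := by
    apply jG_injective N
    rw [map_mul, map_mul, h2]
  have h5 := congrArg (fun g => χ (Additive.ofMul g)) h4
  simp only [ofMul_mul, map_add] at h5
  rw [add_comm] at h5
  exact add_left_cancel h5

theorem al_trace : Stmt_AL_trace := by
  intro N _ r X γ
  have h1 : ((jG N (X.θ γ) : GL (Fin 2) ℝ) : Matrix (Fin 2) (Fin 2) ℝ).trace
      = ((jG N γ : GL (Fin 2) ℝ) : Matrix (Fin 2) (Fin 2) ℝ).trace := by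
    rw [X.hθ, Units.val_mul, Units.val_mul]
    exact Matrix.trace_units_conj _ _
  rw [val_jG, val_jG, Matrix.trace_fin_two, Matrix.trace_fin_two] at h1
  rw [Matrix.trace_fin_two, Matrix.trace_fin_two]
  simp only [Matrix.map_apply] at h1
  exact_mod_cast h1

end Fermat.Agent.BR.F.W1
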