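import Fermat.Agent.BR.F.Interface

/-!
# BR / F, package F-W5 : conjugation by the Atkin-Lehner matrix `W` permutes the cosets of `T_ℓ`
(`ℓ ∤ N`), and `chr` commutes with `T_ℓ`.
-/

set_option autoImplicit false

namespace Fermat.Agent.BR.F.W5

open UpperHalfPlane CongruenceSubgroup ModularForm Matrix.SpecialLinearGroup
open scoped MatrixGroups OnePoint
open Fermat.Agent.S16.HH (jG dataU dataT HeckeData jG_apply mapGL_entry mem_Gamma0_of_dvd dataT_α)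
open Fermat.Agent.ES.Mid
open P2MW.S_ModularForm_heckeT_slash_eq_self_of_mem_Gamma0.ModularForm.HeckeSlashInvariance

/-- an integer matrix of determinant `1` with `N ∣ c` is an element of `Γ₀(N)`. -/
theorem exists_gamma (N : ℕ) (a b c d : ℤ) (hdet : a * d - b * c = 1) (hc : (N : ℤ) ∣ c) :
    ∃ γ : Gamma0 N, ((jG N γ : GL (Fin 2) ℝ) : Matrix (Fin 2) (Fin 2) ℝ)
      = !![(a : ℝ), (b : ℝ); (c : ℝ), (d : ℝ)] := by
  have h : (!![a, b; c, d] : Matrix (Fin 2) (Fin 2) ℤ).det = 1 := by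
    rw [Matrix.det_fin_two_of]; exact hdet
  refine ⟨⟨⟨!![a, b; c, d], h⟩, mem_Gamma0_of_dvd hc⟩, ?_⟩
  ext i j
  rw [jG_apply, mapGL_entry]
  fin_cases i <;> fin_cases j <;> rfl

/-- **(CL)** classification of the integer matrices of determinant `ℓ` with `N ∣ c`. -/
theorem CL (N : ℕ) {ℓ : ℕ} (hℓ : ℓ.Prime) (hℓN : ¬ ℓ ∣ N) (a b c d : ℤ)
    (hdet : a * d - b * c = ℓ) (hc : (N : ℤ) ∣ c) :
    ∃ (γ : Gamma0 N) (i : OnePoint (ZMod ℓ)),
      ((jG N γ * heckeRep ℓ i : GL (Fin 2) ℝ) : Matrix (Fin 2) (Fin 2) ℝ)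
        = !![(a : ℝ), (b : ℝ); (c : ℝ), (d : ℝ)] := by
  have : Fact ℓ.Prime := ⟨hℓ⟩
  have hℓ0 : (ℓ : ℤ) ≠ 0 := by exact_mod_cast hℓ.ne_zero
  by_cases hac : (ℓ : ℤ) ∣ a ∧ (ℓ : ℤ) ∣ c
  · obtain ⟨⟨a₁, rfl⟩, ⟨c₁, rfl⟩⟩ := hac
    have hdet1 : a₁ * d - b * c₁ = 1 := by
      apply mul_left_cancel₀ hℓ0
      linear_combination hdet
    have hc1 : (N : ℤ) ∣ c₁ := by
      have hcop : IsCoprime (N : ℤ) (ℓ : ℤ) := by
        rw [Nat.isCoprime_iff_coprime]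
        exact ((Nat.Prime.coprime_iff_not_dvd hℓ).2 hℓN).symm
      exact hcop.dvd_of_dvd_mul_left hc
    obtain ⟨γ, hγ⟩ := exists_gamma N a₁ b c₁ d hdet1 hc1
    refine ⟨γ, ∞, ?_⟩
    rw [Matrix.GeneralLinearGroup.coe_mul, hγ, heckeRep_infty, val_heckeDiagMatrix hℓ.ne_zero]
    ext i j
    fin_cases i <;> fin_cases j <;> simp [Matrix.mul_apply, Fin.sum_univ_two] <;> ring
  · have hz : ((a : ZMod ℓ)) * d - b * c = 0 := by
      have := congrArg (fun z : ℤ => (z : ZMod ℓ)) hdet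
      simpa using this
    have conv : ∀ z : ℤ, (z : ZMod ℓ) = 0 → (ℓ : ℤ) ∣ z := fun z hz =>
      (ZMod.intCast_zmod_eq_zero_iff_dvd _ _).1 hz
    have hj : ∃ j : ZMod ℓ, (b : ZMod ℓ) - a * j = 0 ∧ (d : ZMod ℓ) - c * j = 0 := by
      by_cases ha : (a : ZMod ℓ) = 0
      · have hc0 : (c : ZMod ℓ) ≠ 0 := fun hc0 => hac ⟨conv a ha, conv c hc0⟩
        refine ⟨(d : ZMod ℓ) / c, ?_, by field_simp; ring⟩
        have : (c : ZMod ℓ) * ((b : ZMod ℓ) - a * ((d : ZMod ℓ) / c)) = 0 := by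
          field_simp
          linear_combination -hz
        exact (mul_eq_zero.1 this).resolve_left hc0
      · refine ⟨(b : ZMod ℓ) / a, by field_simp; ring, ?_⟩
        have : (a : ZMod ℓ) * ((d : ZMod ℓ) - c * ((b : ZMod ℓ) / a)) = 0 := by
          field_simp
          linear_combination hz
        exact (mul_eq_zero.1 this).resolve_left ha
    obtain ⟨j, hj1, hj2⟩ := hj
    obtain ⟨b₁, hb₁⟩ : (ℓ : ℤ) ∣ b - a * (j.val : ℤ) := by
      apply conv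
      push_cast
      rw [ZMod.natCast_zmod_val]
      exact hj1
    obtain ⟨d₁, hd₁⟩ : (ℓ : ℤ) ∣ d - c * (j.val : ℤ) := by
      apply conv
      push_cast
      rw [ZMod.natCast_zmod_val]
      exact hj2
    have hdet1 : a * d₁ - b₁ * c = 1 := by
      apply mul_left_cancel₀ hℓ0
      linear_combination hdet - a * hd₁ + c * hb₁
    obtain ⟨γ, hγ⟩ := exists_gamma N a b₁ c d₁ hdet1 hc
    refine ⟨γ, (j : OnePoint (ZMod ℓ)), ?_⟩
    have hb₁' : (b : ℝ) - a * (j.val : ℝ) = ℓ * b₁ := by exact_mod_cast hb₁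
    have hd₁' : (d : ℝ) - c * (j.val : ℝ) = ℓ * d₁ := by exact_mod_cast hd₁
    rw [ZMod.natCast_val] at hb₁' hd₁'
    rw [Matrix.GeneralLinearGroup.coe_mul, hγ, heckeRep_coe, val_heckeMatrix hℓ.ne_zero]
    ext i' j'
    fin_cases i' <;> fin_cases j' <;> simp [Matrix.mul_apply, Fin.sum_univ_two]
    · linear_combination -hb₁'
    · linear_combination -hd₁'

/-- conjugation of an upper triangular integer matrix of determinant `ℓ` by `W`. -/
theorem conj_upper (N r : ℕ) (X : ALMat N r) {ℓ : ℕ} (hℓ : ℓ.Prime) (hℓN : ¬ ℓ ∣ N) (A B D : ℤ)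
    (hAD : A * D = ℓ) (α : GL (Fin 2) ℝ)
    (hα : (α : Matrix (Fin 2) (Fin 2) ℝ) = !![(A : ℝ), (B : ℝ); 0, (D : ℝ)]) :
    ∃ (γ : Gamma0 N) (i : OnePoint (ZMod ℓ)), X.W * α * X.W⁻¹ = jG N γ * heckeRep ℓ i := by
  have hN : (N : ℤ) = (r : ℤ) * (X.M : ℤ) := by exact_mod_cast X.hN
  have h := X.hdet
  obtain ⟨γ, i, hγ⟩ := CL N hℓ hℓN
    (r * X.x * A - X.x * B * N - X.y * D * X.M)
    (-(X.x * X.y * A) + r * X.x ^ 2 * B + X.x * X.y * D)
    (N * (A - X.M * B - D))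
    (-(X.M * A * X.y) + N * B * X.x + r * D * X.x)
    (by rw [← hAD, hN]; linear_combination (A * D * (r * X.x - X.M * X.y + 1)) * h)
    (Dvd.intro _ rfl)
  refine ⟨γ, i, ?_⟩
  rw [mul_inv_eq_iff_eq_mul]
  apply Units.ext
  rw [Matrix.GeneralLinearGroup.coe_mul, Matrix.GeneralLinearGroup.coe_mul (jG N γ * heckeRep ℓ i),
    hγ, hα, ALMat.val_W, ALMat.mat]
  have hNR : (N : ℝ) = (r : ℝ) * (X.M : ℝ) := by exact_mod_cast X.hN
  have hR : (r : ℝ) * (X.x : ℝ) - (X.M : ℝ) * (X.y : ℝ) = 1 := by exact_mod_cast X.hdet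
  ext a b
  fin_cases a <;> fin_cases b <;> simp [Matrix.mul_apply, Fin.sum_univ_two] <;> rw [hNR]
  · linear_combination (-((r : ℝ) * X.x * A)) * hR
  · linear_combination (-((r : ℝ) * X.x * B + X.y * D)) * hR
  · linear_combination (-((r : ℝ) * X.M * A)) * hR
  · linear_combination (-((r : ℝ) * X.M * B + r * D)) * hR

/-- **(W14)** -/
theorem alCoset (h2 : Stmt_ALConj) : Stmt_ALCoset := by
  intro N r X ℓ hℓ hℓN
  have : Fact ℓ.Prime := ⟨hℓ⟩
  obtain ⟨θ, hθ⟩ := h2 N r X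
  have key : ∀ i : OnePoint (ZMod ℓ), ∃ (γ : Gamma0 N) (i' : OnePoint (ZMod ℓ)),
      X.W * heckeRep ℓ i * X.W⁻¹ = jG N γ * heckeRep ℓ i' := by
    intro i
    induction i using OnePoint.rec with
    | infty =>
      exact conj_upper N r X hℓ hℓN ℓ 0 1 (by ring) _
        (by rw [heckeRep_infty, val_heckeDiagMatrix hℓ.ne_zero]; simp)
    | coe j =>
      exact conj_upper N r X hℓ hℓN 1 j.val ℓ (by ring) _
        (by rw [heckeRep_coe, val_heckeMatrix hℓ.ne_zero]; simp)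
  choose t ν0 hν using key
  have hinj : Function.Injective ν0 := by
    intro i i' hii
    have h1 := hν i
    have h2' := hν i'
    rw [hii] at h1
    apply (dataT N hℓ hℓN).hdisj i i' (θ.symm (t i * (t i')⁻¹))
    rw [dataT_α, dataT_α]
    have h3 : jG N (t i * (t i')⁻¹) = X.W * jG N (θ.symm (t i * (t i')⁻¹)) * X.W⁻¹ := by
      rw [← hθ, MulEquiv.apply_symm_apply]
    have h4 : X.W * heckeRep ℓ i * X.W⁻¹
        = X.W * (jG N (θ.symm (t i * (t i')⁻¹)) * heckeRep ℓ i') * X.W⁻¹ := by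
      calc _ = jG N (t i * (t i')⁻¹) * (X.W * heckeRep ℓ i' * X.W⁻¹) := by
            rw [h1, h2', map_mul, map_inv]; group
        _ = _ := by rw [h3]; group
    exact mul_left_cancel (mul_right_cancel h4)
  exact ⟨Equiv.ofBijective ν0 (Finite.injective_iff_bijective.1 hinj), t, fun i => hν i⟩

/-- **(W15)** -/
theorem al_tau (h : Stmt_ALCoset) : Stmt_AL_tau := by
  intro N _ r X ℓ hℓN B _ χ
  obtain ⟨ν, t, ht⟩ := h N r X.toALMat ℓ.2 hℓN
  have e : ∀ φ : Additive (Gamma0 N) →+ B, tau N ℓ B φ = (dataT N ℓ.2 hℓN).op φ := by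
    intro φ
    change Fermat.Agent.S16.HH.tau N ℓ B φ = _
    unfold Fermat.Agent.S16.HH.tau
    rw [dif_neg hℓN]
    rfl
  rw [e, e]
  exact ((dataT N ℓ.2 hℓN).op_comp_of_twist (MulAut.conj X.W).toMonoidHom X.θ.toMonoidHom X.hθ
    ν t ht χ).symm

end Fermat.Agent.BR.F.W5
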