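import Fermat.Agent.BR.F.Interface
import Fermat.Agent.ES.Mid.HGlue

/-!
# BR / F, package F-W3 : the Atkin-Lehner involution on `F_N`
-/

set_option autoImplicit false

namespace Fermat.Agent.BR.F.W3

open UpperHalfPlane CongruenceSubgroup AlgebraicCurve
open scoped MatrixGroups Manifold
open Fermat.Agent.S24 (Qbar FF funAlg funGens iota jBar jAlg jFunD jBarSeries)
open Fermat.Agent.S24.QX (qExpHom qExpHom_injective qExpHom_jAlg)
open Fermat.Agent.ES.Mid
attribute [local instance] Fermat.Agent.S24.algQbarComplex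

/-! ### ring homomorphisms out of `F_N` are determined by the constants and the `j_d` -/

/-- two ring homomorphisms agreeing on the constants and on the `j_d` agree on `ℚ̄[j_d]`. -/
theorem eq_on_funAlg (N : ℕ) [NeZero N] {L : Type*} [Semiring L] (φ ψ : FF N →+* L)
    (hc : ∀ c : Qbar, φ (algebraMap Qbar (FF N) c) = ψ (algebraMap Qbar (FF N) c))
    (hj : ∀ (d : ℕ) [NeZero d] (hd : d ∣ N), φ (jBar N d hd) = ψ (jBar N d hd))
    (f : funAlg N) : φ (qExpHom N f) = ψ (qExpHom N f) := by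
  obtain ⟨x, hx⟩ := f
  induction hx using Algebra.adjoin_induction with
  | mem x hx =>
    obtain ⟨d, hd, rfl⟩ := hx
    have hd0 : NeZero d := ⟨by
      rintro rfl
      exact NeZero.ne N (Nat.eq_zero_of_zero_dvd hd)⟩
    have := hj d hd
    rw [← qExpHom_jAlg N d hd] at this
    exact this
  | algebraMap r =>
    have h1 : qExpHom N (algebraMap Qbar (funAlg N) r) = algebraMap Qbar (FF N) r :=
      (qExpHom N).commutes r
    have := hc r
    rw [← h1] at this
    exact this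
  | add x y hx hy ihx ihy =>
    have h1 : qExpHom N (⟨x + y, add_mem hx hy⟩ : funAlg N)
        = qExpHom N ⟨x, hx⟩ + qExpHom N ⟨y, hy⟩ := map_add (qExpHom N) ⟨x, hx⟩ ⟨y, hy⟩
    rw [h1, φ.map_add, ψ.map_add, ihx, ihy]
  | mul x y hx hy ihx ihy =>
    have h1 : qExpHom N (⟨x * y, mul_mem hx hy⟩ : funAlg N)
        = qExpHom N ⟨x, hx⟩ * qExpHom N ⟨y, hy⟩ := map_mul (qExpHom N) ⟨x, hx⟩ ⟨y, hy⟩
    rw [h1, φ.map_mul, ψ.map_mul, ihx, ihy]

/-- two ring endomorphisms of `F_N` agreeing on the constants and on the `j_d` are equal. -/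
theorem eq_of_gens (N : ℕ) [NeZero N] (φ ψ : FF N →+* FF N)
    (hc : ∀ c : Qbar, φ (algebraMap Qbar (FF N) c) = ψ (algebraMap Qbar (FF N) c))
    (hj : ∀ (d : ℕ) [NeZero d] (hd : d ∣ N), φ (jBar N d hd) = ψ (jBar N d hd))
    (u : FF N) : φ u = ψ u := by
  obtain ⟨a, b, hb, hab⟩ := HG.exists_quot N u
  have hb' : qExpHom N b ≠ 0 := fun h => hb (qExpHom_injective N (by rw [h, map_zero]))
  have h1 : φ u * φ (qExpHom N b) = φ (qExpHom N a) := by rw [← map_mul, hab]
  have h2 : ψ u * ψ (qExpHom N b) = ψ (qExpHom N a) := by rw [← map_mul, hab]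
  rw [eq_on_funAlg N φ ψ hc hj a, eq_on_funAlg N φ ψ hc hj b, ← h2] at h1
  exact mul_right_cancel₀ ((map_ne_zero ψ).2 hb') h1

/-! ### (W5) -/

theorem alField : Stmt_ALField := by
  intro N _ e
  let _ : Algebra (funAlg N) (FF N) := (qExpHom N).toRingHom.toAlgebra
  have halg : ∀ f : funAlg N, algebraMap (funAlg N) (FF N) f = qExpHom N f := fun _ => rfl
  have : FaithfulSMul (funAlg N) (FF N) :=
    (faithfulSMul_iff_algebraMap_injective _ _).2 (qExpHom_injective N)
  have : IsFractionRing (funAlg N) (FF N) := IsFractionRing.of_field (funAlg N) (FF N) (fun z => by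
    obtain ⟨a, b, hb, hab⟩ := HG.exists_quot N z
    have hb' : qExpHom N b ≠ 0 := fun h => hb (qExpHom_injective N (by rw [h, map_zero]))
    exact ⟨a, b, by rw [halg, halg, eq_div_iff hb', hab]⟩)
  let w₀ : FF N ≃+* FF N := IsFractionRing.ringEquivOfRingEquiv (K := FF N) (L := FF N) e.toRingEquiv
  have hw₀ : ∀ f : funAlg N, w₀ (qExpHom N f) = qExpHom N (e f) := fun f =>
    IsFractionRing.ringEquivOfRingEquiv_algebraMap (K := FF N) (L := FF N) e.toRingEquiv f
  refine ⟨AlgEquiv.ofRingEquiv (f := w₀) (fun c => ?_), hw₀⟩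
  have h1 : qExpHom N (algebraMap Qbar (funAlg N) c) = algebraMap Qbar (FF N) c :=
    (qExpHom N).commutes c
  rw [← h1, hw₀, e.commutes]

/-! ### (W6) -/

theorem alExists (h1 : Stmt_ALMat) (h2 : Stmt_ALConj) (h4 : Stmt_ALAlg) : Stmt_ALExists := by
  intro N _ r hr hrN hr2
  obtain ⟨X⟩ := h1 N r hr hrN hr2
  obtain ⟨θ, hθ⟩ := h2 N r X
  obtain ⟨e, he, -⟩ := h4 N r X
  obtain ⟨w, hw⟩ := alField N e
  exact ⟨{ toALMat := X, θ := θ, hθ := hθ, wAlg := e, hwAlg := he, w := w, hw := hw }⟩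

/-! ### (W7) -/

theorem al_j (h4 : Stmt_ALAlg) : Stmt_AL_j := by
  intro N _ r X d e _ _ hd he hde
  obtain ⟨e', he', hex⟩ := h4 N r X.toALMat
  have heq : ∀ f : funAlg N, X.wAlg f = e' f := fun f =>
    Subtype.ext (funext fun z => by rw [X.hwAlg, he'])
  obtain ⟨h1, h2⟩ := hex d e hd he hde
  constructor
  · rw [← qExpHom_jAlg N d hd, X.hw, heq, h1, qExpHom_jAlg N e he]
  · rw [← qExpHom_jAlg N e he, X.hw, heq, h2, qExpHom_jAlg N d hd]

/-! ### the image of `j_d` under an Atkin-Lehner involution -/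

/-- for every `d ∣ N` there is `d' ∣ N` such that every `w` with `IsAL N r w` exchanges `j_d` and
`j_{d'}`. -/
theorem exists_partner (N : ℕ) [NeZero N] (r : ℕ) (hr : r.Prime) (hrN : r ∣ N) (d : ℕ) [NeZero d]
    (hd : d ∣ N) : ∃ (d' : ℕ) (_ : NeZero d') (hd' : d' ∣ N), ∀ w : FF N ≃ₐ[Qbar] FF N,
      IsAL N r w → w (jBar N d hd) = jBar N d' hd' ∧ w (jBar N d' hd') = jBar N d hd := by
  by_cases hrd : r ∣ d
  · obtain ⟨d', rfl⟩ := hrd
    have hd'0 : NeZero d' := ⟨by
      rintro rfl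
      exact NeZero.ne (r * 0) (mul_zero r)⟩
    have hd' : d' ∣ N := (Dvd.intro_left r rfl).trans hd
    exact ⟨d', hd'0, hd', fun w hw => (hw d' (r * d') hd' hd (mul_comm r d')).symm⟩
  · have hcop : Nat.Coprime d r := ((Nat.Prime.coprime_iff_not_dvd hr).2 hrd).symm
    have hd' : d * r ∣ N := Nat.Coprime.mul_dvd_of_dvd_of_dvd hcop hd hrN
    have hd'0 : NeZero (d * r) := ⟨mul_ne_zero (NeZero.ne d) hr.ne_zero⟩
    exact ⟨d * r, hd'0, hd', fun w hw => hw d (d * r) hd hd' rfl⟩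

/-! ### (W8) -/

theorem al_unique : Stmt_AL_unique := by
  intro N _ r hr hrN _ w w' hw hw'
  apply AlgEquiv.ext
  intro u
  refine eq_of_gens N (w : FF N →+* FF N) (w' : FF N →+* FF N) (fun c => ?_) (fun d _ hd => ?_) u
  · show w (algebraMap Qbar (FF N) c) = w' (algebraMap Qbar (FF N) c)
    rw [w.commutes, w'.commutes]
  · obtain ⟨d', _, hd', h⟩ := exists_partner N r hr hrN d hd
    show w (jBar N d hd) = w' (jBar N d hd)
    rw [(h w hw).1, (h w' hw').1]

/-! ### (W9) -/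

theorem gal_jBar (N : ℕ) (σ : GQ) (d : ℕ) [NeZero d] (hd : d ∣ N) :
    gal N σ (jBar N d hd) = jBar N d hd := by
  apply Subtype.ext
  rw [coe_gal]
  exact ModularCurve.coeffMap_coeffEmb σ _

theorem al_gal : Stmt_AL_gal := by
  intro N _ r hr hrN _ w hw σ u
  refine eq_of_gens N ((w : FF N →+* FF N).comp (gal N σ : FF N →+* FF N))
    ((gal N σ : FF N →+* FF N).comp (w : FF N →+* FF N)) (fun c => ?_) (fun d _ hd => ?_) u
  · show w (gal N σ (algebraMap Qbar (FF N) c)) = gal N σ (w (algebraMap Qbar (FF N) c))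
    rw [FIX.gal_algebraMap, w.commutes, w.commutes, FIX.gal_algebraMap]
  · obtain ⟨d', _, hd', h⟩ := exists_partner N r hr hrN d hd
    show w (gal N σ (jBar N d hd)) = gal N σ (w (jBar N d hd))
    rw [gal_jBar, (h w hw).1, gal_jBar]

/-! ### (W10) -/

theorem al_invol : Stmt_AL_invol := by
  intro N _ r hr hrN _ w hw u
  refine eq_of_gens N ((w : FF N →+* FF N).comp (w : FF N →+* FF N)) (RingHom.id (FF N))
    (fun c => ?_) (fun d _ hd => ?_) u
  · show w (w (algebraMap Qbar (FF N) c)) = algebraMap Qbar (FF N) c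
    rw [w.commutes, w.commutes]
  · obtain ⟨d', _, hd', h⟩ := exists_partner N r hr hrN d hd
    show w (w (jBar N d hd)) = jBar N d hd
    rw [(h w hw).1, (h w hw).2]

end Fermat.Agent.BR.F.W3
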