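import Fermat.Agent.BR.F.Interface

/-!
# BR / F, package W4 : the Kummer character of `w u` is `χ ∘ θ`
-/

set_option autoImplicit false

namespace Fermat.Agent.BR.F.W4

open UpperHalfPlane CongruenceSubgroup AlgebraicCurve CuspForm
open scoped MatrixGroups Manifold
open Fermat.Agent.S24 (Qbar FF funAlg iota jBar)
open Fermat.Agent.S24.QX (qExpHom cmI)
open Fermat.Agent.S16.HH (jG dataU dataT)
open Fermat.Agent.ES.Mid
attribute [local instance] Fermat.Agent.S24.algQbarComplex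

theorem sl_smul (N : ℕ) (γ : Gamma0 N) (z : ℍ) : ((γ : SL(2, ℤ)) • z) = jG N γ • z := rfl

theorem W_smul {N r : ℕ} [NeZero N] (X : AL N r) (γ : Gamma0 N) (z : ℍ) :
    X.W • ((γ : SL(2, ℤ)) • z) = ((X.θ γ : Gamma0 N) : SL(2, ℤ)) • (X.W • z) := by
  rw [sl_smul, sl_smul, X.hθ, ← mul_smul, ← mul_smul, inv_mul_cancel_right]

theorem comp_ne_zero {N r : ℕ} (X : ALMat N r) {a : ℍ → ℂ} (ha : a ≠ 0) :
    (fun z : ℍ => a (X.W • z)) ≠ 0 := by
  intro h
  apply ha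
  funext w
  have := congrFun h (X.W⁻¹ • w)
  simpa using this

theorem al_kum : Stmt_AL_kum := by
  intro N _ r X m _ u χ hK
  obtain ⟨a, b, θ₁, θ₂, ha, hb, ha0, hb0, hθ₂, hu, hpow, hchar⟩ := hK
  refine ⟨fun z => a (X.W • z), fun z => b (X.W • z), X.wAlg θ₁, X.wAlg θ₂,
    ha.comp (mdifferentiable_smul X.det_W_pos), hb.comp (mdifferentiable_smul X.det_W_pos),
    comp_ne_zero X.toALMat ha0, comp_ne_zero X.toALMat hb0, ?_, ?_, ?_, ?_⟩
  · intro h
    apply hθ₂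
    exact X.wAlg.injective (by rw [h, map_zero])
  · rw [← X.hw, ← X.hw, ← map_mul, hu]
  · intro z
    rw [X.hwAlg, X.hwAlg]
    exact hpow (X.W • z)
  · intro γ z
    show a (X.W • ((γ : SL(2, ℤ)) • z)) * b (X.W • z) = _ * (a (X.W • z) *
      b (X.W • ((γ : SL(2, ℤ)) • z)))
    rw [W_smul, X.chr_apply]
    exact hchar (X.θ γ) (X.W • z)

end Fermat.Agent.BR.F.W4
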