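import Fermat.Agent.BR.F.Interface

/-!
# BR / F / L0 : the abstract lemma behind S35 (pure algebra)
-/

set_option autoImplicit false

namespace Fermat.Agent.BR.F.L0

theorem absFrob : Stmt_AbsFrob := by
  intro R _ _ Λ _ _ _ s s' n w x r L hr hss' hs's hns hns' hnx hws hws' hwx hxs hxs' hLs hLs' hn hG
    hnnx
  have e_s's : ∀ v, s' (s v) = v := fun v => LinearMap.congr_fun hs's v
  have c_ns : ∀ v, n (s v) = s (n v) := fun v => LinearMap.congr_fun hns.eq v
  have c_ns' : ∀ v, n (s' v) = s' (n v) := fun v => LinearMap.congr_fun hns'.eq v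
  have c_ws : ∀ v, w (s v) = s (w v) := fun v => LinearMap.congr_fun hws.eq v
  have c_ws' : ∀ v, w (s' v) = s' (w v) := fun v => LinearMap.congr_fun hws'.eq v
  have c_wx : ∀ v, w (x v) = x (w v) := fun v => LinearMap.congr_fun hwx.eq v
  have c_ss' : ∀ v, s (s' v) = s' (s v) := fun v => by
    rw [e_s's]; exact LinearMap.congr_fun hss' v
  set t : Module.End R Λ := s + r • s' with ht
  have t_apply : ∀ v, t v = s v + r • s' v := fun v => rfl
  have hts : ∀ v, t (s v) = s (s v) + r • v := fun v => by rw [t_apply, e_s's]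
  have c_ts : ∀ v, t (s v) = s (t v) := fun v => by
    rw [t_apply, t_apply, map_add, map_smul, c_ss']
  have c_nt : ∀ v, n (t v) = t (n v) := fun v => by
    rw [t_apply, t_apply, map_add, map_smul, c_ns, c_ns']
  have c_wt : ∀ v, w (t v) = t (w v) := fun v => by
    rw [t_apply, t_apply, map_add, map_smul, c_ws, c_ws']
  have hLt : ∀ v ∈ L, t v ∈ L := fun v hv =>
    L.add_mem (hLs v hv) (L.smul_mem r (hLs' v hv))
  -- the basic congruence
  have star : ∀ v, n (n v) + r • v - t (n v) ∈ L := by
    intro v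
    have h1 : n (n v) + r • v - t (n v)
        = (n (n v) - s (n v)) + s (n v - s v) - t (n v - s v) := by
      rw [map_sub, map_sub, hts]
      abel
    rw [h1]
    exact L.sub_mem (L.add_mem (hn (n v)) (hLs _ (hn v))) (hLt _ (hn v))
  set z : Module.End R Λ := t ^ 2 - ((1 + r) ^ 2) • (1 : Module.End R Λ) with hz
  have z_apply : ∀ v, z v = t (t v) - ((1 + r) ^ 2) • v := fun v => by
    rw [hz, pow_two]; rfl
  have key : ∀ v, n (n v) = v → z v ∈ L := by
    intro v hv
    have h1 : (1 + r) • v - t (n v) ∈ L := by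
      have := star v
      rwa [hv, show v + r • v = (1 + r) • v by rw [add_smul, one_smul]] at this
    have h2 : (1 + r) • n v - t v ∈ L := by
      have := star (n v)
      rwa [hv, show n v + r • n v = (1 + r) • n v by rw [add_smul, one_smul]] at this
    have h3 : z v = -((1 + r) • ((1 + r) • v - t (n v)) + t ((1 + r) • n v - t v)) := by
      rw [z_apply, map_sub, map_smul, smul_sub, smul_smul, pow_two]
      abel
    rw [h3]
    exact L.neg_mem (L.add_mem (L.smul_mem _ h1) (hLt _ h2))
  have hfix : ∀ v, n (n (x v)) = x v := fun v => LinearMap.congr_fun hnnx v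
  have c_wz : ∀ v, w (z v) = z (w v) := fun v => by
    rw [z_apply, z_apply, map_sub, map_smul, c_wt, c_wt]
  refine LinearMap.ext fun v => ?_
  show (z ^ 2 * x) v = 0
  rw [pow_two]
  show z (z (x v)) = 0
  set u := z (x v) with hu
  have huL : u ∈ L := key _ (hfix v)
  have hwuL : w u ∈ L := by
    rw [hu, c_wz, c_wx]
    exact key _ (hfix (w v))
  have h1 : s (s u) = (r * r) • u := hG u huL hwuL
  have h2 : t (s u) = (r * r + r) • u := by rw [hts, h1, add_smul]
  have h3 : t (s (t (s u))) = ((r * r + r) * (r * r + r)) • u := by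
    rw [h2, map_smul, map_smul, h2, smul_smul]
  have h4 : t (s (t (s u))) = (r * r) • t (t u) := by
    rw [← c_ts (s u), h1, map_smul, map_smul]
  have h5 : (r * r) • z u = 0 := by
    rw [z_apply, smul_sub, ← h4, h3, smul_smul, ← sub_smul]
    have : (r * r + r) * (r * r + r) - r * r * (1 + r) ^ 2 = 0 := by ring
    rw [this, zero_smul]
  exact (smul_eq_zero.mp h5).resolve_left (mul_ne_zero hr hr)

end Fermat.Agent.BR.F.L0
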