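import Fermat.Agent.BR.F.Interface
import Fermat.Agent.ES.Mid.HF3

/-!
# BR / F / C : algebra of `CongOne`; automorphisms of `F_N / ℚ̄` preserve `U_m`
(`Stmt_CongAlg`, `Stmt_CongDecomp`, `Stmt_AL_div`)
-/

set_option autoImplicit false

namespace Fermat.Agent.BR.F.C

open AlgebraicCurve
open Fermat.Agent.S24 (Qbar FF)
open Fermat.Agent.ES.Mid
open ModularCurve (coeffMap coeffMap_coeffMap coeffMap_coeff)

variable {N : ℕ} {A : ValuationSubring Qbar}

theorem incl_injective : Function.Injective (coeffMap A.subtype) := by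
  intro x y h
  ext n
  have := congrArg (fun z : LaurentSeries Qbar => z.coeff n) h
  simp only [coeffMap_coeff] at this
  exact this

theorem congOne_one : CongOne N A 1 := by
  refine ⟨1, 1, ?_, ?_, ?_, rfl, ?_⟩
  · rw [map_one]; exact one_mem _
  · rw [map_one]; exact one_mem _
  · rw [map_one, mul_one]; rfl
  · rw [map_one]; exact one_ne_zero

theorem CongOne_ne_zero {u : FF N} (hu : CongOne N A u) : u ≠ 0 := by
  obtain ⟨y₁, y₂, -, -, h, hr, hr2⟩ := hu
  rintro rfl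
  apply hr2
  rw [← hr]
  have h0 : coeffMap A.subtype y₁ = 0 := by
    rw [← h]
    show (0 : LaurentSeries Qbar) * _ = 0
    rw [zero_mul]
  have : y₁ = 0 := incl_injective (by rw [h0, map_zero])
  rw [this, map_zero]

theorem CongOne_mul {u v : FF N} (hu : CongOne N A u) (hv : CongOne N A v) :
    CongOne N A (u * v) := by
  obtain ⟨y₁, y₂, m1, m2, h, hr, hr2⟩ := hu
  obtain ⟨z₁, z₂, n1, n2, h', hr', hr2'⟩ := hv
  refine ⟨y₁ * z₁, y₂ * z₂, ?_, ?_, ?_, ?_, ?_⟩
  · rw [map_mul]; exact mul_mem m1 n1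
  · rw [map_mul]; exact mul_mem m2 n2
  · rw [map_mul, map_mul, ← h, ← h']
    show (u : LaurentSeries Qbar) * (v : LaurentSeries Qbar) * _ = _
    ring
  · rw [map_mul, map_mul, hr, hr']
  · rw [map_mul]; exact mul_ne_zero hr2 hr2'

theorem CongOne_inv {u : FF N} (hu : CongOne N A u) : CongOne N A u⁻¹ := by
  have hu0 := CongOne_ne_zero hu
  obtain ⟨y₁, y₂, m1, m2, h, hr, hr2⟩ := hu
  refine ⟨y₂, y₁, m2, m1, ?_, hr.symm, by rw [hr]; exact hr2⟩
  rw [← h]
  have hu0' : (u : LaurentSeries Qbar) ≠ 0 := fun h0 => hu0 (Subtype.ext h0)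
  show (u : LaurentSeries Qbar)⁻¹ * _ = _
  rw [inv_mul_cancel_left₀ hu0']

theorem congAlg : Stmt_CongAlg := fun _ _ =>
  ⟨congOne_one, fun _ _ => CongOne_mul, fun _ => CongOne_inv, fun _ => CongOne_ne_zero⟩

/-! ### the decomposition group -/

section Decomp

variable {σ : GQ}

theorem residue_sA_eq_zero_iff (hσ : σ ∈ A.decompositionSubgroup ℚ) (a : A) :
    IsLocalRing.residue A (HF3.sA A σ hσ a) = 0 ↔ IsLocalRing.residue A a = 0 := by
  have key : ∀ (τ : GQ) (hτ : τ ∈ A.decompositionSubgroup ℚ) (b : A), IsUnit b →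
      IsUnit (HF3.sA A τ hτ b) := fun τ hτ b hb => hb.map _
  have hinv : σ⁻¹ ∈ A.decompositionSubgroup ℚ := inv_mem hσ
  rw [IsLocalRing.residue_eq_zero_iff, IsLocalRing.residue_eq_zero_iff,
    IsLocalRing.mem_maximalIdeal, IsLocalRing.mem_maximalIdeal, mem_nonunits_iff, mem_nonunits_iff,
    not_iff_not]
  refine ⟨fun h => ?_, key σ hσ a⟩
  have h2 := key σ⁻¹ hinv _ h
  have h3 : HF3.sA A σ⁻¹ hinv (HF3.sA A σ hσ a) = a := by
    apply Subtype.ext
    show σ⁻¹ (σ (a : Qbar)) = a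
    exact σ.symm_apply_apply _
  rwa [h3] at h2

theorem red_sA_eq_zero_iff (hσ : σ ∈ A.decompositionSubgroup ℚ) (y : LaurentSeries A) :
    coeffMap (IsLocalRing.residue A) (coeffMap (HF3.sA A σ hσ) y) = 0 ↔
      coeffMap (IsLocalRing.residue A) y = 0 := by
  constructor
  · intro h
    ext n
    have := congrArg (fun z => z.coeff n) h
    simp only [coeffMap_coeff, HahnSeries.coeff_zero] at this
    rw [coeffMap_coeff, HahnSeries.coeff_zero]
    exact (residue_sA_eq_zero_iff hσ _).1 this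
  · intro h
    ext n
    have := congrArg (fun z => z.coeff n) h
    simp only [coeffMap_coeff, HahnSeries.coeff_zero] at this
    rw [coeffMap_coeff, coeffMap_coeff, HahnSeries.coeff_zero]
    exact (residue_sA_eq_zero_iff hσ _).2 this

theorem incl_sA (hσ : σ ∈ A.decompositionSubgroup ℚ) (y : LaurentSeries A) :
    coeffMap A.subtype (coeffMap (HF3.sA A σ hσ) y) =
      coeffMap (σ : Qbar →+* Qbar) (coeffMap A.subtype y) := by
  rw [coeffMap_coeffMap, coeffMap_coeffMap, HF3.subtype_comp_sA]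

theorem CongOne_gal (hσ : σ ∈ A.decompositionSubgroup ℚ) {u : FF N} (hu : CongOne N A u) :
    CongOne N A (gal N σ u) := by
  obtain ⟨y₁, y₂, m1, m2, h, hr, hr2⟩ := hu
  refine ⟨coeffMap (HF3.sA A σ hσ) y₁, coeffMap (HF3.sA A σ hσ) y₂, ?_, ?_, ?_, ?_, ?_⟩
  · rw [incl_sA]
    exact (gal N σ ⟨_, m1⟩).2
  · rw [incl_sA]
    exact (gal N σ ⟨_, m2⟩).2
  · rw [incl_sA, incl_sA, coe_gal, ← map_mul, h]
  · rw [← sub_eq_zero, ← map_sub, ← map_sub, red_sA_eq_zero_iff, map_sub, hr, sub_self]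
  · rw [Ne, red_sA_eq_zero_iff]; exact hr2

theorem congDecomp : Stmt_CongDecomp := fun _ _ _ hσ _ hu => CongOne_gal hσ hu

end Decomp

/-! ### automorphisms preserve `U_m` -/

theorem al_div : Stmt_AL_div := by
  intro N m w u hu
  refine ⟨(map_ne_zero_iff _ w.injective).2 hu.1, fun P => ?_⟩
  have h1 : P = w • (w⁻¹ • P) := by rw [smul_inv_smul]
  rw [h1, Place.ord_smul]
  exact hu.2 _

end Fermat.Agent.BR.F.C
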