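import Fermat.Agent.BR.F.Interface

/-!
# BR / F / X : the finite level package (`Stmt_FinAct`, `Stmt_BRFin`)
-/

set_option autoImplicit false

namespace Fermat.Agent.BR.F.XB

open UpperHalfPlane CongruenceSubgroup AlgebraicCurve
open scoped MatrixGroups Manifold
open Fermat.Agent.S24 (Qbar FF funAlg iota)
open Fermat.Agent.ES.Mid Fermat.Agent.ES.Mid.GLUE Fermat.Agent.ES.Mid.FIX
open Fermat.Agent.ES.Coh (FinLevelData)

/-- (X0) = the proof of `FIX.finLevel'` with the explicit witness `GLUE.act`. -/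
theorem finAct (h : ESHyp) : Stmt_FinAct := by
  obtain ⟨hMul, hInv, hPow, hUn, hRed, hA, hB, hE, hF, hT, hH, hJ, hK, hL, hM⟩ := h
  intro N _
  have hW : ∀ {m : ℕ} [NeZero m] (σ : GQ) {χ : Additive (Gamma0 N) →+ ZMod m}, IsPE χ →
      ∀ {u : FF N}, Kum N m u χ → IsPE (act N m σ χ) ∧ Kum N m (gal N σ u) (act N m σ χ) :=
    fun σ _ hχ _ hu => W hMul hInv hPow hA hB hE σ hχ hu
  have hU : ∀ {m : ℕ} [NeZero m] (σ : GQ) {χ ψ : Additive (Gamma0 N) →+ ZMod m}, IsPE χ →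
      ∀ {u : FF N}, Kum N m u χ → Kum N m (gal N σ u) ψ → act N m σ χ = ψ :=
    fun σ _ _ hχ _ hu hψ => U hMul hInv hPow hUn hA hB hE σ hχ hu hψ
  refine ⟨⟨fun m _ σ χ => act N m σ χ, ?_, ?_, ?_, ?_, ?_, ?_, ?_, ?_, ?_⟩,
    fun m _ σ χ => rfl⟩
  · -- IsPE
    intro m _ σ χ hχ
    obtain ⟨u, hu⟩ := hF N m χ hχ
    exact (hW σ hχ hu).1
  · -- add
    intro m _ σ χ χ' hχ hχ'
    obtain ⟨u, hu⟩ := hF N m χ hχ
    obtain ⟨u', hu'⟩ := hF N m χ' hχ'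
    refine hU σ (isPE_add hχ hχ') (hMul N m _ _ _ _ hu hu') ?_
    rw [map_mul]
    exact hMul N m _ _ _ _ (hW σ hχ hu).2 (hW σ hχ' hu').2
  · -- one
    intro m _ χ hχ
    obtain ⟨u, hu⟩ := hF N m χ hχ
    refine hU 1 hχ hu ?_
    rwa [gal_one]
  · -- mul
    intro m _ σ τ χ hχ
    obtain ⟨u, hu⟩ := hF N m χ hχ
    refine hU (σ * τ) hχ hu ?_
    rw [gal_mul]
    obtain ⟨h1, h2⟩ := hW τ hχ hu
    exact (hW σ h1 h2).2
  · -- red
    intro m m' _ _ h σ χ hχ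
    obtain ⟨u, hu⟩ := hF N m' χ hχ
    exact (hU σ (isPE_red h hχ) (hRed N m m' h u χ hu)
      (hRed N m m' h _ _ (hW σ hχ hu).2)).symm
  · -- tau
    intro m _ ℓ hℓ σ χ hχ
    obtain ⟨u, hu⟩ := hF N m χ hχ
    obtain ⟨Nl, hN1, hN2, -⟩ := hH N ℓ hℓ
    refine hU σ (hT N ℓ _ χ hχ) (hN1 m u χ hu) ?_
    rw [← hN2]
    exact hN1 m _ _ (hW σ hχ hu).2
  · -- finite level
    intro m _
    have hfin : Finite (Additive (Gamma0 N) →+ ZMod m) := hM N m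
    have hex : ∀ χ : Additive (Gamma0 N) →+ ZMod m, ∃ L : IntermediateField ℚ Qbar,
        FiniteDimensional ℚ L ∧ ∀ σ : GQ, (∀ x ∈ L, σ x = x) → IsPE χ → act N m σ χ = χ := by
      intro χ
      by_cases hχ : IsPE χ
      · obtain ⟨u, hu⟩ := hF N m χ hχ
        obtain ⟨L, hL1, hL2⟩ := hL N u
        refine ⟨L, hL1, fun σ hσ _ => hU σ hχ hu ?_⟩
        rwa [hL2 σ hσ]
      · exact ⟨⊥, inferInstance, fun _ _ h => absurd h hχ⟩
    choose L hL1 hL2 using hex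
    refine ⟨⨆ χ, L χ, ?_, ?_⟩
    · have := hL1
      exact IntermediateField.finiteDimensional_iSup_of_finite
    · intro σ hσ χ hχ
      exact hL2 χ σ (fun x hx => hσ x ((le_iSup L χ) hx)) hχ
  · -- unramified
    intro m _ q hq hqN hqm A hA' σ hσ χ hχ
    obtain ⟨u, hu⟩ := hF N m χ hχ
    have hdu : IsDiv N m u := hB N m u χ hu hχ
    have hdy : IsDiv N m (gal N σ u * u⁻¹) := isDiv_mul (isDiv_gal hdu σ) (isDiv_inv hdu)
    obtain ⟨w, hw, hcong⟩ := hJ N A σ hσ u hdu.1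
    obtain ⟨g, hg⟩ := hK N q hq hqN A hA' m hqm _ hcong (isDiv_mul (isDiv_const N m hw) hdy)
    obtain ⟨v, hv⟩ := exists_const_pow N m w
    have hwF : algebraMap Qbar (FF N) w ≠ 0 := (isDiv_const N m hw).1
    have hg' : (g * (algebraMap Qbar (FF N) v)⁻¹) ^ m = gal N σ u * u⁻¹ := by
      rw [mul_pow, inv_pow, hv, hg, mul_comm, inv_mul_cancel_left₀ hwF]
    have h0 := kum_zero_of_pow hPow hdy.1 hg'
    have h1 := hMul N m _ _ _ _ (hW σ hχ hu).2 (hInv N m _ _ hu)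
    have h2 := hUn N m _ _ _ h1 h0
    rwa [← sub_eq_add_neg, sub_eq_zero] at h2
  · -- Eichler-Shimura relation
    intro m _ ℓ hℓN hℓm A hA' σ hσ χ hχ
    obtain ⟨u, hu⟩ := hF N m χ hχ
    have hdu : IsDiv N m u := hB N m u χ hu hχ
    obtain ⟨Nl, hN1, -, hN3⟩ := hH N ℓ hℓN
    obtain ⟨h1, h2⟩ := hW σ hχ hu
    obtain ⟨h3, h4⟩ := hW σ h1 h2
    have h5 : Kum N m (gal N σ (gal N σ u) * u ^ (ℓ : ℕ) * (Nl (gal N σ u))⁻¹)
        (act N m σ (act N m σ χ) + (ℓ : ℕ) • χ + -(tau N ℓ (ZMod m) (act N m σ χ))) :=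
      hMul N m _ _ _ _ (hMul N m _ _ _ _ h4 (kum_pow hMul hPow hu _))
        (hInv N m _ _ (hN1 m _ _ h2))
    have h6 : IsPE (act N m σ (act N m σ χ) + (ℓ : ℕ) • χ +
        -(tau N ℓ (ZMod m) (act N m σ χ))) :=
      isPE_add (isPE_add h3 (isPE_nsmul hχ _)) (isPE_neg (hT N ℓ _ _ h1))
    have hdy := hB N m _ _ h5 h6
    obtain ⟨g, hg⟩ := hK N ℓ ℓ.2 hℓN A hA' m hℓm _ (hN3 A hA' σ hσ u hdu.1) hdy
    have h0 := kum_zero_of_pow hPow hdy.1 hg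
    have h7 := hUn N m _ _ _ h5 h0
    rw [← h7]
    abel

/-- `chr` preserves `IsPE`. -/
theorem isPE_chr (htr : Stmt_AL_trace) {N : ℕ} [NeZero N] {r : ℕ} (X : AL N r) {B : Type}
    [AddCommGroup B] {χ : Additive (Gamma0 N) →+ B} (hχ : IsPE χ) : IsPE (X.chr χ) := by
  intro γ hγ
  rw [AL.chr_apply]
  apply hχ
  rw [htr N r X γ]
  exact hγ

/-- a nonzero constant has trivial Kummer character. -/
theorem kum_const (hPow : Stmt_KumPow) (N m : ℕ) [NeZero N] [NeZero m] {c : Qbar} (hc : c ≠ 0) :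
    Kum N m (algebraMap Qbar (FF N) c) 0 := by
  obtain ⟨v, hv⟩ := exists_const_pow N m c
  exact kum_zero_of_pow hPow (isDiv_const N m hc).1 hv

/-- (X) -/
theorem brFin (h : ESHyp) (hG : Stmt_G) (hEx : Stmt_ALExists) (hj : Stmt_AL_j)
    (hgal : Stmt_AL_gal) (hkum : Stmt_AL_kum) (htr : Stmt_AL_trace) (hHU : Stmt_HeckeU)
    (hC : Stmt_CongAlg) (hDec : Stmt_CongDecomp) : Stmt_BRFin := by
  intro N _
  obtain ⟨D, hD⟩ := finAct h N
  obtain ⟨hMul, hInv, hPow, hUn, hRed, hA, hB, hE, hF, hT, hH, hJ, hK, hL, hM⟩ := h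
  have hW : ∀ {m : ℕ} [NeZero m] (σ : GQ) {χ : Additive (Gamma0 N) →+ ZMod m}, IsPE χ →
      ∀ {u : FF N}, Kum N m u χ → IsPE (act N m σ χ) ∧ Kum N m (gal N σ u) (act N m σ χ) :=
    fun σ _ hχ _ hu => W hMul hInv hPow hA hB hE σ hχ hu
  have hU : ∀ {m : ℕ} [NeZero m] (σ : GQ) {χ ψ : Additive (Gamma0 N) →+ ZMod m}, IsPE χ →
      ∀ {u : FF N}, Kum N m u χ → Kum N m (gal N σ u) ψ → act N m σ χ = ψ :=
    fun σ _ _ hχ _ hu hψ => U hMul hInv hPow hUn hA hB hE σ hχ hu hψ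
  refine ⟨D, fun r hrN hr2 => ?_⟩
  obtain ⟨X⟩ := hEx N r r.2 hrN hr2
  obtain ⟨d, hd, hGd⟩ := hG N r r.2 hrN hr2
  obtain ⟨Nr, hN1, hN2, hN3⟩ := hHU N r hrN
  refine ⟨X, d, hd, fun A hA' => ?_⟩
  obtain ⟨hC1, hCm, hCi, hC0⟩ := hC N A
  have hneg : ∀ (m : ℕ) [NeZero m] (χ : Additive (Gamma0 N) →+ ZMod m),
      InWinf N m A χ → InWinf N m A (-χ) := by
    rintro m _ χ ⟨u, hu, hc⟩
    exact ⟨u⁻¹, hInv N m _ _ hu, hCi u hc⟩
  -- the hypotheses of Theorem G from the character side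
  have hGin : ∀ (m : ℕ) [NeZero m] (χ : Additive (Gamma0 N) →+ ZMod m), IsPE χ →
      InWinf N m A χ → InWinf N m A (X.chr χ) →
      ∃ u : FF N, Kum N m u χ ∧ IsDiv N m u ∧ CongOne N A u ∧ ClassCong N m A (X.w u) := by
    rintro m _ χ hχ ⟨u, hu, hc⟩ ⟨u', hu', hc'⟩
    have hdu : IsDiv N m u := hB N m u χ hu hχ
    have hwu0 : X.w u ≠ 0 := (map_ne_zero_iff _ X.w.injective).2 hdu.1
    have h1 : Kum N m (u' * (X.w u)⁻¹) 0 := by
      have := hMul N m _ _ _ _ hu' (hInv N m _ _ (hkum N r X m u χ hu))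
      rwa [add_neg_cancel] at this
    obtain ⟨f, hf⟩ := hE N m _ h1
    have hf0 : f ≠ 0 := by
      rintro rfl
      rw [zero_pow (NeZero.ne m)] at hf
      exact (mul_ne_zero (hC0 u' hc') (inv_ne_zero hwu0)) hf.symm
    refine ⟨u, hu, hdu, hc, f, hf0, ?_⟩
    rw [hf, mul_comm u', mul_inv_cancel_left₀ hwu0]
    exact hc'
  constructor
  · -- winf_zero
    intro m _
    refine ⟨1, ?_, hC1⟩
    have := hPow N m 1 one_ne_zero
    rwa [one_pow] at this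
  · -- winf_add
    rintro m _ χ χ' ⟨u, hu, hc⟩ ⟨u', hu', hc'⟩
    exact ⟨u * u', hMul N m _ _ _ _ hu hu', hCm u u' hc hc'⟩
  · exact hneg
  · -- winf_act
    rintro m _ σ hσ χ hχ ⟨u, hu, hc⟩
    rw [hD]
    exact ⟨gal N σ u, (hW σ hχ hu).2, hDec N A σ hσ u hc⟩
  · -- inertia
    intro m _ τ hτ χ hχ
    rw [hD]
    obtain ⟨u, hu⟩ := hF N m χ hχ
    have hdu : IsDiv N m u := hB N m u χ hu hχ
    obtain ⟨c, hc, hcong⟩ := hJ N A τ hτ u hdu.1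
    refine ⟨_, ?_, hcong⟩
    have := hMul N m _ _ _ _ (kum_const hPow N m hc)
      (hMul N m _ _ _ _ (hW τ hχ hu).2 (hInv N m _ _ hu))
    rwa [zero_add, ← sub_eq_add_neg] at this
  · -- frob
    intro m _ σ hσ χ hχ
    rw [hD]
    obtain ⟨u, hu⟩ := hF N m χ hχ
    have hdu : IsDiv N m u := hB N m u χ hu hχ
    obtain ⟨c, hc, hcong⟩ := hN3 A hA' σ hσ u hdu.1
    have h1 : InWinf N m A (act N m σ χ - tau N r (ZMod m) χ) := by
      refine ⟨_, ?_, hcong⟩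
      have := hMul N m _ _ _ _ (kum_const hPow N m hc)
        (hMul N m _ _ _ _ (hW σ hχ hu).2 (hInv N m _ _ (hN1 m u χ hu)))
      rwa [zero_add, ← sub_eq_add_neg] at this
    have h2 := hneg m _ h1
    rwa [neg_sub] at h2
  · -- chr_act
    intro m _ σ χ hχ
    rw [hD, hD]
    obtain ⟨u, hu⟩ := hF N m χ hχ
    refine (hU σ (isPE_chr htr X hχ) (hkum N r X m u χ hu) ?_).symm
    rw [← hgal N r r.2 hrN hr2 X.w (hj N r X) σ u]
    exact hkum N r X m _ _ (hW σ hχ hu).2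
  · -- tau_act
    intro m _ σ χ hχ
    rw [hD, hD]
    obtain ⟨u, hu⟩ := hF N m χ hχ
    refine (hU σ (hT N r _ χ hχ) (hN1 m u χ hu) ?_).symm
    rw [← hN2]
    exact hN1 m _ _ (hW σ hχ hu).2
  · -- g1
    intro m _ hrm τ hτ χ hχ h1 h2
    rw [hD]
    obtain ⟨u, hu, hdu, hc, hcl⟩ := hGin m χ hχ h1 h2
    obtain ⟨g, hg⟩ := (hGd X.w (hj N r X) A hA' m hrm u hdu hc hcl).1 τ hτ
    have hy0 : (gal N τ u * u⁻¹) ^ d ≠ 0 :=
      pow_ne_zero _ (mul_ne_zero (gal_ne_zero N τ hdu.1) (inv_ne_zero hdu.1))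
    have h3 := kum_zero_of_pow hPow hy0 hg
    have h4 := kum_pow hMul hPow (hMul N m _ _ _ _ (hW τ hχ hu).2 (hInv N m _ _ hu)) d
    rw [sub_eq_add_neg]
    exact hUn N m _ _ _ h4 h3
  · -- g2
    intro m _ hrm σ hσ χ hχ h1 h2
    rw [hD, hD]
    obtain ⟨u, hu, hdu, hc, hcl⟩ := hGin m χ hχ h1 h2
    obtain ⟨g, hg⟩ := (hGd X.w (hj N r X) A hA' m hrm u hdu hc hcl).2 σ hσ
    have hy0 : (gal N σ (gal N σ u) * (u ^ ((r : ℕ) ^ 2))⁻¹) ^ d ≠ 0 :=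
      pow_ne_zero _ (mul_ne_zero (gal_ne_zero N σ (gal_ne_zero N σ hdu.1))
        (inv_ne_zero (pow_ne_zero _ hdu.1)))
    have h3 := kum_zero_of_pow hPow hy0 hg
    obtain ⟨h5, h6⟩ := hW σ hχ hu
    have h4 := kum_pow hMul hPow (hMul N m _ _ _ _ (hW σ h5 h6).2
      (hInv N m _ _ (kum_pow hMul hPow hu ((r : ℕ) ^ 2)))) d
    rw [sub_eq_add_neg]
    exact hUn N m _ _ _ h4 h3

end Fermat.Agent.BR.F.XB
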