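import Fermat.Agent.BR.F.Interface

/-!
# BR / F / L : from the finite level package `Stmt_BRFin` to `Stmt_ES_BR`
-/

set_option autoImplicit false
set_option linter.unusedSectionVars false

namespace Fermat.Agent.BR.F.L

open UpperHalfPlane CongruenceSubgroup AlgebraicCurve CuspForm ModularCurve ModularCurve.Period
open scoped MatrixGroups Manifold
open Fermat.Agent.S24 (Qbar FF)
open Fermat.Agent.S16.HH
open Fermat.Agent.ES.Mid (IsPE GQ)
open Fermat.Agent.ES.Coh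

variable {N : ℕ} [NeZero N] (p : ℕ) [hp : Fact p.Prime]

/-! ### torsion freeness -/

theorem lam_nsmul_eq_zero {d : ℕ} (hd : 0 < d) {χ : Lam N p} (h : d • χ = 0) : χ = 0 := by
  apply Subtype.ext
  ext γ
  have h1 : (d • χ).1 γ = 0 := by rw [h]; rfl
  have h2 : (d • χ).1 γ = d • χ.1 γ := rfl
  rw [h2, nsmul_eq_mul] at h1
  rcases mul_eq_zero.mp h1 with h3 | h3
  · exact absurd (Nat.cast_eq_zero.mp h3) hd.ne'
  · exact h3

instance : Module.Free ℤ_[p] (Lam N p) := Module.Free.of_basis (basisLam N p)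

/-! ### the Atkin-Lehner involution on `Λ` -/

/-- `chr` on `Λ`. -/
noncomputable def wLam (htr : Stmt_AL_trace) {r : ℕ} (X : AL N r) :
    Module.End ℤ_[p] (Lam N p) where
  toFun χ := ⟨X.chr χ.1, fun γ hγ => by
    rw [AL.chr_apply]
    exact χ.2 _ (by rw [htr N r X γ]; exact hγ)⟩
  map_add' χ χ' := Subtype.ext (map_add _ χ.1 χ'.1)
  map_smul' c χ := Subtype.ext (by ext γ; rfl)

theorem redP_wLam (htr : Stmt_AL_trace) {r : ℕ} (X : AL N r) (χ : Lam N p) (n : ℕ) :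
    redP p n (wLam p htr X χ).1 = X.chr (redP p n χ.1) := rfl

theorem isPE_chr' (htr : Stmt_AL_trace) {r : ℕ} (X : AL N r) {B : Type}
    [AddCommGroup B] {χ : Additive (Gamma0 N) →+ B} (hχ : IsPE χ) : IsPE (X.chr χ) := by
  intro γ hγ
  rw [AL.chr_apply]
  apply hχ
  rw [htr N r X γ]
  exact hγ

theorem wLam_comm_tauLam (htr : Stmt_AL_trace) (htau : Stmt_AL_tau) {r : ℕ} (X : AL N r)
    (ℓ : Nat.Primes) (hℓ : ¬ (ℓ : ℕ) ∣ N) :
    wLam p htr X * tauLam p ℓ = tauLam p ℓ * wLam p htr X :=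
  LinearMap.ext fun χ => Subtype.ext (htau N r X ℓ hℓ ℤ_[p] χ.1)

theorem wLam_comm_ThetaLam (htr : Stmt_AL_trace) (htau : Stmt_AL_tau) {r : ℕ} (X : AL N r)
    (S : Set ℕ) (hNS : ∀ q : ℕ, q.Prime → q ∣ N → q ∈ S) (x : heckeAlgebra N 2 S) :
    wLam p htr X * ThetaLam N p S x = ThetaLam N p S x * wLam p htr X := by
  obtain ⟨x, hx⟩ := x
  induction hx using Algebra.adjoin_induction with
  | mem t ht =>
    rcases ht with ⟨ℓ, hℓ, hℓN, hℓS, rfl⟩ | ⟨q, hqN, hq, hqS, rfl⟩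
    · have h2 : ThetaLam N p S ⟨heckeTLin 2 hℓ hℓN, Algebra.subset_adjoin
          (Or.inl ⟨ℓ, hℓ, hℓN, hℓS, rfl⟩)⟩ = tauLam p (⟨ℓ, hℓ⟩ : Nat.Primes) :=
        ThetaLam_T N p S hℓ hℓN hℓS
      rw [h2]
      exact wLam_comm_tauLam p htr htau X (⟨ℓ, hℓ⟩ : Nat.Primes) hℓN
    · exact absurd (hNS q hq hqN) hqS
  | algebraMap c =>
    have : (⟨algebraMap ℤ _ c, Subalgebra.algebraMap_mem _ c⟩ : heckeAlgebra N 2 S)
        = algebraMap ℤ (heckeAlgebra N 2 S) c := rfl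
    rw [this]
    have h2 : ThetaLam N p S (algebraMap ℤ (heckeAlgebra N 2 S) c)
        = (c : Module.End ℤ_[p] (Lam N p)) := by
      rw [eq_intCast (algebraMap ℤ (heckeAlgebra N 2 S)) c, map_intCast]
    rw [h2]
    exact (Int.cast_commute c (wLam p htr X)).symm.eq
  | add a b ha hb iha ihb =>
    have : (⟨a + b, Subalgebra.add_mem _ ha hb⟩ : heckeAlgebra N 2 S) = ⟨a, ha⟩ + ⟨b, hb⟩ := rfl
    rw [this, map_add, mul_add, add_mul, iha, ihb]
  | mul a b ha hb iha ihb =>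
    have : (⟨a * b, Subalgebra.mul_mem _ ha hb⟩ : heckeAlgebra N 2 S) = ⟨a, ha⟩ * ⟨b, hb⟩ := rfl
    rw [this, map_mul, ← mul_assoc, iha, mul_assoc, ihb, mul_assoc]

/-! ### `U_q` on the lattices -/

theorem castH_tauH_of (q : Nat.Primes) (hqN : (q : ℕ) ∣ N) (y : H N)
    (f g : CuspForm (Gamma0 N) 2) (h : castH N y = periodHomPair N (f, g)) :
    castH N (tauH N q y) = periodHomPair N (heckeULin 2 hqN f, heckeULin 2 hqN g) := by
  rw [castH_apply, tauH_coe, comp_tau, ← castH_apply, h, tau_periodHomPair,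
    heckeFormsGen_of_dvd hqN]
  rfl

theorem heckeU_comm (q : Nat.Primes) (hqN : (q : ℕ) ∣ N) (S : Set ℕ) (x : heckeAlgebra N 2 S) :
    heckeULin 2 hqN * x.1 = x.1 * heckeULin 2 hqN := by
  have h1 : x.1 ∈ heckeAlgebra N 2 ∅ := heckeAlgebra_mono (Set.empty_subset S) x.2
  have h2 : heckeULin 2 hqN ∈ heckeAlgebra N 2 ∅ :=
    heckeULin_mem_heckeAlgebra q.2 hqN (Set.notMem_empty _)
  exact congrArg Subtype.val
    (mul_comm (⟨_, h2⟩ : heckeAlgebra N 2 ∅) (⟨_, h1⟩ : heckeAlgebra N 2 ∅))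

theorem tauH_comm_Theta0 (q : Nat.Primes) (hqN : (q : ℕ) ∣ N) (S : Set ℕ)
    (x : heckeAlgebra N 2 S) (h : H N) :
    tauH N q (Theta0 N S x h) = Theta0 N S x (tauH N q h) := by
  apply castH_injective N
  obtain ⟨⟨f, g⟩, hfg⟩ := castH_mem_range N h
  rw [castH_tauH_of q hqN _ _ _ (Theta0_spec N S x h f g hfg.symm),
    Theta0_spec N S x _ _ _ (castH_tauH_of q hqN h f g hfg.symm)]
  have hc := heckeU_comm q hqN S x
  have h1 : ∀ f, heckeULin 2 hqN (x.1 f) = x.1 (heckeULin 2 hqN f) :=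
    fun f => LinearMap.congr_fun hc f
  rw [h1, h1]

theorem tauH_sq_Theta0 (q : Nat.Primes) (hqN : (q : ℕ) ∣ N) (S : Set ℕ)
    (x : heckeAlgebra N 2 S) (hx : NewAt hqN x) (h : H N) :
    tauH N q (tauH N q (Theta0 N S x h)) = Theta0 N S x h := by
  apply castH_injective N
  obtain ⟨⟨f, g⟩, hfg⟩ := castH_mem_range N h
  have h0 := Theta0_spec N S x h f g hfg.symm
  rw [castH_tauH_of q hqN _ _ _ (castH_tauH_of q hqN _ _ _ h0), h0]
  have h1 : ∀ f, heckeULin 2 hqN (heckeULin 2 hqN (x.1 f)) = x.1 f :=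
    fun f => LinearMap.congr_fun hx f
  rw [h1, h1]

theorem tauLam_comm_ThetaLam (q : Nat.Primes) (hqN : (q : ℕ) ∣ N) (S : Set ℕ)
    (x : heckeAlgebra N 2 S) :
    tauLam p q * ThetaLam N p S x = ThetaLam N p S x * tauLam p q := by
  refine (isBaseChange_castLam N p).algHom_ext _ _ fun h => ?_
  show tauLam p q (ThetaLam N p S x (castLam N p h)) = ThetaLam N p S x (tauLam p q (castLam N p h))
  rw [ThetaLam_castLam, ← castLam_tauH, ← castLam_tauH, ThetaLam_castLam, tauH_comm_Theta0 q hqN]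

theorem tauLam_sq_ThetaLam (q : Nat.Primes) (hqN : (q : ℕ) ∣ N) (S : Set ℕ)
    (x : heckeAlgebra N 2 S) (hx : NewAt hqN x) :
    tauLam p q * tauLam p q * ThetaLam N p S x = ThetaLam N p S x := by
  refine (isBaseChange_castLam N p).algHom_ext _ _ fun h => ?_
  show tauLam p q (tauLam p q (ThetaLam N p S x (castLam N p h))) = ThetaLam N p S x (castLam N p h)
  rw [ThetaLam_castLam, ← castLam_tauH, ← castLam_tauH, tauH_sq_Theta0 q hqN S x hx]

/-! ### the submodule `Λ_∞` -/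

section Inf

variable {D : FinLevelData N} {r : Nat.Primes} {X : AL N r} {A : ValuationSubring Qbar} {d : ℕ}

theorem winf_nsmul (B : BRFin D r X A d) (m : ℕ) [NeZero m]
    (χ : Additive (Gamma0 N) →+ ZMod m) (h : InWinf N m A χ) (k : ℕ) : InWinf N m A (k • χ) := by
  induction k with
  | zero => rw [zero_smul]; exact B.winf_zero m
  | succ k ih => rw [succ_nsmul]; exact B.winf_add m _ _ ih h

theorem winf_sub (B : BRFin D r X A d) (m : ℕ) [NeZero m]
    (χ χ' : Additive (Gamma0 N) →+ ZMod m) (h : InWinf N m A χ) (h' : InWinf N m A χ') :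
    InWinf N m A (χ - χ') := by
  rw [sub_eq_add_neg]; exact B.winf_add m _ _ h (B.winf_neg m _ h')

/-- `Λ_∞`. -/
def lamInf (B : BRFin D r X A d) : Submodule ℤ_[p] (Lam N p) where
  carrier := {χ | ∀ n : ℕ, InWinf N (p ^ n) A (redP p n χ.1)}
  zero_mem' := fun n => by
    have : redP p n (0 : Lam N p).1 = 0 := by ext x; simp [redP_apply]
    rw [this]; exact B.winf_zero _
  add_mem' := fun {a b} ha hb n => by
    show InWinf N (p ^ n) A (redP p n (a.1 + b.1))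
    rw [redP_add]; exact B.winf_add _ _ _ (ha n) (hb n)
  smul_mem' := fun c a ha n => by
    show InWinf N (p ^ n) A (redP p n (c • a.1))
    rw [redP_smul_eq_nsmul]; exact winf_nsmul B _ _ (ha n) _

theorem mem_lamInf (B : BRFin D r X A d) (χ : Lam N p) :
    χ ∈ lamInf p B ↔ ∀ n : ℕ, InWinf N (p ^ n) A (redP p n χ.1) := Iff.rfl

end Inf

theorem redP_sub' (n : ℕ) (χ χ' : Lam N p) :
    redP p n (χ - χ').1 = redP p n χ.1 - redP p n χ'.1 := redP_sub p n χ.1 χ'.1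

theorem isPE_sub {B : Type*} [AddCommGroup B] {χ χ' : Additive (Gamma0 N) →+ B} (h : IsPE χ)
    (h' : IsPE χ') : IsPE (χ - χ') := fun γ hγ => by
  rw [AddMonoidHom.sub_apply, h γ hγ, h' γ hγ, sub_zero]

section Main

variable {D : FinLevelData N} {q : Nat.Primes} {X : AL N q} {A : ValuationSubring Qbar} {d : ℕ}

theorem unip (htr : Stmt_AL_trace) (hd : 0 < d) (B : BRFin D q X A d) (hqp : (q : ℕ) ≠ p)
    (σ : GQ) (hσ : σ ∈ A.inertiaSubgroupIn ℚ) (τ : GQ) (hτ : τ ∈ A.inertiaSubgroupIn ℚ) :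
    (rho D p σ - 1) * (rho D p τ - 1) = 0 := by
  refine LinearMap.ext fun (χ : Lam N p) => ?_
  show rho D p σ (rho D p τ χ - χ) - (rho D p τ χ - χ) = 0
  set y : Lam N p := rho D p τ χ - χ with hy
  apply lam_nsmul_eq_zero p hd
  refine lam_ext p fun n => ?_
  have hqm : ¬ (q : ℕ) ∣ p ^ n := not_dvd_pow_of_ne p q.2 hqp n
  have hy1 : redP p n y.1 = D.act (p ^ n) τ (redP p n χ.1) - redP p n χ.1 := by
    rw [hy, redP_sub', redP_rho]
  have hPE : IsPE (redP p n y.1) := isPE_redP p y n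
  have hW1 : InWinf N (p ^ n) A (redP p n y.1) := by
    rw [hy1]; exact B.inertia _ τ hτ _ (isPE_redP p χ n)
  have hW2 : InWinf N (p ^ n) A (X.chr (redP p n y.1)) := by
    rw [hy1, map_sub, B.chr_act _ τ _ (isPE_redP p χ n)]
    exact B.inertia _ τ hτ _ (isPE_chr' htr X (isPE_redP p χ n))
  have h1 := B.g1 (p ^ n) hqm σ hσ _ hPE hW1 hW2
  show redP p n (d • (rho D p σ y - y).1) = redP p n (0 : Lam N p).1
  rw [redP_nsmul, redP_sub', redP_rho, h1]
  ext x; simp [redP_apply]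

theorem frob (hAbs : Stmt_AbsFrob) (htr : Stmt_AL_trace) (htau : Stmt_AL_tau) (hd : 0 < d)
    (B : BRFin D q X A d) (hqp : (q : ℕ) ≠ p) (hqN : (q : ℕ) ∣ N) (S : Set ℕ)
    (hNS : ∀ q : ℕ, q.Prime → q ∣ N → q ∈ S) (x : heckeAlgebra N 2 S) (hx : NewAt hqN x)
    (σ : GQ) (hσ : A.IsFrobeniusAt σ q) :
    ((rho D p σ + ((q : ℕ) : ℤ_[p]) • rho D p σ⁻¹) ^ 2
      - ((1 + ((q : ℕ) : ℤ_[p])) ^ 2) • (1 : Module.End ℤ_[p] (Lam N p))) ^ 2
        * ThetaLam N p S x = 0 := by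
  have hσD : σ ∈ A.decompositionSubgroup ℚ := hσ.mem_decompositionSubgroup
  have hσD' : σ⁻¹ ∈ A.decompositionSubgroup ℚ := Subgroup.inv_mem _ hσD
  have hstab : ∀ g : GQ, g ∈ A.decompositionSubgroup ℚ → ∀ v ∈ lamInf p B,
      rho D p g v ∈ lamInf p B := by
    intro g hg v hv n
    rw [redP_rho]
    exact B.winf_act _ g hg _ (isPE_redP p v n) (hv n)
  have hcomm_n : ∀ g : GQ, Commute (tauLam p q) (rho D p g) := by
    intro g
    refine LinearMap.ext fun χ => lam_ext p fun n => ?_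
    show redP p n (tauLam p q (rho D p g χ)).1 = redP p n (rho D p g (tauLam p q χ)).1
    rw [redP_rho, redP_tauLam, redP_tauLam, redP_rho]
    exact B.tau_act _ g _ (isPE_redP p χ n)
  have hcomm_w : ∀ g : GQ, Commute (wLam p htr X) (rho D p g) := by
    intro g
    refine LinearMap.ext fun χ => lam_ext p fun n => ?_
    show redP p n (wLam p htr X (rho D p g χ)).1 = redP p n (rho D p g (wLam p htr X χ)).1
    rw [redP_rho, redP_wLam, redP_wLam, redP_rho]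
    exact B.chr_act _ g _ (isPE_redP p χ n)
  exact hAbs ℤ_[p] (Lam N p) (rho D p σ) (rho D p σ⁻¹) (tauLam p q)
    (wLam p htr X) (ThetaLam N p S x) ((q : ℕ) : ℤ_[p]) (lamInf p B)
    (Nat.cast_ne_zero.mpr q.2.ne_zero)
    (by rw [← map_mul, mul_inv_cancel, map_one])
    (by rw [← map_mul, inv_mul_cancel, map_one])
    (hcomm_n σ) (hcomm_n σ⁻¹)
    (tauLam_comm_ThetaLam p q hqN _ x)
    (hcomm_w σ) (hcomm_w σ⁻¹)
    (wLam_comm_ThetaLam p htr htau X _ hNS x)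
    (rho_comm_ThetaLam N p D _ hNS σ x).symm
    (rho_comm_ThetaLam N p D _ hNS σ⁻¹ x).symm
    (hstab σ hσD) (hstab σ⁻¹ hσD')
    (by
      intro v n
      rw [redP_sub', redP_tauLam, redP_rho]
      exact B.frob _ σ hσ _ (isPE_redP p v n))
    (by
      intro v hv hwv
      rw [← sub_eq_zero]
      apply lam_nsmul_eq_zero p hd
      refine lam_ext p fun n => ?_
      have hqm : ¬ (q : ℕ) ∣ p ^ n := not_dvd_pow_of_ne p q.2 hqp n
      have h1 := B.g2 (p ^ n) hqm σ hσ _ (isPE_redP p v n) (hv n) (hwv n)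
      show redP p n (d • (rho D p σ (rho D p σ v)
        - ((((q : ℕ) : ℤ_[p])) * (((q : ℕ) : ℤ_[p]))) • v).1) = redP p n (0 : Lam N p).1
      have h2 : (((((q : ℕ) : ℤ_[p])) * (((q : ℕ) : ℤ_[p]))) • v).1 = ((q : ℕ) ^ 2) • v.1 := by
        rw [← Nat.cast_mul, ← pow_two, Nat.cast_smul_eq_nsmul]; rfl
      rw [redP_nsmul, redP_sub', h2, redP_nsmul, redP_rho, redP_rho, h1]
      ext x; simp [redP_apply])
    (tauLam_sq_ThetaLam p q hqN _ x hx)

end Main

/-- **OUTPUT 1.** -/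
theorem es_br (hBR : Stmt_BRFin) (hAbs : Stmt_AbsFrob) (htr : Stmt_AL_trace)
    (htau : Stmt_AL_tau) : Stmt_ES_BR := by
  intro p _ N _ S hpS hNS
  obtain ⟨D, hD⟩ := hBR N
  refine ⟨esModule N p D (↑S : Set ℕ) hNS, ?_, ?_⟩
  · intro q hq hqN hq2 hqp A hA σ hσ τ hτ
    obtain ⟨X, d, hd, hB⟩ := hD (⟨q, hq⟩ : Nat.Primes) hqN hq2
    exact unip p htr hd (hB A hA) hqp σ hσ τ hτ
  · intro q hq hqN hq2 hqp x hx A hA σ hσ
    obtain ⟨X, d, hd, hB⟩ := hD (⟨q, hq⟩ : Nat.Primes) hqN hq2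
    exact frob p hAbs htr htau hd (hB A hA) hqp hqN _ hNS x hx σ hσ

end Fermat.Agent.BR.F.L
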