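import Fermat.Agent.BR.F.Interface

/-!
# BR / F : (N1) the Atkin-Lehner involution on `S₂(Γ₀(N))` (helper19)
-/

set_option autoImplicit false

namespace Fermat.Agent.BR.F.N1

open UpperHalfPlane CongruenceSubgroup CuspForm ModularForm Matrix.SpecialLinearGroup
open scoped MatrixGroups Manifold ModularForm Pointwise
open Fermat.Agent.S16.HH (jG dataU dataT)
open P2MW.S_ModularForm_heckeT_slash_eq_self_of_mem_Gamma0.ModularForm.HeckeSlashInvariance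

/-- slash by a scalar matrix is trivial in weight 2 -/
theorem slash_scalar (u : ℝˣ) (f : ℍ → ℂ) :
    f ∣[(2 : ℤ)] (Matrix.GeneralLinearGroup.scalar (Fin 2) u) = f := by
  ext τ
  have hdet : ((Matrix.GeneralLinearGroup.scalar (Fin 2) u).det : ℝ) = (u : ℝ) ^ 2 := by
    rw [Matrix.GeneralLinearGroup.val_det_apply]
    simp
  have hu : (u : ℝ) ≠ 0 := u.ne_zero
  have hpos : 0 < ((Matrix.GeneralLinearGroup.scalar (Fin 2) u).det : ℝ) := by
    rw [hdet]; positivity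
  rw [ModularForm.slash_apply, glScalar_smul, denom_scalar, UpperHalfPlane.σ, if_pos hpos, hdet]
  have hu' : ((u : ℝ) : ℂ) ≠ 0 := by exact_mod_cast hu
  simp only [ContinuousAlgEquiv.refl_apply]
  rw [abs_of_pos (by positivity)]
  push_cast
  norm_num

theorem jG_mem (N : ℕ) (γ : Gamma0 N) : jG N γ ∈ ((Gamma0 N : Subgroup SL(2, ℤ)) : Subgroup (GL (Fin 2) ℝ)) :=
  Subgroup.mem_map_of_mem (mapGL ℝ) γ.2

theorem exists_jG {N : ℕ} {x : GL (Fin 2) ℝ}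
    (hx : x ∈ ((Gamma0 N : Subgroup SL(2, ℤ)) : Subgroup (GL (Fin 2) ℝ))) :
    ∃ γ : Gamma0 N, jG N γ = x := by
  obtain ⟨g, hg, rfl⟩ := hx
  exact ⟨⟨g, hg⟩, rfl⟩

theorem conj_eq {N r : ℕ} (X : ALMat N r) (θ : Gamma0 N ≃* Gamma0 N)
    (hθ : ∀ γ : Gamma0 N, jG N (θ γ) = X.W * jG N γ * X.W⁻¹) :
    ConjAct.toConjAct X.W⁻¹ • ((Gamma0 N : Subgroup SL(2, ℤ)) : Subgroup (GL (Fin 2) ℝ))
      = ((Gamma0 N : Subgroup SL(2, ℤ)) : Subgroup (GL (Fin 2) ℝ)) := by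
  ext x
  rw [map_inv, Subgroup.mem_inv_pointwise_smul_iff, ConjAct.toConjAct_smul]
  constructor
  · intro hx
    obtain ⟨γ', hγ'⟩ := exists_jG hx
    have h1 := hθ (θ.symm γ')
    rw [MulEquiv.apply_symm_apply, hγ'] at h1
    have h2 : x = jG N (θ.symm γ') := by
      have := mul_right_cancel h1
      exact mul_left_cancel this
    rw [h2]
    exact jG_mem N _
  · intro hx
    obtain ⟨γ, rfl⟩ := exists_jG hx
    rw [← hθ]
    exact jG_mem N _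

theorem σ_W {N r : ℕ} (X : ALMat N r) : UpperHalfPlane.σ X.W = .refl ℝ ℂ := by
  rw [UpperHalfPlane.σ, if_pos X.det_W_pos]

/-- the Atkin-Lehner operator on cusp forms -/
noncomputable def wfFun {N r : ℕ} (X : ALMat N r)
    (hΓ : ConjAct.toConjAct X.W⁻¹ • ((Gamma0 N : Subgroup SL(2, ℤ)) : Subgroup (GL (Fin 2) ℝ))
      = ((Gamma0 N : Subgroup SL(2, ℤ)) : Subgroup (GL (Fin 2) ℝ)))
    (f : CuspForm (Gamma0 N) 2) : CuspForm (Gamma0 N) 2 where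
  toFun := (f : ℍ → ℂ) ∣[(2 : ℤ)] X.W
  slash_action_eq' γ hγ := (CuspForm.translate f X.W).slash_action_eq' γ (hΓ.symm ▸ hγ)
  holo' := (CuspForm.translate f X.W).holo'
  zero_at_cusps' hc := (CuspForm.translate f X.W).zero_at_cusps' (hΓ.symm ▸ hc)

theorem wfFun_coe {N r : ℕ} (X : ALMat N r)
    (hΓ : ConjAct.toConjAct X.W⁻¹ • ((Gamma0 N : Subgroup SL(2, ℤ)) : Subgroup (GL (Fin 2) ℝ))
      = ((Gamma0 N : Subgroup SL(2, ℤ)) : Subgroup (GL (Fin 2) ℝ)))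
    (f : CuspForm (Gamma0 N) 2) :
    (wfFun X hΓ f : ℍ → ℂ) = (f : ℍ → ℂ) ∣[(2 : ℤ)] X.W := rfl

/-- the Atkin-Lehner operator as a linear map -/
noncomputable def wfLin {N r : ℕ} (X : ALMat N r)
    (hΓ : ConjAct.toConjAct X.W⁻¹ • ((Gamma0 N : Subgroup SL(2, ℤ)) : Subgroup (GL (Fin 2) ℝ))
      = ((Gamma0 N : Subgroup SL(2, ℤ)) : Subgroup (GL (Fin 2) ℝ))) :
    CuspForm (Gamma0 N) 2 →ₗ[ℂ] CuspForm (Gamma0 N) 2 where
  toFun := wfFun X hΓ
  map_add' f g := DFunLike.coe_injective <| by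
    rw [FunLike.coe_add, wfFun_coe, wfFun_coe, wfFun_coe, FunLike.coe_add, SlashAction.add_slash]
  map_smul' c f := DFunLike.coe_injective <| by
    rw [RingHom.id_apply, FunLike.coe_smul, wfFun_coe, wfFun_coe,
      FunLike.coe_smul, ModularForm.smul_slash, σ_W]
    rfl

theorem wForm (h2 : Stmt_ALConj) (h3 : Stmt_ALSq) (h14 : Stmt_ALCoset) : Stmt_WForm := by
  intro N _ r X
  obtain ⟨θ, hθ⟩ := h2 N r X
  have hΓ := conj_eq X θ hθ
  refine ⟨wfLin X hΓ, fun f => rfl, ?_, ?_⟩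
  · intro f
    apply DFunLike.coe_injective
    show ((f : ℍ → ℂ) ∣[(2 : ℤ)] X.W) ∣[(2 : ℤ)] X.W = f
    obtain ⟨γ₀, hγ₀⟩ := h3 N r X
    have hr : (r : ℝ) ≠ 0 := by exact_mod_cast X.hr.ne'
    have hWW : X.W * X.W = Matrix.GeneralLinearGroup.scalar (Fin 2) (Units.mk0 (r : ℝ) hr) *
        jG N γ₀ := by
      apply Units.ext
      rw [hγ₀]
      show _ = (Matrix.scalar (Fin 2) (r : ℝ)) *
        ((jG N γ₀ : GL (Fin 2) ℝ) : Matrix (Fin 2) (Fin 2) ℝ)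
      rw [Matrix.scalar_apply, ← Matrix.smul_eq_diagonal_mul]
    rw [← SlashAction.slash_mul, hWW, SlashAction.slash_mul, slash_scalar]
    exact SlashInvariantFormClass.slash_action_eq f _ (jG_mem N γ₀)
  · intro ℓ hℓ hℓN f
    have : NeZero ℓ := ⟨hℓ.ne_zero⟩
    obtain ⟨ν, t, ht⟩ := h14 N r X hℓ hℓN
    apply DFunLike.coe_injective
    show (ModularForm.heckeT 2 ℓ (f : ℍ → ℂ)) ∣[(2 : ℤ)] X.W =
      ModularForm.heckeT 2 ℓ ((f : ℍ → ℂ) ∣[(2 : ℤ)] X.W)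
    rw [heckeT_eq_sum_onePoint, heckeT_eq_sum_onePoint, SlashAction.sum_slash]
    rw [← Equiv.sum_comp ν]
    refine Finset.sum_congr rfl fun i _ => ?_
    have h1 : X.W * heckeRep ℓ i = jG N (t i) * (heckeRep ℓ (ν i) * X.W) := by
      have := ht i
      rw [Fermat.Agent.S16.HH.dataT_α, Fermat.Agent.S16.HH.dataT_α] at this
      rw [← mul_assoc, ← this]
      group
    symm
    calc ((f : ℍ → ℂ) ∣[(2 : ℤ)] X.W) ∣[(2 : ℤ)] heckeRep ℓ i
        = (f : ℍ → ℂ) ∣[(2 : ℤ)] (jG N (t i) * (heckeRep ℓ (ν i) * X.W)) := by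
          rw [← SlashAction.slash_mul, h1]
      _ = (f : ℍ → ℂ) ∣[(2 : ℤ)] (heckeRep ℓ (ν i) * X.W) := by
          rw [SlashAction.slash_mul, SlashInvariantFormClass.slash_action_eq f _ (jG_mem N (t i))]
      _ = _ := SlashAction.slash_mul _ _ _ _

end Fermat.Agent.BR.F.N1
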