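import Fermat.Agent.BR.F.NewOfKill
import Fermat.Agent.BR.F.ALConj
import Fermat.Agent.BR.F.ALCoset
import Fermat.Agent.BR.F.WForm
import Fermat.Agent.SMO.Newform

/-!
# BR / F : `Stmt_New`, corrected assembly

`Stmt_Trace` and `Stmt_NewOfKill` of the interface are only true for `r` PRIME (helper92).  Here:

* `NP.TraceP` : the statement of the trace for `r` prime;
* `NP.newOfKillP` : a Hecke operator away from `N` killing the forms of level `N / r` (`r` prime)
  satisfies `U_r² x = x`;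
* `NP.new (hES) (hTr : TraceP) : Stmt_New`, using the annihilator of the old forms of package SMO.
-/

set_option autoImplicit false

namespace Fermat.Agent.BR.F.NP

open UpperHalfPlane CongruenceSubgroup CuspForm ModularForm
open scoped MatrixGroups Manifold ModularForm

/-- (N2, corrected) the trace `f + U_r (f | W)` has level `N / r`, for `r` prime. -/
def TraceP : Prop :=
  ∀ (N : ℕ) [NeZero N] (r : ℕ), r.Prime → ∀ (X : ALMat N r) (f : CuspForm (Gamma0 N) 2),
    ∃ F : CuspForm (Gamma0 X.M) 2,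
      (F : ℍ → ℂ) = (f : ℍ → ℂ) + ModularForm.heckeU 2 r ((f : ℍ → ℂ) ∣[(2 : ℤ)] X.W)

theorem newOfKillP (h1 : Stmt_WForm) (h2 : TraceP) (N : ℕ) [NeZero N] (r : ℕ) (hr : r.Prime)
    (X : ALMat N r) (hrN : r ∣ N) (S : Set ℕ) (hS : ∀ q : ℕ, q.Prime → q ∣ N → q ∈ S)
    (x : heckeAlgebra N 2 S) (hx : KillsLevel X.M x) : NewAt hrN x := by
  obtain ⟨wf, hwf, hinv, hcomm⟩ := h1 N r X
  have hxU : Commute x.1 (CuspForm.heckeULin 2 hrN) :=
    N3.commute_of_comm hS _ (fun hℓ hℓN => CuspForm.heckeTLin_heckeULin_comm 2 hℓ hℓN hrN) x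
  have hxw : Commute x.1 (wf : Module.End ℂ (CuspForm (Gamma0 N) 2)) :=
    N3.commute_of_comm hS wf (fun hℓ hℓN => LinearMap.ext fun f => (hcomm hℓ hℓN f).symm) x
  have hxU' : ∀ f, x.1 (CuspForm.heckeULin 2 hrN f) = CuspForm.heckeULin 2 hrN (x.1 f) :=
    fun f => LinearMap.congr_fun hxU.eq f
  have hxw' : ∀ f, x.1 (wf f) = wf (x.1 f) := fun f => LinearMap.congr_fun hxw.eq f
  -- the trace is killed
  have hkill : ∀ f, x.1 (f + CuspForm.heckeULin 2 hrN (wf f)) = 0 := by
    intro f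
    obtain ⟨F, hF⟩ := h2 N r hr X f
    refine hx F _ ?_
    rw [hF, FunLike.coe_add, CuspForm.coe_heckeULin_apply, hwf]
  have hA : ∀ f, x.1 f + CuspForm.heckeULin 2 hrN (wf (x.1 f)) = 0 := by
    intro f
    rw [← hxw', ← hxU', ← map_add]
    exact hkill f
  have hB : ∀ f, wf (x.1 f) + CuspForm.heckeULin 2 hrN (x.1 f) = 0 := by
    intro f
    have := hA (wf f)
    rwa [hxw', hinv] at this
  refine LinearMap.ext fun f => ?_
  show CuspForm.heckeULin 2 hrN (CuspForm.heckeULin 2 hrN (x.1 f)) = x.1 f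
  have h3 : CuspForm.heckeULin 2 hrN (x.1 f) = - wf (x.1 f) := by
    rw [eq_neg_iff_add_eq_zero, add_comm]
    exact hB f
  have h4 : CuspForm.heckeULin 2 hrN (wf (x.1 f)) = - x.1 f := by
    rw [eq_neg_iff_add_eq_zero, add_comm]
    exact hA f
  rw [h3, map_neg, h4, neg_neg]

theorem wForm : Stmt_WForm := N1.wForm W1.alConj W1.alSq (W5.alCoset W1.alConj)

/-- **`Stmt_New`** from `Stmt_ES` (used by the package SMO) and the trace. -/
theorem new (hES : Fermat.Agent.ES.Rep.Stmt_ES) (hTr : TraceP) : Stmt_New := by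
  intro M _ g hg S hS chig hchig q hq hqM hq2
  obtain ⟨X⟩ := W1.alMat M q hq hqM hq2
  have hMne : M ≠ 0 := NeZero.ne M
  have hMq : M = q * X.M := X.hN
  have hM0 : X.M ∣ M := ⟨q, hMq.trans (mul_comm _ _)⟩
  have hM00 : X.M ≠ 0 := by
    intro h0
    apply hMne
    exact hMq.trans (by rw [h0, mul_zero])
  have hM0ne : X.M ≠ M := by
    intro h
    have h1 : 1 * X.M = q * X.M := by rw [one_mul]; exact h.trans hMq
    have h2 := Nat.eq_of_mul_eq_mul_right (Nat.pos_of_ne_zero hM00) h1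
    exact hq.one_lt.ne h2
  obtain ⟨t0, ht0, hkill⟩ :=
    Fermat.Agent.SMO.exists_annihilator_levelIncl hES hg S hS chig hchig hM0 hM0ne
  refine ⟨t0, ht0, newOfKillP wForm hTr M q hq X hqM (↑S : Set ℕ) hS t0 ?_⟩
  intro F f hfF
  have : f = Fermat.Agent.SMO.levelIncl hM0 2 F := DFunLike.coe_injective hfF
  rw [this]
  exact hkill F

end Fermat.Agent.BR.F.NP
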