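import Fermat.Agent.BR.F.Interface
import Fermat.Agent.ES.Mid.HA1
import Fermat.Agent.ES.Mid.HA2
import Fermat.Agent.ES.Mid.HA3

/-!
# BR / F / U2 : analytic properties of the multiplicative operator `funU`
(`Stmt_UA_char`, `Stmt_UA_mdiff`, `Stmt_UA_rep`, `Stmt_UA_growth`)
-/

set_option autoImplicit false

namespace Fermat.Agent.BR.F.U2

open UpperHalfPlane CongruenceSubgroup ModularForm Filter Matrix.SpecialLinearGroup
open scoped MatrixGroups Manifold Topology
open Fermat.Agent.S24 (Qbar iota)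
open Fermat.Agent.S24.QX (cmI Rep)
open Fermat.Agent.S16.HH (HeckeData jG dataU)
open Fermat.Agent.ES.Mid

theorem tau_eq (N : ℕ) (q : Nat.Primes) (hqN : (q : ℕ) ∣ N) (A : Type*) [AddCommGroup A]
    (χ : Additive (Gamma0 N) →+ A) : tau N q A χ = (dataU N hqN).op χ := by
  show Fermat.Agent.S16.HH.tau N q A χ = _
  unfold Fermat.Agent.S16.HH.tau
  rw [dif_pos hqN]
  rfl

/-- (UA1) -/
theorem ua_char : Stmt_UA_char := by
  intro N _ q hqN m _ a b χ h γ z
  have key := HA1.prod_telescope (dataU N hqN) a b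
    (fun γ => (ZMod.stdAddChar (χ (Additive.ofMul γ)) : ℂ)) (fun γ z => h γ z) γ z
  rw [tau_eq N q hqN, HeckeData.op_apply, HA1.addChar_sum]
  exact key

/-- (UA2) -/
theorem ua_mdiff : Stmt_UA_mdiff := by
  intro N _ q _ hqN a ha
  have hpos : ∀ x : ZMod q, 0 < ((dataU N hqN).α x).det.val := fun x =>
    ModularForm.det_heckeMatrix_pos q _
  have hmd : ∀ x : ZMod q, MDiff (fun z : ℍ => a ((dataU N hqN).α x • z)) :=
    fun x => ha.comp (mdifferentiable_smul (hpos x))
  have heq : funU N hqN a = ∏ x : ZMod q, fun z : ℍ => a ((dataU N hqN).α x • z) := by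
    funext z
    rw [Finset.prod_apply]
    rfl
  refine ⟨?_, fun ha0 hzero => ?_⟩
  · rw [heq]
    exact KF.mdiff_prod _ _ fun x _ => hmd x
  · rw [heq] at hzero
    obtain ⟨x, -, hx⟩ := KF.mdiff_prod_eq_zero _ _ (fun x _ => hmd x) hzero
    apply ha0
    funext w
    have := congrFun hx (((dataU N hqN).α x)⁻¹ • w)
    simpa using this

theorem funU_eq (N : ℕ) {q : ℕ} [NeZero q] (hqN : q ∣ N) (f : ℍ → ℂ) :
    funU N hqN f = HA2.nrm q f := by
  funext z
  have hq0 : q ≠ 0 := NeZero.ne q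
  have hqC : (q : ℂ) ≠ 0 := by exact_mod_cast hq0
  show ∏ x : ZMod q, f (heckeMatrix q x.val • z) = _
  rw [HA2.nrm_apply, HA2.prod_zmod_val q (fun j => f (heckeMatrix q j • z))]
  refine Finset.prod_congr rfl fun j _ => ?_
  rw [HA2.aff_apply]
  congr 1
  have e : (((1 / (q : ℝ) : ℝ) : ℂ) * (z : ℂ) + (((j : ℝ) / (q : ℝ) : ℝ) : ℂ)) =
      ((heckeMatrix q j • z : ℍ) : ℂ) := by
    rw [coe_heckeMatrix_smul hq0]
    push_cast
    field_simp
  rw [e, ofComplex_apply]

theorem twProd_indep {R : Type*} [CommRing R] [IsDomain R] (ℓ : ℕ) [NeZero ℓ] (ζ ζ' : Rˣ)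
    (hζ : IsPrimitiveRoot ζ ℓ) (hζ' : IsPrimitiveRoot ζ' ℓ) (x : LaurentSeries R) :
    twProd ℓ ζ x = twProd ℓ ζ' x := by
  have hℓ : 0 < ℓ := Nat.pos_of_ne_zero (NeZero.ne ℓ)
  have h1 : IsPrimitiveRoot (ζ : R) ℓ := IsPrimitiveRoot.coe_units_iff.2 hζ
  have h2 : (ζ' : R) ^ ℓ = 1 := by
    rw [← Units.val_pow_eq_pow_val, hζ'.pow_eq_one, Units.val_one]
  obtain ⟨a, -, ha⟩ := h1.eq_pow_of_pow_eq_one h2
  have ha' : ζ ^ a = ζ' := by
    apply Units.ext
    rw [Units.val_pow_eq_pow_val, ha]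
  have hcop : a.Coprime ℓ := by
    rw [← hζ.pow_iff_coprime hℓ, ha']
    exact hζ'
  rw [← ha', HF1.twProd_pow_coprime ℓ a hcop ζ hζ.pow_eq_one]

/-- (UA3) -/
theorem ua_rep : Stmt_UA_rep := by
  intro N _ q _ hqN ζ hζ f x _ hx
  have e : cmI (formalU q ζ x) = compress q (twProd q (HA2.zetaC q) (cmI x)) := by
    have e1 : cmI (formalU q ζ x) =
        compress q (twProd q (Units.map ((iota : Qbar →+* ℂ) : Qbar →* ℂ) ζ) (cmI x)) := by
      show ModularCurve.coeffMap (iota : Qbar →+* ℂ) (compress q (twProd q ζ x)) = _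
      rw [HF1.coeffMap_compress, HF1.coeffMap_twProd]
    rw [e1]
    congr 1
    refine twProd_indep q _ _ ?_ (HA2.zetaC_isPrimitiveRoot (NeZero.ne q)) _
    rw [← IsPrimitiveRoot.coe_units_iff]
    exact (IsPrimitiveRoot.coe_units_iff.mpr hζ).map_of_injective
      (f := (iota : Qbar →+* ℂ)) (iota : Qbar →+* ℂ).injective
  rw [e, funU_eq]
  exact HA2.rep_nrm HF1.hf_expand q hx

/-- Hermite normal form of an integer matrix of positive determinant. -/
theorem hnf (A B C D n : ℤ) (hn : 0 < n) (hdet : A * D - B * C = n) :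
    ∃ (γ : SL(2, ℤ)) (a b e : ℤ), 0 < a ∧ 0 < e ∧ a * e = n ∧
      A = γ 0 0 * a ∧ B = γ 0 0 * b + γ 0 1 * e ∧ C = γ 1 0 * a ∧
      D = γ 1 0 * b + γ 1 1 * e := by
  set a : ℤ := ((Int.gcd A C : ℕ) : ℤ) with ha
  have ha_pos : 0 < a := by
    have h0 : Int.gcd A C ≠ 0 := by
      intro h0
      obtain ⟨hA, hC⟩ := Int.gcd_eq_zero_iff.1 h0
      rw [hA, hC] at hdet
      simp at hdet
      omega
    rw [ha]
    exact_mod_cast Nat.pos_of_ne_zero h0
  obtain ⟨A', hA'⟩ : a ∣ A := Int.gcd_dvd_left _ _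
  obtain ⟨C', hC'⟩ : a ∣ C := Int.gcd_dvd_right _ _
  obtain ⟨u, v, hb⟩ : ∃ u v : ℤ, a = A * u + C * v := ⟨_, _, Int.gcd_eq_gcd_ab A C⟩
  have h1 : A' * u + C' * v = 1 := by
    apply mul_left_cancel₀ ha_pos.ne'
    calc a * (A' * u + C' * v) = (a * A') * u + (a * C') * v := by ring
      _ = A * u + C * v := by rw [← hA', ← hC']
      _ = a * 1 := by rw [← hb, mul_one]
  have hae : a * (A' * D - C' * B) = n := by
    calc a * (A' * D - C' * B) = (a * A') * D - B * (a * C') := by ring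
      _ = n := by rw [← hA', ← hC', hdet]
  have he_pos : 0 < A' * D - C' * B := by
    have : (0 : ℤ) < a * (A' * D - C' * B) := by rw [hae]; exact hn
    exact (pos_iff_pos_of_mul_pos this).1 ha_pos
  refine ⟨⟨!![A', -v; C', u], by rw [Matrix.det_fin_two_of]; linarith⟩, a,
    u * B + v * D, A' * D - C' * B, ha_pos, he_pos, hae, ?_, ?_, ?_, ?_⟩
  · simp only [Matrix.of_apply, Matrix.cons_val', Matrix.cons_val_zero, Matrix.cons_val_fin_one]
    rw [hA']; ring
  · simp only [Matrix.of_apply, Matrix.cons_val', Matrix.cons_val_zero, Matrix.cons_val_fin_one,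
      Matrix.cons_val_one]
    linear_combination (-B) * h1
  · simp only [Matrix.of_apply, Matrix.cons_val', Matrix.cons_val_zero, Matrix.cons_val_fin_one,
      Matrix.cons_val_one]
    rw [hC']; ring
  · simp only [Matrix.of_apply, Matrix.cons_val', Matrix.cons_val_zero, Matrix.cons_val_fin_one,
      Matrix.cons_val_one]
    linear_combination (-D) * h1

theorem upper_im (a b e : ℝ) (ha : 0 < a) (he : 0 < e) (τ : ℍ) :
    (upperTriangularGL a b e (mul_pos ha he).ne' • τ).im = a / e * τ.im := by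
  rw [UpperHalfPlane.im_smul_eq_div_normSq]
  have h1 : ((upperTriangularGL a b e (mul_pos ha he).ne').det : ℝ) = a * e := by
    rw [Matrix.GeneralLinearGroup.val_det_apply, val_upperTriangularGL, Matrix.det_fin_two_of]
    ring
  have h2 : denom (upperTriangularGL a b e (mul_pos ha he).ne') τ = (e : ℂ) := by
    simp [denom, val_upperTriangularGL]
  rw [h1, h2, Complex.normSq_ofReal, abs_of_pos (mul_pos ha he)]
  field_simp

/-- (UA4) -/
theorem ua_growth : Stmt_UA_growth := by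
  intro N _ q _ hqN f _ hgr g
  have hq0 : q ≠ 0 := NeZero.ne q
  have hqpos : (0 : ℤ) < q := by exact_mod_cast Nat.pos_of_ne_zero hq0
  have hdetg : g 0 0 * g 1 1 - g 0 1 * g 1 0 = 1 := by
    have := g.det_coe
    rwa [Matrix.det_fin_two] at this
  have h1 : ∀ x : ZMod q, ∃ K : ℕ, IsBoundedAtImInfty
      (fun τ => f ((dataU N hqN).α x • (g • τ)) * discriminant τ ^ K) := by
    intro x
    obtain ⟨g', a, b, e, ha, he, hae, h00, h01, h10, h11⟩ :=
      hnf (g 0 0 + x.val * g 1 0) (g 0 1 + x.val * g 1 1) (q * g 1 0) (q * g 1 1) q hqpos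
        (by linear_combination (q : ℤ) * hdetg)
    obtain ⟨k, hk⟩ := hgr g'
    have haR : (0 : ℝ) < a := by exact_mod_cast ha
    have heR : (0 : ℝ) < e := by exact_mod_cast he
    have he1 : (1 : ℝ) ≤ e := by exact_mod_cast he
    have haeR : (a : ℝ) * e = q := by exact_mod_cast hae
    have hmul : heckeMatrix q x.val * mapGL ℝ g =
        mapGL ℝ g' * upperTriangularGL a b e (mul_pos haR heR).ne' := by
      have r00 : ((g 0 0 : ℤ) : ℝ) + (x.val : ℝ) * ((g 1 0 : ℤ) : ℝ) = ((g' 0 0 : ℤ) : ℝ) * a := by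
        exact_mod_cast h00
      have r01 : ((g 0 1 : ℤ) : ℝ) + (x.val : ℝ) * ((g 1 1 : ℤ) : ℝ) =
          ((g' 0 0 : ℤ) : ℝ) * b + ((g' 0 1 : ℤ) : ℝ) * e := by exact_mod_cast h01
      have r10 : (q : ℝ) * ((g 1 0 : ℤ) : ℝ) = ((g' 1 0 : ℤ) : ℝ) * a := by exact_mod_cast h10
      have r11 : (q : ℝ) * ((g 1 1 : ℤ) : ℝ) =
          ((g' 1 0 : ℤ) : ℝ) * b + ((g' 1 1 : ℤ) : ℝ) * e := by exact_mod_cast h11
      apply Matrix.GeneralLinearGroup.ext
      intro i j
      fin_cases i <;> fin_cases j <;>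
        simp only [Matrix.GeneralLinearGroup.coe_mul, Matrix.mul_apply, Fin.sum_univ_two,
          Fermat.Agent.S16.HH.mapGL_entry, val_heckeMatrix hq0, val_upperTriangularGL,
          Fin.zero_eta, Fin.mk_one, Fin.isValue, Matrix.of_apply, Matrix.cons_val',
          Matrix.cons_val_zero, Matrix.cons_val_one, Matrix.cons_val_fin_one]
      · linear_combination r00
      · linear_combination r01
      · linear_combination r10
      · linear_combination r11
    refine ⟨q * k, ?_⟩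
    have e' : ∀ τ : ℍ, (dataU N hqN).α x • (g • τ) =
        g' • (upperTriangularGL a b e (mul_pos haR heR).ne' • τ) := by
      intro τ
      rw [Fermat.Agent.S16.HH.dataU_α]
      show heckeMatrix q x.val • (mapGL ℝ g • τ) =
        mapGL ℝ g' • (upperTriangularGL a b e (mul_pos haR heR).ne' • τ)
      rw [← mul_smul, hmul, mul_smul]
    simp only [e']
    refine HA3.growth_comp (fun w => f (g' • w)) k hk
      (fun τ => upperTriangularGL a b e (mul_pos haR heR).ne' • τ) ((a : ℝ) / e)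
      (by positivity) q ?_ (upper_im a b e haR heR)
    rw [div_le_iff₀ heR, ← haeR]
    nlinarith
  choose K hK using h1
  refine ⟨∑ x, K x, ?_⟩
  have h2 : IsBoundedAtImInfty (fun τ => ∏ x : ZMod q,
      (f ((dataU N hqN).α x • (g • τ)) * discriminant τ ^ K x)) := by
    have := Asymptotics.IsBigO.finsetProd (s := Finset.univ) (fun x _ => hK x)
    refine this.congr' EventuallyEq.rfl (Eventually.of_forall fun τ => ?_)
    simp
  refine h2.congr' (Eventually.of_forall fun τ => ?_) EventuallyEq.rfl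
  simp only [funU]
  rw [Finset.prod_mul_distrib, Finset.prod_pow_eq_pow_sum]

end Fermat.Agent.BR.F.U2
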