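import Fermat.Agent.BR.F.Interface
import Fermat.Agent.ES.Mid.HF1
import Fermat.Agent.ES.Mid.HF2
import Fermat.Agent.ES.Mid.HF3

/-!
# BR / F / U1 : formal algebra of `formalU`  (helper50, task 787)
(`Stmt_UF_mul`, `Stmt_UF_map`, `Stmt_UF_indep`, `Stmt_UF_char`, `Stmt_UF_cong`)
-/

set_option autoImplicit false

namespace Fermat.Agent.BR.F.U1

open Fermat.Agent.S24 (Qbar)
open Fermat.Agent.ES.Mid
open Fermat.Agent.BR.F
open ModularCurve

theorem uf_mul : Stmt_UF_mul := by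
  intro R _ _ ℓ _ ζ hζ
  refine ⟨?_, ?_⟩
  · unfold formalU
    rw [HF1.twProd_one, HF1.compress_one]
  · intro x y
    unfold formalU
    apply ModularCurve.qExpand_injective (R := R) ℓ
    rw [map_mul, HF1.hf_expand R ℓ ζ hζ, HF1.hf_expand R ℓ ζ hζ, HF1.hf_expand R ℓ ζ hζ,
      HF1.twProd_mul]

theorem uf_map : Stmt_UF_map := by
  intro R S _ _ φ ℓ _ ζ x
  unfold formalU
  rw [HF1.coeffMap_compress, HF1.coeffMap_twProd]

theorem uf_indep : Stmt_UF_indep := by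
  intro R _ _ ℓ _ ζ ζ' hζ hζ' x
  have hℓ : 0 < ℓ := Nat.pos_of_ne_zero (NeZero.ne ℓ)
  have h1 : IsPrimitiveRoot (ζ : R) ℓ := IsPrimitiveRoot.coe_units_iff.2 hζ
  have h2 : (ζ' : R) ^ ℓ = 1 := by
    rw [← Units.val_pow_eq_pow_val, hζ'.pow_eq_one, Units.val_one]
  obtain ⟨a, -, ha⟩ := h1.eq_pow_of_pow_eq_one h2
  have ha' : ζ ^ a = ζ' := by
    apply Units.ext
    rw [Units.val_pow_eq_pow_val, ha]
  have hcop : a.Coprime ℓ := by
    rw [← hζ.pow_iff_coprime hℓ, ha']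
    exact hζ'
  unfold formalU
  rw [← ha', HF1.twProd_pow_coprime ℓ a hcop ζ hζ.pow_eq_one]

theorem uf_char : Stmt_UF_char := by
  intro k _ ℓ _ _ x
  have : NeZero ℓ := ⟨(Fact.out : ℓ.Prime).ne_zero⟩
  unfold formalU
  rw [HF2.twProd_one, HF2.pow_eq ℓ x, HF2.compress_qExpand]

theorem uf_cong : Stmt_UF_cong := by
  intro ℓ _ hℓ A hl σ hfr ζ hζ y
  have : Fact ℓ.Prime := ⟨hℓ⟩
  have := HF3.charP_residue A ℓ hl
  set s := HF3.sA A σ hfr.mem_decompositionSubgroup with hs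
  have hζ1 : (ζ : Qbar) ^ ℓ = 1 := by
    have := congrArg Units.val hζ.pow_eq_one
    rwa [Units.val_pow_eq_pow_val, Units.val_one] at this
  have hζ2 : ((ζ⁻¹ : Qbarˣ) : Qbar) ^ ℓ = 1 := by
    have h3 : (ζ⁻¹) ^ ℓ = 1 := by rw [inv_pow, hζ.pow_eq_one, inv_one]
    have := congrArg Units.val h3
    rwa [Units.val_pow_eq_pow_val, Units.val_one] at this
  let zA : Aˣ := ⟨⟨ζ, HF3.mem_of_pow_eq_one A ℓ hℓ.pos hζ1⟩,
    ⟨(ζ⁻¹ : Qbarˣ), HF3.mem_of_pow_eq_one A ℓ hℓ.pos hζ2⟩,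
    Subtype.ext (by simp), Subtype.ext (by simp)⟩
  have hzA : Units.map (A.subtype : A →* Qbar) zA = ζ := Units.ext rfl
  have hzr : Units.map (IsLocalRing.residue A : A →* IsLocalRing.ResidueField A) zA = 1 := by
    apply Units.ext
    show IsLocalRing.residue A (zA : A) = 1
    apply frobenius_inj (IsLocalRing.ResidueField A) ℓ
    rw [frobenius_def, frobenius_def, one_pow, ← map_pow]
    have : (zA : A) ^ ℓ = 1 := Subtype.ext hζ1
    rw [this, map_one]
  have hr : ∀ x : LaurentSeries A, coeffMap (IsLocalRing.residue A) (coeffMap s x)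
      = coeffMap (frobenius (IsLocalRing.ResidueField A) ℓ)
          (coeffMap (IsLocalRing.residue A) x) := by
    intro x
    rw [coeffMap_coeffMap, coeffMap_coeffMap, hs, HF3.residue_comp_sA A σ ℓ hfr]
  have hsub : ∀ x : LaurentSeries A, coeffMap A.subtype (coeffMap s x)
      = coeffMap (σ : Qbar →+* Qbar) (coeffMap A.subtype x) := by
    intro x
    rw [coeffMap_coeffMap, coeffMap_coeffMap, hs, HF3.subtype_comp_sA]
  refine ⟨coeffMap s y, formalU ℓ zA y, hsub y, ?_, ?_, ?_⟩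
  · rw [uf_map A Qbar A.subtype ℓ zA, hzA]
  · rw [uf_map A (IsLocalRing.ResidueField A) (IsLocalRing.residue A) ℓ zA, hzr,
      uf_char (IsLocalRing.ResidueField A) ℓ _, hr y]
  · intro hy h0
    apply hy
    rw [hr] at h0
    have hinj := HF3.coeffMap_injective _ (frobenius_inj (IsLocalRing.ResidueField A) ℓ)
    exact hinj (by rw [h0, map_zero])

end Fermat.Agent.BR.F.U1
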