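import Fermat.Agent.BR.F.Interface
import Fermat.Agent.ES.Mid.HGlue
import Fermat.Agent.ES.Mid.InvRat

/-!
# BR / F / U3 : glue — `Stmt_HeckeU` from the packages `UF*`, `UA*`, `InvRat`, `IntRep'`

The operator `N_r u = ∏_{ζ^r = 1} u(ζ q^{1/r})` on `F_N`, `r ∣ N`.
Copy-adaptation of `ES/Mid/HGlue.lean`.
-/

set_option autoImplicit false

namespace Fermat.Agent.BR.F.U3

open UpperHalfPlane CongruenceSubgroup AlgebraicCurve
open scoped MatrixGroups Manifold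
open Fermat.Agent.S24 (Qbar FF funAlg iota)
open Fermat.Agent.S24.QX (qExpHom cmI qExpFun)
open Fermat.Agent.ES.Mid
open Fermat.Agent.ES.Mid.HG (qExpHom_ne_zero funAlg_mul_ne_zero exists_quot)
attribute [local instance] Fermat.Agent.S24.algQbarComplex

/-! ### `funU` is multiplicative -/

section FunU

variable (N : ℕ) {q : ℕ} [NeZero q] (hqN : q ∣ N)

theorem funU_one_apply (z : ℍ) : funU N hqN (fun _ => 1) z = 1 := by
  simp [funU]

theorem funU_rel {m : ℕ} {a b t₁ t₂ : ℍ → ℂ} (h : ∀ z, a z ^ m * t₂ z = b z ^ m * t₁ z) (z : ℍ) :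
    funU N hqN a z ^ m * funU N hqN t₂ z = funU N hqN b z ^ m * funU N hqN t₁ z := by
  simp only [funU]
  rw [← Finset.prod_pow, ← Finset.prod_pow, ← Finset.prod_mul_distrib, ← Finset.prod_mul_distrib]
  exact Finset.prod_congr rfl fun x _ => h _

end FunU

/-! ### formal facts -/

section Formal

variable {ℓ : ℕ} [NeZero ℓ] {ζ : Qbarˣ}

theorem formalU_ne_zero (hmul : Stmt_UF_mul) (hζ : IsPrimitiveRoot ζ ℓ) {x : LaurentSeries Qbar}
    (hx : x ≠ 0) : formalU ℓ ζ x ≠ 0 := by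
  obtain ⟨h1, h2⟩ := hmul Qbar ℓ ζ hζ
  intro h0
  have h3 := h2 x x⁻¹
  rw [mul_inv_cancel₀ hx, h1, h0, zero_mul] at h3
  exact one_ne_zero h3

theorem tw_C {R : Type*} [CommRing R] (ζ : Rˣ) (c : R) :
    tw ζ (HahnSeries.C c : LaurentSeries R) = HahnSeries.C c := by
  ext n
  rw [tw_coeff, HahnSeries.C_apply]
  by_cases h : n = 0
  · subst h; simp
  · rw [HahnSeries.coeff_single_of_ne h, mul_zero]

theorem compress_C {R : Type*} [CommRing R] (c : R) :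
    compress ℓ (HahnSeries.C c : LaurentSeries R) = HahnSeries.C c := by
  ext n
  rw [compress_coeff, HahnSeries.C_apply]
  have hℓ : (ℓ : ℤ) ≠ 0 := by exact_mod_cast NeZero.ne ℓ
  by_cases h : n = 0
  · subst h; simp
  · rw [HahnSeries.coeff_single_of_ne h, HahnSeries.coeff_single_of_ne (mul_ne_zero hℓ h)]

/-- `N_ℓ` of a constant `c` is `c ^ ℓ`. -/
theorem formalU_C {R : Type*} [CommRing R] (ζ : Rˣ) (c : R) :
    formalU ℓ ζ (HahnSeries.C c : LaurentSeries R) = HahnSeries.C (c ^ ℓ) := by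
  rw [formalU, twProd]
  simp only [tw_C]
  rw [Finset.prod_const, Finset.card_range, ← map_pow, compress_C]

end Formal

/-! ### (M) : `formalU` of a `q`-expansion -/

section M

variable (hchar : Stmt_UA_char) (hmd : Stmt_UA_mdiff) (hrep : Stmt_UA_rep) (hgr : Stmt_UA_growth)

include hchar hmd hrep hgr in
theorem exists_frac (N : ℕ) [NeZero N] (r : Nat.Primes) (hrN : (r : ℕ) ∣ N)
    (ζ : Qbarˣ) (hζ : IsPrimitiveRoot ζ (r : ℕ)) (θ : funAlg N) :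
    ∃ α β : funAlg N, β ≠ 0 ∧
      (∀ z, funU N hrN (θ : ℍ → ℂ) z * (β : ℍ → ℂ) z = (α : ℍ → ℂ) z) ∧
      formalU (r : ℕ) ζ ((qExpHom N θ : FF N) : LaurentSeries Qbar)
          * ((qExpHom N β : FF N) : LaurentSeries Qbar)
        = ((qExpHom N α : FF N) : LaurentSeries Qbar) := by
  have hθmd : MDiff (θ : ℍ → ℂ) := Fermat.Agent.S24.funAlg_mdiff θ.2
  have hinv : ∀ γ ∈ Gamma0 N, ∀ z : ℍ,
      funU N hrN (θ : ℍ → ℂ) (γ • z) = funU N hrN (θ : ℍ → ℂ) z := by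
    intro γ hγ z
    have h := hchar N r hrN 1 (θ : ℍ → ℂ) (fun _ => 1) 0 (by
      intro γ z
      rw [Fermat.Agent.S24.funAlg_invariant θ.2 (γ : SL(2, ℤ)) γ.2 z, AddMonoidHom.zero_apply,
        AddChar.map_zero_eq_one]
      ring) ⟨γ, hγ⟩ z
    rw [funU_one_apply, funU_one_apply, map_zero, AddMonoidHom.zero_apply,
      AddChar.map_zero_eq_one, mul_one, mul_one, one_mul] at h
    exact h
  have hgrowth : Growth (funU N hrN (θ : ℍ → ℂ)) :=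
    hgr N (r : ℕ) hrN _ hθmd (fun g => Fermat.Agent.S24.funAlg_growth θ.2 g)
  obtain ⟨θ₁, θ₂, h2, hfun, hser⟩ := INV.invRat N (funU N hrN (θ : ℍ → ℂ))
    (formalU (r : ℕ) ζ (qExpFun N θ)) (hmd N (r : ℕ) hrN _ hθmd).1 hinv hgrowth
    (hrep N (r : ℕ) hrN ζ hζ _ _ hθmd (Fermat.Agent.S24.QX.qExpFun_rep N θ))
  exact ⟨θ₁, θ₂, h2, hfun, hser⟩

variable (hmul : Stmt_UF_mul)

include hchar hmd hrep hgr in
theorem formalU_qExp_mem (N : ℕ) [NeZero N] (r : Nat.Primes) (hrN : (r : ℕ) ∣ N)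
    (ζ : Qbarˣ) (hζ : IsPrimitiveRoot ζ (r : ℕ)) (θ : funAlg N) :
    formalU (r : ℕ) ζ ((qExpHom N θ : FF N) : LaurentSeries Qbar)
      ∈ ModularCurve.modularFunctionFieldBar N := by
  obtain ⟨α, β, hβ, -, hser⟩ := exists_frac hchar hmd hrep hgr N r hrN ζ hζ θ
  have h0 := qExpHom_ne_zero N hβ
  rw [eq_div_of_mul_eq h0 hser]
  exact div_mem (qExpHom N α).2 (qExpHom N β).2

include hchar hmd hrep hgr hmul in
theorem formalU_mem (N : ℕ) [NeZero N] (r : Nat.Primes) (hrN : (r : ℕ) ∣ N)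
    (ζ : Qbarˣ) (hζ : IsPrimitiveRoot ζ (r : ℕ)) (u : FF N) :
    formalU (r : ℕ) ζ (u : LaurentSeries Qbar) ∈ ModularCurve.modularFunctionFieldBar N := by
  obtain ⟨a, b, hb, hab⟩ := exists_quot N u
  have hab' : (u : LaurentSeries Qbar) * ((qExpHom N b : FF N) : LaurentSeries Qbar)
      = ((qExpHom N a : FF N) : LaurentSeries Qbar) := congrArg Subtype.val hab
  have h1 := (hmul Qbar (r : ℕ) ζ hζ).2 (u : LaurentSeries Qbar)
    ((qExpHom N b : FF N) : LaurentSeries Qbar)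
  rw [hab'] at h1
  have h0 := formalU_ne_zero hmul hζ (qExpHom_ne_zero N hb)
  rw [eq_div_of_mul_eq h0 h1.symm]
  exact div_mem (formalU_qExp_mem hchar hmd hrep hgr N r hrN ζ hζ a)
    (formalU_qExp_mem hchar hmd hrep hgr N r hrN ζ hζ b)

end M

/-! ### the operator -/

section Op

variable {N : ℕ} {ℓ : ℕ} [NeZero ℓ] {ζ : Qbarˣ}
  (hmem : ∀ u : FF N, formalU ℓ ζ (u : LaurentSeries Qbar) ∈ ModularCurve.modularFunctionFieldBar N)

/-- `N_r` as a self-map of `F_N`. -/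
noncomputable def mkU (u : FF N) : FF N := ⟨formalU ℓ ζ (u : LaurentSeries Qbar), hmem u⟩

theorem coe_mkU (u : FF N) : ((mkU hmem u : FF N) : LaurentSeries Qbar)
    = formalU ℓ ζ (u : LaurentSeries Qbar) := rfl

theorem mkU_mul (hmul : Stmt_UF_mul) (hζ : IsPrimitiveRoot ζ ℓ) (u v : FF N) :
    mkU hmem (u * v) = mkU hmem u * mkU hmem v :=
  Subtype.ext ((hmul Qbar ℓ ζ hζ).2 _ _)

theorem mkU_ne_zero (hmul : Stmt_UF_mul) (hζ : IsPrimitiveRoot ζ ℓ) {u : FF N} (hu : u ≠ 0) :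
    mkU hmem u ≠ 0 := by
  intro h
  exact formalU_ne_zero hmul hζ (fun h0 => hu (Subtype.ext h0)) (congrArg Subtype.val h)

theorem mkU_gal (hmap : Stmt_UF_map) (hind : Stmt_UF_indep) (hζ : IsPrimitiveRoot ζ ℓ) (σ : GQ)
    (u : FF N) : mkU hmem (gal N σ u) = gal N σ (mkU hmem u) := by
  apply Subtype.ext
  rw [coe_mkU, coe_gal, coe_gal, coe_mkU, hmap Qbar Qbar (σ : Qbar →+* Qbar) ℓ ζ]
  refine hind Qbar ℓ _ _ hζ ?_ _
  exact hζ.map_of_injective (f := Units.map ((σ : Qbar →+* Qbar) : Qbar →* Qbar))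
    (Units.map_injective (σ : Qbar →+* Qbar).injective)

theorem coe_algebraMap (c : Qbar) :
    ((algebraMap Qbar (FF N) c : FF N) : LaurentSeries Qbar) = HahnSeries.C c := by
  have h : ((algebraMap Qbar (FF N) c : FF N) : LaurentSeries Qbar)
      = algebraMap Qbar (LaurentSeries Qbar) c := rfl
  have h1 : algebraMap Qbar (PowerSeries Qbar) c = PowerSeries.C c := by simp
  rw [h, HahnSeries.algebraMap_apply', h1, HahnSeries.ofPowerSeries_C]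

theorem mkU_const (c : Qbar) :
    mkU hmem (algebraMap Qbar (FF N) c) = algebraMap Qbar (FF N) (c ^ ℓ) := by
  apply Subtype.ext
  rw [coe_mkU, coe_algebraMap, coe_algebraMap]
  exact formalU_C (ℓ := ℓ) ζ c

end Op

/-! ### the character of `N_r u` -/

theorem kum_mkU (hchar : Stmt_UA_char) (hmd : Stmt_UA_mdiff)
    (hrep : Stmt_UA_rep) (hgr : Stmt_UA_growth) (hmul : Stmt_UF_mul)
    (N : ℕ) [NeZero N] (r : Nat.Primes) (hrN : (r : ℕ) ∣ N)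
    (ζ : Qbarˣ) (hζ : IsPrimitiveRoot ζ (r : ℕ))
    (hmem : ∀ u : FF N,
      formalU (r : ℕ) ζ (u : LaurentSeries Qbar) ∈ ModularCurve.modularFunctionFieldBar N)
    (m : ℕ) [NeZero m] (u : FF N) (χ : Additive (Gamma0 N) →+ ZMod m) (h : Kum N m u χ) :
    Kum N m (mkU hmem u) (tau N r (ZMod m) χ) := by
  obtain ⟨a, b, θ₁, θ₂, ha, hb, ha0, hb0, hθ₂, hu, hrel, hchi⟩ := h
  obtain ⟨α₁, β₁, hβ₁, hf₁, hs₁⟩ := exists_frac hchar hmd hrep hgr N r hrN ζ hζ θ₁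
  obtain ⟨α₂, β₂, hβ₂, hf₂, hs₂⟩ := exists_frac hchar hmd hrep hgr N r hrN ζ hζ θ₂
  have hα₂ : α₂ ≠ 0 := by
    rintro rfl
    rw [map_zero] at hs₂
    exact mul_ne_zero (formalU_ne_zero hmul hζ (qExpHom_ne_zero N hθ₂)) (qExpHom_ne_zero N hβ₂) hs₂
  refine ⟨funU N hrN a, funU N hrN b, α₁ * β₂, α₂ * β₁, (hmd N (r : ℕ) hrN a ha).1,
    (hmd N (r : ℕ) hrN b hb).1, (hmd N (r : ℕ) hrN a ha).2 ha0, (hmd N (r : ℕ) hrN b hb).2 hb0,
    funAlg_mul_ne_zero N hα₂ hβ₁, ?_, ?_, hchar N r hrN m a b χ hchi⟩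
  · apply Subtype.ext
    have hu' : (u : LaurentSeries Qbar) * ((qExpHom N θ₂ : FF N) : LaurentSeries Qbar)
        = ((qExpHom N θ₁ : FF N) : LaurentSeries Qbar) := congrArg Subtype.val hu
    have h1 := (hmul Qbar (r : ℕ) ζ hζ).2 (u : LaurentSeries Qbar)
      ((qExpHom N θ₂ : FF N) : LaurentSeries Qbar)
    rw [hu'] at h1
    rw [map_mul, map_mul]
    show formalU (r : ℕ) ζ (u : LaurentSeries Qbar) * (((qExpHom N α₂ : FF N) : LaurentSeries Qbar)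
        * ((qExpHom N β₁ : FF N) : LaurentSeries Qbar))
      = ((qExpHom N α₁ : FF N) : LaurentSeries Qbar) * ((qExpHom N β₂ : FF N) : LaurentSeries Qbar)
    rw [← hs₁, ← hs₂, h1]
    ring
  · intro z
    have h1 := funU_rel N hrN hrel z
    show funU N hrN a z ^ m * ((α₂ : ℍ → ℂ) z * (β₁ : ℍ → ℂ) z)
      = funU N hrN b z ^ m * ((α₁ : ℍ → ℂ) z * (β₂ : ℍ → ℂ) z)
    rw [← hf₁ z, ← hf₂ z]
    linear_combination ((β₁ : ℍ → ℂ) z * (β₂ : ℍ → ℂ) z) * h1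

/-! ### (F2) : `N_r u ≡ σ u` up to a constant -/

theorem cong_mkU (hcong : Stmt_UF_cong) (hmul : Stmt_UF_mul)
    (N : ℕ) [NeZero N] {ℓ : ℕ} [NeZero ℓ] (hℓ : ℓ.Prime)
    (ζ : Qbarˣ) (hζ : IsPrimitiveRoot ζ ℓ)
    (hmem : ∀ u : FF N,
      formalU ℓ ζ (u : LaurentSeries Qbar) ∈ ModularCurve.modularFunctionFieldBar N)
    (A : ValuationSubring Qbar) (hA : A.LiesOverPrime ℓ) (σ : GQ) (hσ : A.IsFrobeniusAt σ ℓ)
    (u : FF N) (hu : u ≠ 0) :
    ∃ c : Qbar, c ≠ 0 ∧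
      CongOne N A (algebraMap Qbar (FF N) c * (gal N σ u * (mkU hmem u)⁻¹)) := by
  obtain ⟨c, y₁, y₂, θ₁, θ₂, hc, hy₁, hy₂, hu12, hr₁, hr₂⟩ := INT.intRep' N A u hu
  obtain ⟨a₁, w₁, ha₁, hw₁, hrw₁, hra₁⟩ := hcong ℓ hℓ A hA σ hσ ζ hζ y₁
  obtain ⟨a₂, w₂, ha₂, hw₂, hrw₂, hra₂⟩ := hcong ℓ hℓ A hA σ hσ ζ hζ y₂
  set X₁ : FF N := qExpHom N θ₁ with hX₁
  set X₂ : FF N := qExpHom N θ₂ with hX₂
  have hσc : σ c ≠ 0 := (map_ne_zero_iff _ σ.injective).2 hc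
  have hY1 : ModularCurve.coeffMap A.subtype (a₁ * w₂)
      = ((gal N σ X₁ * mkU hmem X₂ : FF N) : LaurentSeries Qbar) := by
    rw [map_mul, ha₁, hw₂, hy₁, hy₂]
    rfl
  have hY2 : ModularCurve.coeffMap A.subtype (a₂ * w₁)
      = ((gal N σ X₂ * mkU hmem X₁ : FF N) : LaurentSeries Qbar) := by
    rw [map_mul, ha₂, hw₁, hy₁, hy₂]
    rfl
  have hX₂0 : X₂ ≠ 0 := by
    intro h0
    apply hr₂
    have : y₂ = 0 := by
      apply Fermat.Agent.S18.coeffMap_subtype_injective A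
      rw [hy₂, map_zero, h0]; rfl
    rw [this, map_zero]
  have hX₁0 : X₁ ≠ 0 := by
    intro h0
    rw [h0, mul_zero] at hu12
    exact (mul_ne_zero hu hX₂0) hu12
  refine ⟨c ^ ℓ * (σ c)⁻¹, mul_ne_zero (pow_ne_zero _ hc) (inv_ne_zero hσc),
    a₁ * w₂, a₂ * w₁, ?_, ?_, ?_, ?_, ?_⟩
  · rw [hY1]; exact Subtype.property _
  · rw [hY2]; exact Subtype.property _
  · rw [hY1, hY2]
    have hcF : algebraMap Qbar (FF N) c ≠ 0 :=
      (map_ne_zero_iff _ (algebraMap Qbar (FF N)).injective).2 hc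
    have hσcF : algebraMap Qbar (FF N) (σ c) ≠ 0 :=
      (map_ne_zero_iff _ (algebraMap Qbar (FF N)).injective).2 hσc
    have hgX₂ : gal N σ X₂ ≠ 0 := GLUE.gal_ne_zero N σ hX₂0
    have hgX₁ : gal N σ X₁ ≠ 0 := GLUE.gal_ne_zero N σ hX₁0
    have hUX₂ : mkU hmem X₂ ≠ 0 := mkU_ne_zero hmem hmul hζ hX₂0
    have hUX₁ : mkU hmem X₁ ≠ 0 := mkU_ne_zero hmem hmul hζ hX₁0
    have hg : gal N σ u * gal N σ X₂ = algebraMap Qbar (FF N) (σ c) * gal N σ X₁ := by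
      rw [← map_mul, hu12, map_mul, FIX.gal_algebraMap]
    have hU : mkU hmem u * mkU hmem X₂ = algebraMap Qbar (FF N) c ^ ℓ * mkU hmem X₁ := by
      rw [← mkU_mul hmem hmul hζ, hu12, mkU_mul hmem hmul hζ, mkU_const, map_pow]
    have hgu' : gal N σ u = algebraMap Qbar (FF N) (σ c) * gal N σ X₁ / gal N σ X₂ := by
      rw [eq_div_iff hgX₂]; exact hg
    have hUu' : mkU hmem u = algebraMap Qbar (FF N) c ^ ℓ * mkU hmem X₁ / mkU hmem X₂ := by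
      rw [eq_div_iff hUX₂]; exact hU
    have key : algebraMap Qbar (FF N) (c ^ ℓ * (σ c)⁻¹) * (gal N σ u * (mkU hmem u)⁻¹)
          * (gal N σ X₂ * mkU hmem X₁)
        = gal N σ X₁ * mkU hmem X₂ := by
      rw [hgu', hUu', map_mul, map_inv₀, map_pow]
      field_simp
    exact congrArg Subtype.val key
  · rw [map_mul, map_mul, hrw₁, hrw₂, mul_comm]
  · rw [map_mul, hrw₁]
    exact mul_ne_zero (hra₂ hr₂) (hra₁ hr₁)

/-- **(U)** the multiplicative operator `N_r` on `F_N`, `r ∣ N`. -/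
theorem heckeU (hmul : Stmt_UF_mul) (hmap : Stmt_UF_map) (hind : Stmt_UF_indep)
    (hcong : Stmt_UF_cong) (hchar : Stmt_UA_char) (hmd : Stmt_UA_mdiff) (hrep : Stmt_UA_rep)
    (hgr : Stmt_UA_growth) : Stmt_HeckeU := by
  intro N _ r hrN
  have hr : (r : ℕ).Prime := r.2
  obtain ⟨ζ₀, hζ₀⟩ := HasEnoughRootsOfUnity.exists_primitiveRoot Qbar (r : ℕ)
  obtain ⟨ζ, rfl⟩ := hζ₀.isUnit (NeZero.ne _)
  have hζ : IsPrimitiveRoot ζ (r : ℕ) := IsPrimitiveRoot.coe_units_iff.mp hζ₀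
  have hmem := formalU_mem hchar hmd hrep hgr hmul N r hrN ζ hζ
  refine ⟨mkU hmem, ?_, ?_, ?_⟩
  · intro m _ u χ h
    exact kum_mkU hchar hmd hrep hgr hmul N r hrN ζ hζ hmem m u χ h
  · intro σ u
    exact mkU_gal hmem hmap hind hζ σ u
  · intro A hA σ hσ u hu
    exact cong_mkU hcong hmul N hr ζ hζ hmem A hA σ hσ u hu

end Fermat.Agent.BR.F.U3
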