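import Fermat.Agent.ES.All
import Fermat.Agent.BR.F.ALAlg
import Fermat.Agent.BR.F.ALConj
import Fermat.Agent.BR.F.ALCoset
import Fermat.Agent.BR.F.ALField
import Fermat.Agent.BR.F.ALKum
import Fermat.Agent.BR.F.AbsFrob
import Fermat.Agent.BR.F.Cong
import Fermat.Agent.BR.F.UFormal
import Fermat.Agent.BR.F.UAnalytic
import Fermat.Agent.BR.F.UGlue
import Fermat.Agent.BR.F.FinBR
import Fermat.Agent.BR.F.LamBR
import Fermat.Agent.BR.F.NewP

/-!
# BR / F : assembly.

* `ALL.es_br_of : S18.Stmt_ClaimK → Stmt_G → Stmt_ES_BR`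
* `ALL.new_of : S18.Stmt_ClaimK → NP.TraceP → Stmt_New`
-/

set_option autoImplicit false

namespace Fermat.Agent.BR.F.ALL

open Fermat.Agent.ES.Mid

/-- all the statements of the middle layer of ES, from Claim K. -/
theorem esHyp_of (hK : Fermat.Agent.S18.Stmt_ClaimK) : ESHyp where
  hMul := kumMul
  hInv := kumInv
  hPow := kumPow
  hUn := kumUnique
  hRed := kumRed
  hA := A.kumOfDiv VAL.valMult ROOT.rootUHP
  hB := B.divOfKum_of B.count B.unifFin B.unifCusp B.finOrd B.cuspOrd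
  hE := E.kumKer ROOT.rootUHP INV.invRat RS.rootSeries
  hF := Fermat.Agent.ES.Mid.F.kumSurj Fermat.Agent.ES.Desc.desc INV.invRat
  hT := TP.tauPE
  hH := Fermat.Agent.ES.All.stmt_Hecke
  hJ := FIX.congInertia'
  hK := GLUE.claimK_of hK
  hL := LM.fixedOpen
  hM := LM.homFinite

/-- (U) unconditional. -/
theorem heckeU : Stmt_HeckeU :=
  U3.heckeU U1.uf_mul U1.uf_map U1.uf_indep U1.uf_cong U2.ua_char U2.ua_mdiff U2.ua_rep
    U2.ua_growth

/-- (X) from Claim K and Theorem G. -/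
theorem brFin_of (hK : Fermat.Agent.S18.Stmt_ClaimK) (hG : Stmt_G) : Stmt_BRFin :=
  XB.brFin (esHyp_of hK) hG (W3.alExists W1.alMat W1.alConj W2.alAlg) (W3.al_j W2.alAlg)
    W3.al_gal W4.al_kum W1.al_trace heckeU C.congAlg C.congDecomp

/-- **OUTPUT 1** from Claim K and Theorem G. -/
theorem es_br_of (hK : Fermat.Agent.S18.Stmt_ClaimK) (hG : Stmt_G) : Stmt_ES_BR :=
  L.es_br (brFin_of hK hG) L0.absFrob W1.al_trace (W5.al_tau (W5.alCoset W1.alConj))

/-- **OUTPUT 2** from Claim K and the trace. -/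
theorem new_of (hK : Fermat.Agent.S18.Stmt_ClaimK) (hTr : NP.TraceP) : Stmt_New :=
  NP.new (Fermat.Agent.ES.All.stmt_ES_of hK) hTr

end Fermat.Agent.BR.F.ALL
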