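import Fermat.Agent.BR.F.Interface

/-!
# BR / [F], task F-N5 (helper77): common eigenvectors of the full Hecke algebra
-/

set_option autoImplicit false
set_option linter.style.haveILetI false

noncomputable section

namespace Fermat.Agent.BR.F.N5

open CongruenceSubgroup ModularCurve

/-- A commuting set of endomorphisms of a finite dimensional vector space over an algebraically
closed field has a common eigenvector in every nonzero stable subspace. -/
theorem exists_common_eigenvector {K V : Type*} [Field K] [IsAlgClosed K] [AddCommGroup V]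
    [Module K V] [FiniteDimensional K V] (𝒮 : Set (Module.End K V))
    (hcomm : ∀ f ∈ 𝒮, ∀ g ∈ 𝒮, Commute f g) :
    ∀ (n : ℕ) (W : Submodule K V), Module.finrank K W = n → W ≠ ⊥ →
      (∀ f ∈ 𝒮, ∀ w ∈ W, f w ∈ W) →
      ∃ v ∈ W, v ≠ 0 ∧ ∀ f ∈ 𝒮, ∃ c : K, f v = c • v := by
  intro n
  induction n using Nat.strong_induction_on with
  | _ n ih =>
    intro W hn hW hst
    by_cases hsc : ∀ f ∈ 𝒮, ∃ c : K, ∀ w ∈ W, f w = c • w
    · obtain ⟨v, hv, hv0⟩ := (Submodule.ne_bot_iff W).mp hW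
      refine ⟨v, hv, hv0, fun f hf => ?_⟩
      obtain ⟨c, hc⟩ := hsc f hf
      exact ⟨c, hc v hv⟩
    · push Not at hsc
      obtain ⟨f, hf, hfc⟩ := hsc
      haveI : Nontrivial W := (Submodule.nontrivial_iff_ne_bot).mpr hW
      obtain ⟨μ, hμ⟩ := Module.End.exists_eigenvalue (f.restrict (hst f hf))
      obtain ⟨v, hv⟩ := hμ.exists_hasEigenvector
      have hv1 : f (v : V) = μ • (v : V) := by
        have := hv.apply_eq_smul
        exact congrArg Subtype.val this
      have hv0 : (v : V) ≠ 0 := fun h => hv.2 (Subtype.ext h)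
      let W' : Submodule K V := W ⊓ Module.End.eigenspace f μ
      have hW'le : W' ≤ W := inf_le_left
      have hW'lt : W' < W := by
        refine lt_of_le_of_ne hW'le ?_
        intro h
        obtain ⟨w, hw, hw'⟩ := hfc μ
        have : w ∈ W' := h ▸ hw
        exact hw' (Module.End.mem_eigenspace_iff.mp this.2)
      have hW'0 : W' ≠ ⊥ := by
        refine (Submodule.ne_bot_iff W').mpr ⟨v, ⟨v.2, Module.End.mem_eigenspace_iff.mpr hv1⟩, hv0⟩
      have hlt : Module.finrank K W' < n := hn ▸ Submodule.finrank_lt_finrank_of_lt hW'lt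
      obtain ⟨u, hu, hu0, hu1⟩ := ih _ hlt W' rfl hW'0 (by
        intro g hg w hw
        refine ⟨hst g hg w hw.1, Module.End.mem_eigenspace_iff.mpr ?_⟩
        have h1 : f (g w) = g (f w) := by
          have := hcomm f hf g hg
          exact congrArg (fun φ : Module.End K V => φ w) this.eq
        rw [h1, Module.End.mem_eigenspace_iff.mp hw.2, map_smul])
      exact ⟨u, hW'le hu, hu0, hu1⟩

/-- `S₂(Γ₀(M))` is finite dimensional. -/
theorem finiteDimensional_cuspForm (M : ℕ) [NeZero M] :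
    FiniteDimensional ℂ (CuspForm (Gamma0 M) 2) := by
  obtain ⟨hinj, hrange⟩ := Fermat.Agent.S21.result M
  haveI h1 : Module.Finite ℂ (Period.parabolicHoms ℂ (Gamma0 M) ℂ) :=
    Module.Finite.equiv (Fermat.Agent.ES.Coh.parEquiv M ℂ ℂ)
  haveI h2 : Module.Finite ℂ (LinearMap.range (periodHomPair M)) := by
    rw [hrange]; exact h1
  haveI h3 : Module.Finite ℂ (CuspForm (Gamma0 M) 2 × CuspForm (Gamma0 M) 2) := by
    refine Module.Finite.of_injective (periodHomPair M).rangeRestrict ?_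
    intro x y hxy
    exact hinj (congrArg Subtype.val hxy)
  exact Module.Finite.of_injective (LinearMap.inl ℂ _ (CuspForm (Gamma0 M) 2))
    LinearMap.inl_injective

theorem commonEigen : Stmt_CommonEigen := by
  intro M _ S a F hF hFa
  haveI := finiteDimensional_cuspForm M
  let 𝒮 : Set (Module.End ℂ (CuspForm (Gamma0 M) 2)) := CuspForm.heckeGenerators M 2 ∅
  let E : Submodule ℂ (CuspForm (Gamma0 M) 2) :=
    { carrier := {h | ∀ (ℓ : ℕ) (hℓ : ℓ.Prime) (hℓM : ¬ ℓ ∣ M), ℓ ∉ S →
        CuspForm.heckeTLin 2 hℓ hℓM h = a ℓ • h}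
      add_mem' := by
        intro x y hx hy ℓ hℓ hℓM hS
        rw [map_add, hx ℓ hℓ hℓM hS, hy ℓ hℓ hℓM hS, smul_add]
      zero_mem' := by
        intro ℓ hℓ hℓM hS
        rw [map_zero, smul_zero]
      smul_mem' := by
        intro c x hx ℓ hℓ hℓM hS
        rw [map_smul, hx ℓ hℓ hℓM hS, smul_comm] }
  have hE0 : E ≠ ⊥ := (Submodule.ne_bot_iff E).mpr ⟨F, hFa, hF⟩
  obtain ⟨h, hhE, hh0, hh⟩ := exists_common_eigenvector 𝒮
    (fun f hf g hg => CuspForm.commute_of_mem_heckeGenerators hf hg) _ E rfl hE0 (by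
      intro g hg w hw ℓ hℓ hℓM hS
      have hc : Commute (CuspForm.heckeTLin 2 hℓ hℓM) g :=
        CuspForm.commute_of_mem_heckeGenerators
          (CuspForm.heckeTLin_mem_heckeGenerators hℓ hℓM (Set.notMem_empty ℓ)) hg
      have h1 : CuspForm.heckeTLin 2 hℓ hℓM (g w) = g (CuspForm.heckeTLin 2 hℓ hℓM w) :=
        congrArg (fun φ : Module.End ℂ (CuspForm (Gamma0 M) 2) => φ w) hc.eq
      rw [h1, hw ℓ hℓ hℓM hS, map_smul])
  refine ⟨h, hh0, hhE, ?_, ?_⟩
  · intro ℓ hℓ hℓM
    exact hh _ (CuspForm.heckeTLin_mem_heckeGenerators hℓ hℓM (Set.notMem_empty ℓ))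
  · intro q hq hqM
    exact hh _ (CuspForm.heckeULin_mem_heckeGenerators hq hqM (Set.notMem_empty q))

end Fermat.Agent.BR.F.N5
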