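import Fermat.Agent.ES.Mid.HeckeDefs
import Fermat.Agent.ES.Mid.Fix
import Fermat.Agent.ES.Coh.Assemble
import Fermat.Prelude.Def_CuspForm_Newforms

/-!
# BR / F : definitions of package [F] of the bad reduction project (S34 + S35), architect helper22

`r ∥ N`.  `W = [[r x, y], [N, r]]`, `r x - (N / r) y = 1`, is an Atkin-Lehner matrix.
* `ALMat N r`   : the integer data `x, y, M = N / r`;   `ALMat.W : GL (Fin 2) ℝ`.
* `AL N r`      : `ALMat` + conjugation `θ γ = W γ W⁻¹` on `Γ₀(N)` + the involution `w` of `F_N`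
                  (`(w f)(z) = f (W z)`).
* `AL.chr`      : `χ ↦ χ ∘ θ` on `Hom(Γ₀(N), B)`.
* `IsAL N r w`  : `w` exchanges `j_d` and `j_{d r}` (characterises `w`).
* `InWinf`      : the character `χ ∈ X_m` lies in `W_∞(m)`: it is the character of some `u ≡ 1`.
* `formalU`, `funU` : the multiplicative `U_r`:  `(N_r u)(z) = ∏_{b mod r} u((z + b) / r)`.
* `NewAt`       : the Hecke operator `x` satisfies `U_q² x = x` on `S₂(Γ₀(N))`.
-/

set_option autoImplicit false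

namespace Fermat.Agent.BR.F

open UpperHalfPlane CongruenceSubgroup AlgebraicCurve CuspForm
open scoped MatrixGroups Manifold
open Fermat.Agent.S24 (Qbar FF funAlg iota jBar)
open Fermat.Agent.S24.QX (qExpHom cmI)
open Fermat.Agent.S16.HH (jG dataU dataT)
open Fermat.Agent.ES.Mid
attribute [local instance] Fermat.Agent.S24.algQbarComplex

/-! ### Atkin-Lehner matrices -/

/-- Integer data of the Atkin-Lehner matrix `W = [[r x, y], [N, r]]` (determinant `r`). -/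
structure ALMat (N r : ℕ) where
  x : ℤ
  y : ℤ
  M : ℕ
  hr : 0 < r
  hN : N = r * M
  hdet : (r : ℤ) * x - (M : ℤ) * y = 1

namespace ALMat

variable {N r : ℕ} (X : ALMat N r)

/-- The real matrix `[[r x, y], [N, r]]`. -/
def mat : Matrix (Fin 2) (Fin 2) ℝ := !![(r : ℝ) * (X.x : ℝ), (X.y : ℝ); (N : ℝ), (r : ℝ)]

theorem det_mat : X.mat.det = (r : ℝ) := by
  rw [mat, Matrix.det_fin_two_of]
  have h1 : (r : ℝ) * (X.x : ℝ) - (X.M : ℝ) * (X.y : ℝ) = 1 := by exact_mod_cast X.hdet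
  have h2 : (N : ℝ) = (r : ℝ) * (X.M : ℝ) := by exact_mod_cast X.hN
  rw [h2]
  linear_combination (r : ℝ) * h1

/-- The Atkin-Lehner matrix as an element of `GL₂(ℝ)`. -/
noncomputable def W : GL (Fin 2) ℝ :=
  Matrix.GeneralLinearGroup.mkOfDetNeZero X.mat (by
    rw [det_mat]; exact_mod_cast X.hr.ne')

@[simp] theorem val_W : (X.W : Matrix (Fin 2) (Fin 2) ℝ) = X.mat := rfl

theorem det_W : (X.W.det : ℝ) = (r : ℝ) := by
  rw [Matrix.GeneralLinearGroup.val_det_apply, val_W, det_mat]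

theorem det_W_pos : 0 < (X.W.det : ℝ) := by
  rw [det_W]; exact_mod_cast X.hr

end ALMat

/-- Atkin-Lehner data at `r ∥ N`: matrix, conjugation on `Γ₀(N)`, involution of `ℚ̄[j_d]` and of
`F_N`. -/
structure AL (N r : ℕ) [NeZero N] extends ALMat N r where
  θ : Gamma0 N ≃* Gamma0 N
  hθ : ∀ γ : Gamma0 N, jG N (θ γ) = toALMat.W * jG N γ * (toALMat.W)⁻¹
  wAlg : funAlg N ≃ₐ[Qbar] funAlg N
  hwAlg : ∀ (f : funAlg N) (z : ℍ), (wAlg f : ℍ → ℂ) z = (f : ℍ → ℂ) (toALMat.W • z)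
  w : FF N ≃ₐ[Qbar] FF N
  hw : ∀ f : funAlg N, w (qExpHom N f) = qExpHom N (wAlg f)

/-- `χ ↦ χ ∘ θ`, the Atkin-Lehner involution on `Hom(Γ₀(N), B)`. -/
def AL.chr {N r : ℕ} [NeZero N] (X : AL N r) {B : Type*} [AddCommGroup B] :
    (Additive (Gamma0 N) →+ B) →+ (Additive (Gamma0 N) →+ B) where
  toFun χ := χ.comp (MonoidHom.toAdditive X.θ.toMonoidHom)
  map_zero' := rfl
  map_add' _ _ := rfl

theorem AL.chr_apply {N r : ℕ} [NeZero N] (X : AL N r) {B : Type*} [AddCommGroup B]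
    (χ : Additive (Gamma0 N) →+ B) (γ : Gamma0 N) :
    X.chr χ (Additive.ofMul γ) = χ (Additive.ofMul (X.θ γ)) := rfl

/-- `w` exchanges `j(q^d)` and `j(q^{d r})`. -/
def IsAL (N r : ℕ) (w : FF N ≃ₐ[Qbar] FF N) : Prop :=
  ∀ (d e : ℕ) [NeZero d] [NeZero e] (hd : d ∣ N) (he : e ∣ N), e = d * r →
    w (jBar N d hd) = jBar N e he ∧ w (jBar N e he) = jBar N d hd

/-! ### the subgroups `W_∞` -/

/-- `χ ∈ W_∞(m)`: `χ` is the Kummer character of a function `u ≡ 1 mod 𝔪_A`. -/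
def InWinf (N m : ℕ) [NeZero N] [NeZero m] (A : ValuationSubring Qbar)
    (χ : Additive (Gamma0 N) →+ ZMod m) : Prop :=
  ∃ u : FF N, Kum N m u χ ∧ CongOne N A u

/-- the class of `u` modulo `m`-th powers contains a function `≡ 1 mod 𝔪_A`. -/
def ClassCong (N m : ℕ) (A : ValuationSubring Qbar) (u : FF N) : Prop :=
  ∃ f : FF N, f ≠ 0 ∧ CongOne N A (u * f ^ m)

/-! ### the multiplicative operator `N_r`, `r ∣ N` -/

/-- `x ↦ ∏_{ζ^ℓ = 1} x(ζ q^{1/ℓ})`. -/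
noncomputable def formalU {R : Type*} [CommRing R] (ℓ : ℕ) [NeZero ℓ] (ζ : Rˣ)
    (x : LaurentSeries R) : LaurentSeries R :=
  compress ℓ (twProd ℓ ζ x)

/-- `(𝒰 f)(z) = ∏_{b mod q} f((z + b) / q)`, with helper22's coset data `dataU`. -/
noncomputable def funU (N : ℕ) {q : ℕ} [NeZero q] (hqN : q ∣ N) (f : ℍ → ℂ) : ℍ → ℂ :=
  fun z => ∏ x : ZMod q, f ((dataU N hqN).α x • z)

/-! ### newness -/

/-- `U_q² x = x` on `S₂(Γ₀(N))`. -/
def NewAt {N : ℕ} [NeZero N] {S : Set ℕ} {q : ℕ} (hqN : q ∣ N) (x : heckeAlgebra N 2 S) : Prop :=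
  heckeULin 2 hqN * heckeULin 2 hqN * x.1 = x.1

end Fermat.Agent.BR.F
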