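import Fermat.Agent.BR.F.Interface

/-!
# BR / F-N2 : the trace `f + U_r (f | W)` has level `N / r`  (`r` prime)
-/

set_option autoImplicit false

namespace Fermat.Agent.BR.F.N2

open UpperHalfPlane CongruenceSubgroup CuspForm ModularForm Matrix.SpecialLinearGroup
open scoped MatrixGroups Manifold ModularForm

/-- corrected form of `Stmt_Trace` (`r` prime). -/
def Stmt_TraceP : Prop :=
  ∀ (N : ℕ) [NeZero N] (r : ℕ), r.Prime → ∀ (X : ALMat N r) (f : CuspForm (Gamma0 N) 2),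
    ∃ F : CuspForm (Gamma0 X.M) 2,
      (F : ℍ → ℂ) = (f : ℍ → ℂ) + ModularForm.heckeU 2 r ((f : ℍ → ℂ) ∣[(2 : ℤ)] X.W)

/-- weight 2 slash only depends on the matrix up to a positive scalar. -/
theorem slash_eq_of_smul (f : ℍ → ℂ) (A B : GL (Fin 2) ℝ) (c : ℝ) (hc : 0 < c)
    (hB : 0 < (B.det : ℝ))
    (h : (A : Matrix (Fin 2) (Fin 2) ℝ) = c • (B : Matrix (Fin 2) (Fin 2) ℝ)) :
    f ∣[(2 : ℤ)] A = f ∣[(2 : ℤ)] B := by
  have hdet : (A.det : ℝ) = c ^ 2 * (B.det : ℝ) := by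
    rw [Matrix.GeneralLinearGroup.val_det_apply, Matrix.GeneralLinearGroup.val_det_apply, h,
      Matrix.det_smul]
    simp
  have hA : 0 < (A.det : ℝ) := by rw [hdet]; positivity
  funext z
  have hden : denom A z = c * denom B z := by
    simp only [denom, h, Matrix.smul_apply, smul_eq_mul]
    push_cast
    ring
  have hnum : num A z = c * num B z := by
    simp only [num, h, Matrix.smul_apply, smul_eq_mul]
    push_cast
    ring
  have hsm : A • z = B • z := by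
    apply UpperHalfPlane.ext
    rw [UpperHalfPlane.coe_smul_of_det_pos hA, UpperHalfPlane.coe_smul_of_det_pos hB, hden, hnum]
    have hc' : (c : ℂ) ≠ 0 := by exact_mod_cast hc.ne'
    rw [mul_div_mul_left _ _ hc']
  rw [ModularForm.slash_apply, ModularForm.slash_apply, hsm, hden]
  have hσA : σ A = σ B := by simp only [σ, if_pos hA, if_pos hB]
  have hc' : (c : ℂ) ≠ 0 := by exact_mod_cast hc.ne'
  have hd0 : denom B z ≠ 0 := denom_ne_zero B z
  rw [hσA, hdet, abs_of_pos (by positivity), abs_of_pos hB]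
  norm_num
  field_simp

theorem mem_Gamma0_iff_dvd {N : ℕ} {A : SL(2, ℤ)} : A ∈ Gamma0 N ↔ (N : ℤ) ∣ A 1 0 := by
  rw [Gamma0_mem, ZMod.intCast_zmod_eq_zero_iff_dvd]

section

variable {N r : ℕ} (X : ALMat N r)

/-- `δ_j = [[x, x j + y], [M, M j + r]] ∈ SL₂(ℤ)`. -/
def del (j : ℕ) : SL(2, ℤ) :=
  ⟨!![X.x, X.x * j + X.y; (X.M : ℤ), X.M * j + r], by
    rw [Matrix.det_fin_two_of]; linear_combination X.hdet⟩

theorem val_del (j : ℕ) : (del X j : Matrix (Fin 2) (Fin 2) ℤ)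
    = !![X.x, X.x * j + X.y; (X.M : ℤ), X.M * j + r] := rfl

theorem del_mem (j : ℕ) : del X j ∈ Gamma0 X.M := by
  rw [mem_Gamma0_iff_dvd, val_del]
  simp

theorem W_mul_heckeMatrix (j : ℕ) :
    ((X.W * heckeMatrix r j : GL (Fin 2) ℝ) : Matrix (Fin 2) (Fin 2) ℝ)
      = (r : ℝ) • ((mapGL ℝ (del X j) : GL (Fin 2) ℝ) : Matrix (Fin 2) (Fin 2) ℝ) := by
  have h2 : (N : ℝ) = (r : ℝ) * (X.M : ℝ) := by exact_mod_cast X.hN
  rw [Units.val_mul, val_heckeMatrix X.hr.ne', ALMat.val_W, ALMat.mat, mapGL_coe_matrix,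
    Matrix.SpecialLinearGroup.map_apply_coe, val_del]
  ext a b
  fin_cases a <;> fin_cases b <;>
    simp [Matrix.mul_apply, Fin.sum_univ_two, h2] <;> ring

theorem slash_W_heckeMatrix (f : ℍ → ℂ) (j : ℕ) :
    (f ∣[(2 : ℤ)] X.W) ∣[(2 : ℤ)] heckeMatrix r j = f ∣[(2 : ℤ)] (mapGL ℝ (del X j)) := by
  rw [← SlashAction.slash_mul]
  refine slash_eq_of_smul f _ _ (r : ℝ) (by exact_mod_cast X.hr) ?_ (W_mul_heckeMatrix X j)
  simp

theorem isCoprime_r_M : IsCoprime (r : ℤ) (X.M : ℤ) :=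
  ⟨X.x, -X.y, by linear_combination X.hdet⟩

theorem M_ne_zero [NeZero N] : (X.M : ℤ) ≠ 0 := by
  intro h
  have h' : X.M = 0 := by exact_mod_cast h
  apply NeZero.ne N
  rw [X.hN, h', mul_zero]

theorem N_dvd_iff [NeZero N] (t : ℤ) : (N : ℤ) ∣ X.M * t ↔ (r : ℤ) ∣ t := by
  have hN : (N : ℤ) = X.M * r := by
    have := X.hN
    push_cast [this]
    ring
  rw [hN]
  exact mul_dvd_mul_iff_left (M_ne_zero X)

theorem del_mul_inv_mem [NeZero N] {i j : ℕ} (hi : i < r) (hj : j < r)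
    (h : del X i * (del X j)⁻¹ ∈ Gamma0 N) : i = j := by
  rw [mem_Gamma0_iff_dvd] at h
  have h1 : (del X i * (del X j)⁻¹) 1 0 = X.M * (X.M * ((j : ℤ) - i)) := by
    rw [Matrix.SpecialLinearGroup.coe_mul, Matrix.SpecialLinearGroup.coe_inv, val_del, val_del,
      Matrix.adjugate_fin_two]
    simp [Matrix.mul_apply, Fin.sum_univ_two]
    ring
  rw [h1, N_dvd_iff] at h
  have h2 : (r : ℤ) ∣ (j : ℤ) - i := (isCoprime_r_M X).dvd_of_dvd_mul_left h
  have h3 : (j : ℤ) - i = 0 := by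
    apply Int.eq_zero_of_abs_lt_dvd h2
    rw [abs_lt]
    constructor <;> omega
  omega

theorem del_inv_not_mem [NeZero N] (hr : r.Prime) (j : ℕ) : (del X j)⁻¹ ∉ Gamma0 N := by
  intro h
  rw [mem_Gamma0_iff_dvd] at h
  have h1 : ((del X j)⁻¹) 1 0 = X.M * (-1) := by
    rw [Matrix.SpecialLinearGroup.coe_inv, val_del, Matrix.adjugate_fin_two]
    simp
  rw [h1, N_dvd_iff] at h
  have h2 : (r : ℤ) ∣ 1 := by simpa using h
  have h3 : r ∣ 1 := by exact_mod_cast h2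
  exact hr.one_lt.ne' (Nat.dvd_one.mp h3)

theorem exists_del_mul_mem [NeZero N] (hr : r.Prime) (h : SL(2, ℤ)) (hh : h ∈ Gamma0 X.M) :
    h ∈ Gamma0 N ∨ ∃ j < r, del X j * h ∈ Gamma0 N := by
  rw [mem_Gamma0_iff_dvd] at hh
  obtain ⟨c', hc'⟩ := hh
  by_cases hrc : (r : ℤ) ∣ c'
  · left
    rw [mem_Gamma0_iff_dvd, hc', N_dvd_iff]
    exact hrc
  · right
    have : Fact r.Prime := ⟨hr⟩
    have hu : ((X.M : ℤ) * c' : ZMod r) ≠ 0 := by
      intro h0
      have h1 : (((X.M : ℤ) * c' : ℤ) : ZMod r) = 0 := by push_cast; exact_mod_cast h0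
      rw [ZMod.intCast_zmod_eq_zero_iff_dvd] at h1
      exact hrc ((isCoprime_r_M X).dvd_of_dvd_mul_left h1)
    refine ⟨(-(h 0 0 : ZMod r) * ((X.M : ℤ) * c' : ZMod r)⁻¹).val, ZMod.val_lt _, ?_⟩
    set j := (-(h 0 0 : ZMod r) * ((X.M : ℤ) * c' : ZMod r)⁻¹).val with hj
    rw [mem_Gamma0_iff_dvd]
    have h1 : (del X j * h) 1 0 = X.M * (h 0 0 + (X.M * j + r) * c') := by
      rw [Matrix.SpecialLinearGroup.coe_mul, val_del]
      simp [Matrix.mul_apply, Fin.sum_univ_two, hc']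
      ring
    rw [h1, N_dvd_iff, ← ZMod.intCast_zmod_eq_zero_iff_dvd]
    push_cast
    rw [hj, ZMod.natCast_val, ZMod.cast_id', id]
    simp only [CharP.cast_eq_zero, add_zero]
    have hu' : ((X.M : ZMod r) * (c' : ZMod r)) ≠ 0 := by exact_mod_cast hu
    push_cast
    have h3 : (X.M : ZMod r) * (-(h 0 0 : ZMod r) * ((X.M : ZMod r) * (c' : ZMod r))⁻¹) * c'
        = -(h 0 0 : ZMod r) * (((X.M : ZMod r) * (c' : ZMod r)) *
          ((X.M : ZMod r) * (c' : ZMod r))⁻¹) := by ring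
    rw [h3, mul_inv_cancel₀ hu']
    ring

end

section Main

variable {N r : ℕ} [NeZero N] (X : ALMat N r)

/-- the image of `Γ₀(n)` in `GL₂(ℝ)`. -/
abbrev GG (n : ℕ) : Subgroup (GL (Fin 2) ℝ) := (Gamma0 n : Subgroup SL(2, ℤ))

theorem mapGL_mem_GG {n : ℕ} {γ : SL(2, ℤ)} : mapGL ℝ γ ∈ GG n ↔ γ ∈ Gamma0 n :=
  Subgroup.mem_map_iff_mem mapGL_injective

/-- `Γ₀(M) → ℋ`. -/
def inH {n : ℕ} (γ : SL(2, ℤ)) (hγ : γ ∈ Gamma0 n) : GG n := ⟨mapGL ℝ γ, mapGL_mem_GG.2 hγ⟩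

theorem mk_inH_eq_iff {n m : ℕ} (a b : SL(2, ℤ)) (ha : a ∈ Gamma0 m) (hb : b ∈ Gamma0 m) :
    (QuotientGroup.mk (inH a ha) : GG m ⧸ (GG n).subgroupOf (GG m)) = QuotientGroup.mk (inH b hb)
      ↔ a⁻¹ * b ∈ Gamma0 n := by
  rw [QuotientGroup.eq, Subgroup.mem_subgroupOf, ← mapGL_mem_GG]
  simp [inH]

/-- the representatives. -/
def rep : Option (Fin r) → GG X.M ⧸ (GG N).subgroupOf (GG X.M)
  | none => QuotientGroup.mk (inH 1 (one_mem _))
  | some j => QuotientGroup.mk (inH (del X j)⁻¹ (inv_mem (del_mem X j)))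

theorem rep_bijective (hr : r.Prime) : Function.Bijective (rep X) := by
  constructor
  · rintro (_ | i) (_ | j) h
    · rfl
    · exfalso
      rw [rep, rep, mk_inH_eq_iff] at h
      exact del_inv_not_mem X hr j (by simpa using h)
    · exfalso
      rw [rep, rep, mk_inH_eq_iff] at h
      have h' : del X i ∈ Gamma0 N := by simpa using h
      exact del_inv_not_mem X hr i (inv_mem h')
    · rw [rep, rep, mk_inH_eq_iff, inv_inv] at h
      have := del_mul_inv_mem X i.2 j.2 h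
      exact congrArg some (Fin.ext this)
  · intro q
    induction q using QuotientGroup.induction_on with
    | H z =>
      obtain ⟨z, hz⟩ := z
      obtain ⟨γ, hγ, rfl⟩ := hz
      rcases exists_del_mul_mem X hr γ hγ with h | ⟨j, hj, h⟩
      · refine ⟨none, ?_⟩
        rw [rep]
        exact (mk_inH_eq_iff 1 γ _ hγ).2 (by simpa using h)
      · refine ⟨some ⟨j, hj⟩, ?_⟩
        rw [rep]
        exact (mk_inH_eq_iff _ γ _ hγ).2 (by simpa using h)

instance : (GG N).IsFiniteRelIndex (GG X.M) :=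
  Subgroup.isFiniteRelIndex_of_le_right (GG N)
    (L := (mapGL ℝ : SL(2, ℤ) →* GL (Fin 2) ℝ).range) (by
    rintro _ ⟨γ, -, rfl⟩
    exact ⟨γ, rfl⟩)

theorem traceP : Stmt_TraceP := by
  intro N _ r hr X f
  refine ⟨CuspForm.trace (GG X.M) f, ?_⟩
  rw [CuspForm.coe_trace]
  let := Fintype.ofFinite (GG X.M ⧸ (GG N).subgroupOf (GG X.M))
  rw [← (rep_bijective X hr).sum_comp, Fintype.sum_option, heckeU_def, Finset.sum_range]
  congr 1
  · rw [rep]
    have := SlashInvariantForm.quotientFunc_mk (𝒢 := GG N) (ℋ := GG X.M) (k := 2) f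
      (inH 1 (one_mem _))
    refine this.trans ?_
    simp [inH]
  · refine Finset.sum_congr rfl fun j _ => ?_
    rw [rep, slash_W_heckeMatrix]
    have := SlashInvariantForm.quotientFunc_mk (𝒢 := GG N) (ℋ := GG X.M) (k := 2) f
      (inH (del X j)⁻¹ (inv_mem (del_mem X j)))
    refine this.trans ?_
    simp [inH]

end Main

end Fermat.Agent.BR.F.N2

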