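import Fermat.Agent.BR.F.All
import Fermat.Agent.BR.F.Trace
import Fermat.Agent.INJ.Inst.ClaimKFull

/-!
# BR / F : final form of the two outputs.

* `FIN.stmt_New : Stmt_New` (unconditional)
* `FIN.es_br_of_G : Stmt_G → Stmt_ES_BR`
-/

set_option autoImplicit false

namespace Fermat.Agent.BR.F.FIN

/-- **OUTPUT 2**, unconditional. -/
theorem stmt_New : Stmt_New := ALL.new_of Fermat.Agent.INJ.Inst.stmt_ClaimK N2.traceP

/-- **OUTPUT 1** from Theorem G. -/
theorem es_br_of_G (hG : Stmt_G) : Stmt_ES_BR := ALL.es_br_of Fermat.Agent.INJ.Inst.stmt_ClaimK hG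

end Fermat.Agent.BR.F.FIN
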