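import Fermat.Agent.BR.F.Defs
import Fermat.Agent.FD.Interface

/-!
# BR / F : interface (statements as Props) of package [F] (architect helper22)

INPUT  : `Stmt_G` (Theorem G of the BR route, delivered by [G]/[INV]/[N-inst]), the ES middle layer.
OUTPUT : `Stmt_ES_BR` (an Eichler-Shimura module with the two bad reduction identities) and
         `Stmt_New` (a newform of level `M`, `q ∥ M`, admits a Hecke operator `x` with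
         `χ_g(x) ≠ 0` and `U_q² x = x`).  [GLUE] deduces S34 and S35 from these two + REP + FD.

Blocks: W (Atkin-Lehner), U (multiplicative `U_r`), C (algebra of `CongOne`), X (finite level),
L (`ℤ_p`-level), N (newness).
Every package proves `theorem xxx : Stmt_xxx` (possibly from other `Stmt_`s as hypotheses) in its
own NEW file `Fermat/Agent/BR/F/<Name>.lean` importing this one.
-/

set_option autoImplicit false

namespace Fermat.Agent.BR.F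

open UpperHalfPlane CongruenceSubgroup AlgebraicCurve CuspForm ModularForm
open scoped MatrixGroups Manifold ModularForm
open Fermat.Agent.S24 (Qbar FF funAlg iota jBar)
open Fermat.Agent.S24.QX (qExpHom cmI)
open Fermat.Agent.S16.HH (jG dataU dataT)
open Fermat.Agent.ES.Mid
open Fermat.Agent.ES.Coh (FinLevelData)
attribute [local instance] Fermat.Agent.S24.algQbarComplex

/-! ## INPUT: Theorem G -/

/-- **Theorem G** (G1 + G2' of reports 744/753), function field form, up to a fixed exponent `d`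
(`d = 1`, or the degree `[F_{N'} : F_N]` if the proof needs an auxiliary level `N'`).
`u ∈ U_m`, `u ≡ 1` at `v_∞` and the class of `w u` contains a function `≡ 1` at `v_∞`
(i.e. `[u] ∈ W = W_∞ ∩ W_0`).  Then inertia fixes `[u]` and `φ² [u] = r² [u]`. -/
def Stmt_G : Prop :=
  ∀ (N : ℕ) [NeZero N] (r : ℕ), r.Prime → r ∣ N → ¬ r ^ 2 ∣ N →
    ∃ d : ℕ, 0 < d ∧ ∀ w : FF N ≃ₐ[Qbar] FF N, IsAL N r w →
      ∀ A : ValuationSubring Qbar, A.LiesOverPrime r → ∀ m : ℕ, ¬ r ∣ m →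
        ∀ u : FF N, IsDiv N m u → CongOne N A u → ClassCong N m A (w u) →
          (∀ τ ∈ A.inertiaSubgroupIn ℚ, ∃ g : FF N, g ^ m = (gal N τ u * u⁻¹) ^ d) ∧
          (∀ σ : GQ, A.IsFrobeniusAt σ r →
            ∃ g : FF N, g ^ m = (gal N σ (gal N σ u) * (u ^ (r ^ 2))⁻¹) ^ d)

/-! ## Block W : Atkin-Lehner -/

/-- (W1) Bezout. -/
def Stmt_ALMat : Prop :=
  ∀ N r : ℕ, r.Prime → r ∣ N → ¬ r ^ 2 ∣ N → Nonempty (ALMat N r)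

/-- (W2) conjugation by `W` is an automorphism of `Γ₀(N)`. -/
def Stmt_ALConj : Prop :=
  ∀ (N r : ℕ) (X : ALMat N r), ∃ θ : Gamma0 N ≃* Gamma0 N,
    ∀ γ : Gamma0 N, jG N (θ γ) = X.W * jG N γ * X.W⁻¹

/-- (W3) `W² = r γ₀`, `γ₀ ∈ Γ₀(N)`. -/
def Stmt_ALSq : Prop :=
  ∀ (N r : ℕ) (X : ALMat N r), ∃ γ₀ : Gamma0 N,
    ((X.W * X.W : GL (Fin 2) ℝ) : Matrix (Fin 2) (Fin 2) ℝ)
      = (r : ℝ) • ((jG N γ₀ : GL (Fin 2) ℝ) : Matrix (Fin 2) (Fin 2) ℝ)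

/-- (W4) `f ↦ f ∘ W` is an automorphism of `ℚ̄[j_d : d ∣ N]` exchanging `j_d` and `j_{dr}`. -/
def Stmt_ALAlg : Prop :=
  ∀ (N : ℕ) [NeZero N] (r : ℕ) (X : ALMat N r), ∃ e : funAlg N ≃ₐ[Qbar] funAlg N,
    (∀ (f : funAlg N) (z : ℍ), (e f : ℍ → ℂ) z = (f : ℍ → ℂ) (X.W • z)) ∧
    ∀ (d d' : ℕ) (hd : d ∣ N) (hd' : d' ∣ N), d' = d * r →
      e (Fermat.Agent.S24.jAlg N d hd) = Fermat.Agent.S24.jAlg N d' hd' ∧
      e (Fermat.Agent.S24.jAlg N d' hd') = Fermat.Agent.S24.jAlg N d hd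

/-- (W5) automorphisms of `ℚ̄[j_d]` extend to `F_N`. -/
def Stmt_ALField : Prop :=
  ∀ (N : ℕ) [NeZero N] (e : funAlg N ≃ₐ[Qbar] funAlg N), ∃ w : FF N ≃ₐ[Qbar] FF N,
    ∀ f : funAlg N, w (qExpHom N f) = qExpHom N (e f)

/-- (W6) Atkin-Lehner data exist. -/
def Stmt_ALExists : Prop :=
  ∀ (N : ℕ) [NeZero N] (r : ℕ), r.Prime → r ∣ N → ¬ r ^ 2 ∣ N → Nonempty (AL N r)

/-- (W7) -/
def Stmt_AL_j : Prop :=
  ∀ (N : ℕ) [NeZero N] (r : ℕ) (X : AL N r), IsAL N r X.w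

/-- (W8) `IsAL` characterises `w`. -/
def Stmt_AL_unique : Prop :=
  ∀ (N : ℕ) [NeZero N] (r : ℕ), r.Prime → r ∣ N → ¬ r ^ 2 ∣ N →
    ∀ w w' : FF N ≃ₐ[Qbar] FF N, IsAL N r w → IsAL N r w' → w = w'

/-- (W9) `w` commutes with the Galois action. -/
def Stmt_AL_gal : Prop :=
  ∀ (N : ℕ) [NeZero N] (r : ℕ), r.Prime → r ∣ N → ¬ r ^ 2 ∣ N →
    ∀ w : FF N ≃ₐ[Qbar] FF N, IsAL N r w → ∀ (σ : GQ) (u : FF N),
      w (gal N σ u) = gal N σ (w u)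

/-- (W10) `w` is an involution. -/
def Stmt_AL_invol : Prop :=
  ∀ (N : ℕ) [NeZero N] (r : ℕ), r.Prime → r ∣ N → ¬ r ^ 2 ∣ N →
    ∀ w : FF N ≃ₐ[Qbar] FF N, IsAL N r w → ∀ u : FF N, w (w u) = u

/-- (W11) `chr` is an involution. -/
def Stmt_AL_chr_invol : Prop :=
  ∀ (N : ℕ) [NeZero N] (r : ℕ) (X : AL N r) (B : Type) [AddCommGroup B]
    (χ : Additive (Gamma0 N) →+ B), X.chr (X.chr χ) = χ

/-- (W12) `θ` preserves traces. -/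
def Stmt_AL_trace : Prop :=
  ∀ (N : ℕ) [NeZero N] (r : ℕ) (X : AL N r) (γ : Gamma0 N),
    (((X.θ γ : Gamma0 N) : SL(2, ℤ)) : Matrix (Fin 2) (Fin 2) ℤ).trace
      = ((γ : SL(2, ℤ)) : Matrix (Fin 2) (Fin 2) ℤ).trace

/-- (W13) the Kummer character of `w u` is `χ ∘ θ`. -/
def Stmt_AL_kum : Prop :=
  ∀ (N : ℕ) [NeZero N] (r : ℕ) (X : AL N r) (m : ℕ) [NeZero m] (u : FF N)
    (χ : Additive (Gamma0 N) →+ ZMod m), Kum N m u χ → Kum N m (X.w u) (X.chr χ)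

/-- (W14) conjugation by `W` permutes the cosets `Γ₀(N) α_i` of `T_ℓ`, `ℓ ∤ N`. -/
def Stmt_ALCoset : Prop :=
  ∀ (N r : ℕ) (X : ALMat N r) {ℓ : ℕ} (hℓ : ℓ.Prime) (hℓN : ¬ ℓ ∣ N),
    ∃ (ν : Equiv.Perm (OnePoint (ZMod ℓ))) (t : OnePoint (ZMod ℓ) → Gamma0 N),
      ∀ i, X.W * (dataT N hℓ hℓN).α i * X.W⁻¹ = jG N (t i) * (dataT N hℓ hℓN).α (ν i)

/-- (W15) `chr` commutes with `T_ℓ`, `ℓ ∤ N`. -/
def Stmt_AL_tau : Prop :=
  ∀ (N : ℕ) [NeZero N] (r : ℕ) (X : AL N r) (ℓ : Nat.Primes), ¬ (ℓ : ℕ) ∣ N →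
    ∀ (B : Type) [AddCommGroup B] (χ : Additive (Gamma0 N) →+ B),
      X.chr (tau N ℓ B χ) = tau N ℓ B (X.chr χ)

/-- (W16) automorphisms of `F_N / ℚ̄` preserve `U_m`. -/
def Stmt_AL_div : Prop :=
  ∀ (N m : ℕ) (w : FF N ≃ₐ[Qbar] FF N) (u : FF N), IsDiv N m u → IsDiv N m (w u)

/-! ## Block U : the multiplicative operator `N_r`, `r ∣ N` -/

/-- (UF1) `formalU` is multiplicative. -/
def Stmt_UF_mul : Prop :=
  ∀ (R : Type) [CommRing R] [IsDomain R] (ℓ : ℕ) [NeZero ℓ] (ζ : Rˣ), IsPrimitiveRoot ζ ℓ →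
    formalU ℓ ζ (1 : LaurentSeries R) = 1 ∧
    ∀ x y : LaurentSeries R, formalU ℓ ζ (x * y) = formalU ℓ ζ x * formalU ℓ ζ y

/-- (UF2) naturality in the coefficient ring. -/
def Stmt_UF_map : Prop :=
  ∀ (R S : Type) [CommRing R] [CommRing S] (φ : R →+* S) (ℓ : ℕ) [NeZero ℓ] (ζ : Rˣ)
    (x : LaurentSeries R),
    ModularCurve.coeffMap φ (formalU ℓ ζ x)
      = formalU ℓ (Units.map (φ : R →* S) ζ) (ModularCurve.coeffMap φ x)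

/-- (UF3) independence of the primitive root of unity. -/
def Stmt_UF_indep : Prop :=
  ∀ (R : Type) [CommRing R] [IsDomain R] (ℓ : ℕ) [NeZero ℓ] (ζ ζ' : Rˣ), IsPrimitiveRoot ζ ℓ →
    IsPrimitiveRoot ζ' ℓ → ∀ x : LaurentSeries R, formalU ℓ ζ x = formalU ℓ ζ' x

/-- (UF4) characteristic `ℓ`: `N_ℓ` is the Frobenius on coefficients. -/
def Stmt_UF_char : Prop :=
  ∀ (k : Type) [Field k] (ℓ : ℕ) [Fact ℓ.Prime] [CharP k ℓ] (x : LaurentSeries k),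
    haveI : NeZero ℓ := ⟨(Fact.out : ℓ.Prime).ne_zero⟩
    formalU ℓ 1 x = ModularCurve.coeffMap (frobenius k ℓ) x

/-- (UF5) the congruence `N_ℓ(y) ≡ σ(y) mod 𝔪_A`. -/
def Stmt_UF_cong : Prop :=
  ∀ (ℓ : ℕ) [NeZero ℓ], ℓ.Prime → ∀ A : ValuationSubring Qbar, A.LiesOverPrime ℓ →
    ∀ σ : GQ, A.IsFrobeniusAt σ ℓ → ∀ ζ : Qbarˣ, IsPrimitiveRoot ζ ℓ →
    ∀ y : LaurentSeries A, ∃ y₁ w : LaurentSeries A,
      ModularCurve.coeffMap A.subtype y₁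
        = ModularCurve.coeffMap (σ : Qbar →+* Qbar) (ModularCurve.coeffMap A.subtype y) ∧
      ModularCurve.coeffMap A.subtype w = formalU ℓ ζ (ModularCurve.coeffMap A.subtype y) ∧
      ModularCurve.coeffMap (IsLocalRing.residue A) w
        = ModularCurve.coeffMap (IsLocalRing.residue A) y₁ ∧
      (ModularCurve.coeffMap (IsLocalRing.residue A) y ≠ 0 →
        ModularCurve.coeffMap (IsLocalRing.residue A) y₁ ≠ 0)

/-- (UA1) `𝒰` multiplies characters by `tau`. -/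
def Stmt_UA_char : Prop :=
  ∀ (N : ℕ) [NeZero N] (q : Nat.Primes) (hqN : (q : ℕ) ∣ N) (m : ℕ) [NeZero m]
    (a b : ℍ → ℂ) (χ : Additive (Gamma0 N) →+ ZMod m),
    (∀ (γ : Gamma0 N) (z : ℍ), a ((γ : SL(2, ℤ)) • z) * b z =
      ZMod.stdAddChar (χ (Additive.ofMul γ)) * (a z * b ((γ : SL(2, ℤ)) • z))) →
    ∀ (γ : Gamma0 N) (z : ℍ),
      funU N hqN a ((γ : SL(2, ℤ)) • z) * funU N hqN b z =
        ZMod.stdAddChar (tau N q (ZMod m) χ (Additive.ofMul γ)) *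
          (funU N hqN a z * funU N hqN b ((γ : SL(2, ℤ)) • z))

/-- (UA2) `𝒰` preserves holomorphy and nonvanishing. -/
def Stmt_UA_mdiff : Prop :=
  ∀ (N : ℕ) [NeZero N] (q : ℕ) [NeZero q] (hqN : q ∣ N) (a : ℍ → ℂ), MDiff a →
    MDiff (funU N hqN a) ∧ (a ≠ 0 → funU N hqN a ≠ 0)

/-- (UA3) the `q`-expansion of `𝒰 f` is `formalU` of the `q`-expansion of `f`. -/
def Stmt_UA_rep : Prop :=
  ∀ (N : ℕ) [NeZero N] (q : ℕ) [NeZero q] (hqN : q ∣ N) (ζ : Qbarˣ),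
    IsPrimitiveRoot ζ q → ∀ (f : ℍ → ℂ) (x : LaurentSeries Qbar), MDiff f →
      Fermat.Agent.S24.QX.Rep (cmI x) f →
      Fermat.Agent.S24.QX.Rep (cmI (formalU q ζ x)) (funU N hqN f)

/-- (UA4) `𝒰` preserves moderate growth. -/
def Stmt_UA_growth : Prop :=
  ∀ (N : ℕ) [NeZero N] (q : ℕ) [NeZero q] (hqN : q ∣ N) (f : ℍ → ℂ), MDiff f →
    Growth f → Growth (funU N hqN f)

/-- (U) the operator `N_r` on `F_N`, `r ∣ N`:  character `tau`, Galois equivariance, and (F2):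
`N_r u ≡ σ u` up to a constant for every Frobenius lift `σ` at `r`. -/
def Stmt_HeckeU : Prop :=
  ∀ (N : ℕ) [NeZero N] (r : Nat.Primes), (r : ℕ) ∣ N →
    ∃ Nr : FF N → FF N,
      (∀ (m : ℕ) [NeZero m] (u : FF N) (χ : Additive (Gamma0 N) →+ ZMod m),
        Kum N m u χ → Kum N m (Nr u) (tau N r (ZMod m) χ)) ∧
      (∀ (σ : GQ) (u : FF N), Nr (gal N σ u) = gal N σ (Nr u)) ∧
      (∀ A : ValuationSubring Qbar, A.LiesOverPrime r → ∀ σ : GQ, A.IsFrobeniusAt σ r →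
        ∀ u : FF N, u ≠ 0 → ∃ c : Qbar, c ≠ 0 ∧
          CongOne N A (algebraMap Qbar (FF N) c * (gal N σ u * (Nr u)⁻¹)))

/-! ## Block C : algebra of `CongOne` -/

def Stmt_CongAlg : Prop :=
  ∀ (N : ℕ) (A : ValuationSubring Qbar), CongOne N A 1 ∧
    (∀ u v : FF N, CongOne N A u → CongOne N A v → CongOne N A (u * v)) ∧
    (∀ u : FF N, CongOne N A u → CongOne N A u⁻¹) ∧
    (∀ u : FF N, CongOne N A u → u ≠ 0)

def Stmt_CongDecomp : Prop :=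
  ∀ (N : ℕ) (A : ValuationSubring Qbar) (σ : GQ), σ ∈ A.decompositionSubgroup ℚ →
    ∀ u : FF N, CongOne N A u → CongOne N A (gal N σ u)

/-! ## Block X : finite level -/

/-- The statements of the ES middle layer used by block X. -/
structure ESHyp : Prop where
  hMul : Stmt_KumMul
  hInv : Stmt_KumInv
  hPow : Stmt_KumPow
  hUn : Stmt_KumUnique
  hRed : Stmt_KumRed
  hA : Stmt_KumOfDiv
  hB : Stmt_DivOfKum
  hE : Stmt_KumKer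
  hF : Stmt_KumSurj
  hT : Stmt_TauPE
  hH : Stmt_Hecke
  hJ : Stmt_CongInertia'
  hK : Stmt_ClaimK
  hL : Stmt_FixedOpen
  hM : Stmt_HomFinite

/-- (X0) `GLUE.act` is a `FinLevelData` (= the proof of `FIX.finLevel'` with explicit witness). -/
def Stmt_FinAct : Prop :=
  ∀ (N : ℕ) [NeZero N], ∃ D : FinLevelData N, ∀ (m : ℕ) [NeZero m] (σ : GQ)
    (χ : Additive (Gamma0 N) →+ ZMod m), D.act m σ χ = GLUE.act N m σ χ

/-- The bad reduction supplement at `r ∥ N` to a `FinLevelData`. -/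
structure BRFin {N : ℕ} [NeZero N] (D : FinLevelData N) (r : Nat.Primes) (X : AL N r)
    (A : ValuationSubring Qbar) (d : ℕ) : Prop where
  winf_zero : ∀ (m : ℕ) [NeZero m], InWinf N m A 0
  winf_add : ∀ (m : ℕ) [NeZero m] (χ χ' : Additive (Gamma0 N) →+ ZMod m),
    InWinf N m A χ → InWinf N m A χ' → InWinf N m A (χ + χ')
  winf_neg : ∀ (m : ℕ) [NeZero m] (χ : Additive (Gamma0 N) →+ ZMod m),
    InWinf N m A χ → InWinf N m A (-χ)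
  winf_act : ∀ (m : ℕ) [NeZero m] (σ : GQ), σ ∈ A.decompositionSubgroup ℚ →
    ∀ χ : Additive (Gamma0 N) →+ ZMod m, IsPE χ → InWinf N m A χ → InWinf N m A (D.act m σ χ)
  inertia : ∀ (m : ℕ) [NeZero m], ∀ τ ∈ A.inertiaSubgroupIn ℚ,
    ∀ χ : Additive (Gamma0 N) →+ ZMod m, IsPE χ → InWinf N m A (D.act m τ χ - χ)
  frob : ∀ (m : ℕ) [NeZero m] (σ : GQ), A.IsFrobeniusAt σ r →
    ∀ χ : Additive (Gamma0 N) →+ ZMod m, IsPE χ →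
      InWinf N m A (tau N r (ZMod m) χ - D.act m σ χ)
  chr_act : ∀ (m : ℕ) [NeZero m] (σ : GQ) (χ : Additive (Gamma0 N) →+ ZMod m), IsPE χ →
    X.chr (D.act m σ χ) = D.act m σ (X.chr χ)
  tau_act : ∀ (m : ℕ) [NeZero m] (σ : GQ) (χ : Additive (Gamma0 N) →+ ZMod m), IsPE χ →
    tau N r (ZMod m) (D.act m σ χ) = D.act m σ (tau N r (ZMod m) χ)
  g1 : ∀ (m : ℕ) [NeZero m], ¬ (r : ℕ) ∣ m → ∀ τ ∈ A.inertiaSubgroupIn ℚ,
    ∀ χ : Additive (Gamma0 N) →+ ZMod m, IsPE χ → InWinf N m A χ → InWinf N m A (X.chr χ) →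
      d • (D.act m τ χ - χ) = 0
  g2 : ∀ (m : ℕ) [NeZero m], ¬ (r : ℕ) ∣ m → ∀ σ : GQ, A.IsFrobeniusAt σ r →
    ∀ χ : Additive (Gamma0 N) →+ ZMod m, IsPE χ → InWinf N m A χ → InWinf N m A (X.chr χ) →
      d • (D.act m σ (D.act m σ χ) - ((r : ℕ) ^ 2) • χ) = 0

/-- (X) finite level output. -/
def Stmt_BRFin : Prop :=
  ∀ (N : ℕ) [NeZero N], ∃ D : FinLevelData N, ∀ r : Nat.Primes, (r : ℕ) ∣ N → ¬ (r : ℕ) ^ 2 ∣ N →
    ∃ (X : AL N r) (d : ℕ), 0 < d ∧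
      ∀ A : ValuationSubring Qbar, A.LiesOverPrime r → BRFin D r X A d

/-! ## Block L : `ℤ_p`-level -/

/-- (L0) the abstract lemma behind S35 (pure algebra). `s` = Frobenius lift, `s'` its inverse,
`n = N_r`, `w` = Atkin-Lehner, `x` = Hecke operator with `n² x = x`, `L = Λ_∞`. -/
def Stmt_AbsFrob : Prop :=
  ∀ (R : Type) [CommRing R] [IsDomain R] (Λ : Type) [AddCommGroup Λ] [Module R Λ]
    [Module.IsTorsionFree R Λ] (s s' n w x : Module.End R Λ) (r : R) (L : Submodule R Λ),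
    r ≠ 0 → s * s' = 1 → s' * s = 1 → Commute n s → Commute n s' → Commute n x →
    Commute w s → Commute w s' → Commute w x → Commute x s → Commute x s' →
    (∀ v ∈ L, s v ∈ L) → (∀ v ∈ L, s' v ∈ L) → (∀ v, n v - s v ∈ L) →
    (∀ v ∈ L, w v ∈ L → s (s v) = (r * r) • v) → n * n * x = x →
    ((s + r • s') ^ 2 - ((1 + r) ^ 2) • (1 : Module.End R Λ)) ^ 2 * x = 0

/-- **OUTPUT 1**: an Eichler-Shimura module with the bad reduction identities. -/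
def Stmt_ES_BR : Prop :=
  ∀ (p : ℕ) [Fact p.Prime] (N : ℕ) [NeZero N] (S : Finset ℕ),
    p ∈ S → (∀ q : ℕ, q.Prime → q ∣ N → q ∈ S) →
    ∃ E : Fermat.Agent.ES.Rep.ESModule p N (↑S : Set ℕ),
      (∀ q : ℕ, q.Prime → q ∣ N → ¬ q ^ 2 ∣ N → q ≠ p →
        ∀ A : ValuationSubring Qbar, A.LiesOverPrime q →
          ∀ σ ∈ A.inertiaSubgroupIn ℚ, ∀ τ ∈ A.inertiaSubgroupIn ℚ,
            (E.ρ σ - 1) * (E.ρ τ - 1) = 0) ∧
      (∀ (q : ℕ) (_ : q.Prime) (hqN : q ∣ N), ¬ q ^ 2 ∣ N → q ≠ p →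
        ∀ x : heckeAlgebra N 2 (↑S : Set ℕ), NewAt hqN x →
          ∀ A : ValuationSubring Qbar, A.LiesOverPrime q → ∀ σ : GQ, A.IsFrobeniusAt σ q →
            ((E.ρ σ + (q : ℤ_[p]) • E.ρ σ⁻¹) ^ 2
              - ((1 + (q : ℤ_[p])) ^ 2) • (1 : Module.End ℤ_[p] E.Λ)) ^ 2 * E.ΘΛ x = 0)

/-! ## Block N : newness -/

/-- (N1) the Atkin-Lehner involution on `S₂(Γ₀(N))`; it commutes with `T_ℓ`, `ℓ ∤ N`. -/
def Stmt_WForm : Prop :=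
  ∀ (N : ℕ) [NeZero N] (r : ℕ) (X : ALMat N r),
    ∃ wf : CuspForm (Gamma0 N) 2 →ₗ[ℂ] CuspForm (Gamma0 N) 2,
      (∀ f, (wf f : ℍ → ℂ) = (f : ℍ → ℂ) ∣[(2 : ℤ)] X.W) ∧ (∀ f, wf (wf f) = f) ∧
      (∀ {ℓ : ℕ} (hℓ : ℓ.Prime) (hℓN : ¬ ℓ ∣ N) (f : CuspForm (Gamma0 N) 2),
        wf (CuspForm.heckeTLin 2 hℓ hℓN f) = CuspForm.heckeTLin 2 hℓ hℓN (wf f))

/-- (N2) the trace `f + U_r (f | W)` has level `N / r`. -/
def Stmt_Trace : Prop :=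
  ∀ (N : ℕ) [NeZero N] (r : ℕ) (X : ALMat N r) (f : CuspForm (Gamma0 N) 2),
    ∃ F : CuspForm (Gamma0 X.M) 2,
      (F : ℍ → ℂ) = (f : ℍ → ℂ) + ModularForm.heckeU 2 r ((f : ℍ → ℂ) ∣[(2 : ℤ)] X.W)

/-- (N3) raising the level. -/
def Stmt_Incl : Prop :=
  ∀ (M N : ℕ), M ∣ N → ∃ incl : CuspForm (Gamma0 M) 2 →ₗ[ℂ] CuspForm (Gamma0 N) 2,
    ∀ F, (incl F : ℍ → ℂ) = (F : ℍ → ℂ)

/-- `x` kills the forms of level `M ∣ N`. -/
def KillsLevel {N : ℕ} [NeZero N] {S : Set ℕ} (M : ℕ) (x : heckeAlgebra N 2 S) : Prop :=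
  ∀ (F : CuspForm (Gamma0 M) 2) (f : CuspForm (Gamma0 N) 2), (f : ℍ → ℂ) = (F : ℍ → ℂ) → x.1 f = 0

/-- (N4) a Hecke operator (away from `N`) killing the forms of level `N / r` satisfies
`U_r² x = x`. -/
def Stmt_NewOfKill : Prop :=
  ∀ (N : ℕ) [NeZero N] (r : ℕ) (X : ALMat N r) (hrN : r ∣ N) (S : Set ℕ),
    (∀ q : ℕ, q.Prime → q ∣ N → q ∈ S) → ∀ x : heckeAlgebra N 2 S, KillsLevel X.M x → NewAt hrN x

/-- (N5) a character of `𝕋^S_N` vanishing on the annihilator of the forms of level `M` occurs at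
level `M`. -/
def Stmt_OldEigen : Prop :=
  ∀ (N M : ℕ) [NeZero N] [NeZero M], M ∣ N → ∀ S : Set ℕ, (∀ q : ℕ, q.Prime → q ∣ N → q ∈ S) →
    ∀ χ : heckeAlgebra N 2 S →+* ℂ, (∀ x : heckeAlgebra N 2 S, KillsLevel M x → χ x = 0) →
      ∃ F : CuspForm (Gamma0 M) 2, F ≠ 0 ∧
        ∀ (ℓ : ℕ) (hℓ : ℓ.Prime) (hℓN : ¬ ℓ ∣ N) (hℓM : ¬ ℓ ∣ M) (hℓS : ℓ ∉ S),
          CuspForm.heckeTLin 2 hℓ hℓM F = χ (heckeAlgebra.T hℓ hℓN hℓS) • F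

/-- (N6a) common eigenvectors of the full Hecke algebra in an eigenspace away from `S`. -/
def Stmt_CommonEigen : Prop :=
  ∀ (M : ℕ) [NeZero M] (S : Set ℕ) (a : ℕ → ℂ) (F : CuspForm (Gamma0 M) 2), F ≠ 0 →
    (∀ (ℓ : ℕ) (hℓ : ℓ.Prime) (hℓM : ¬ ℓ ∣ M), ℓ ∉ S → CuspForm.heckeTLin 2 hℓ hℓM F = a ℓ • F) →
    ∃ h : CuspForm (Gamma0 M) 2, h ≠ 0 ∧
      (∀ (ℓ : ℕ) (hℓ : ℓ.Prime) (hℓM : ¬ ℓ ∣ M), ℓ ∉ S → CuspForm.heckeTLin 2 hℓ hℓM h = a ℓ • h) ∧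
      (∀ (ℓ : ℕ) (hℓ : ℓ.Prime) (hℓM : ¬ ℓ ∣ M), ∃ c : ℂ, CuspForm.heckeTLin 2 hℓ hℓM h = c • h) ∧
      (∀ (q : ℕ) (_ : q.Prime) (hqM : q ∣ M), ∃ c : ℂ, CuspForm.heckeULin 2 hqM h = c • h)

/-- (N6b) an eigenvector of all `T_ℓ`, `U_q` is a multiple of a normalized eigenform. -/
def Stmt_NormEigen : Prop :=
  ∀ (M : ℕ) [NeZero M] (h : CuspForm (Gamma0 M) 2), h ≠ 0 →
    (∀ (ℓ : ℕ) (hℓ : ℓ.Prime) (hℓM : ¬ ℓ ∣ M), ∃ c : ℂ, CuspForm.heckeTLin 2 hℓ hℓM h = c • h) →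
    (∀ (q : ℕ) (_ : q.Prime) (hqM : q ∣ M), ∃ c : ℂ, CuspForm.heckeULin 2 hqM h = c • h) →
    ∃ c : ℂ, c ≠ 0 ∧ (c • h).IsNormalizedEigenform

/-- (N7) strong multiplicity one at a good prime: a multiple of `T_{ℓ₀}` lies in `𝕋^S`. -/
def Stmt_SMO : Prop :=
  ∀ (N : ℕ) [NeZero N] (S : Finset ℕ), (∀ q : ℕ, q.Prime → q ∣ N → q ∈ S) →
    ∀ {ℓ₀ : ℕ} (hℓ₀ : ℓ₀.Prime) (hℓ₀N : ¬ ℓ₀ ∣ N),
      ∃ n : ℕ, 0 < n ∧ n • CuspForm.heckeTLin 2 hℓ₀ hℓ₀N ∈ heckeAlgebra N 2 (↑S : Set ℕ)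

/-- **OUTPUT 2**: newforms are `q`-new in the sense of `NewAt`. -/
def Stmt_New : Prop :=
  ∀ (M : ℕ) [NeZero M] (g : CuspForm (Gamma0 M) 2), g.IsNewform → ∀ S : Finset ℕ,
    (∀ q : ℕ, q.Prime → q ∣ M → q ∈ S) →
    ∀ chig : heckeAlgebra M 2 (↑S : Set ℕ) →+* ℂ,
      (∀ (ℓ : ℕ) (hℓ : ℓ.Prime) (hℓM : ¬ ℓ ∣ M) (hℓS : ℓ ∉ (↑S : Set ℕ)),
        chig (heckeAlgebra.T hℓ hℓM hℓS) = ModularFormClass.qCoeff g ℓ) →
      ∀ (q : ℕ) (_ : q.Prime) (hqM : q ∣ M), ¬ q ^ 2 ∣ M →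
        ∃ x : heckeAlgebra M 2 (↑S : Set ℕ), chig x ≠ 0 ∧ NewAt hqM x

end Fermat.Agent.BR.F
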