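import Fermat.Agent.BR.F.Interface
import Fermat.Agent.ES.EigenChar

/-!
# BR / F, package N8 : assembly of `Stmt_New`
-/

set_option autoImplicit false

namespace Fermat.Agent.BR.F.N8

open UpperHalfPlane CongruenceSubgroup CuspForm ModularFormClass
open Fermat.Agent.S49 Fermat.Agent.ES.EigenChar

variable {N : ℕ}

/-- The endomorphisms having `g` and `H` as eigenvectors with the same eigenvalue. -/
def eigenSub₂ (g H : CuspForm (Gamma0 N) 2) :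
    Subalgebra ℤ (Module.End ℂ (CuspForm (Gamma0 N) 2)) where
  carrier := {x | ∃ c : ℂ, x g = c • g ∧ x H = c • H}
  mul_mem' := by
    rintro x y ⟨c, hc, hc'⟩ ⟨d, hd, hd'⟩
    exact ⟨d * c, by rw [Module.End.mul_apply, hd, map_smul, hc, smul_smul],
      by rw [Module.End.mul_apply, hd', map_smul, hc', smul_smul]⟩
  add_mem' := by
    rintro x y ⟨c, hc, hc'⟩ ⟨d, hd, hd'⟩
    exact ⟨c + d, by rw [LinearMap.add_apply, hc, hd, add_smul],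
      by rw [LinearMap.add_apply, hc', hd', add_smul]⟩
  algebraMap_mem' := by
    intro r
    refine ⟨(r : ℂ), ?_, ?_⟩ <;>
    rw [Algebra.algebraMap_eq_smul_one, LinearMap.smul_apply, Module.End.one_apply,
      Int.cast_smul_eq_zsmul]

/-- cancel a form with `a₁ = 1`. -/
theorem smul_cancel {g : CuspForm (Gamma0 N) 2} (hg : qCoeff g 1 = 1) {c d : ℂ}
    (h : c • g = d • g) : c = d := by
  have := congrArg (qCoeffLin N 1) h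
  rwa [map_smul, map_smul, qCoeffLin_apply, hg, smul_eq_mul, smul_eq_mul, mul_one, mul_one] at this

theorem new (hMat : Stmt_ALMat) (hI : Stmt_Incl) (h4 : Stmt_NewOfKill) (h5 : Stmt_OldEigen)
    (h6a : Stmt_CommonEigen) (h6b : Stmt_NormEigen) (h7 : Stmt_SMO) : Stmt_New := by
  intro M _ g hg S hS chig hchig q hq hqM hq2
  obtain ⟨X⟩ := hMat M q hq hqM hq2
  by_contra hcon
  push Not at hcon
  have hMne : M ≠ 0 := NeZero.ne M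
  have hMq : M = q * X.M := X.hN
  have hM0 : X.M ∣ M := ⟨q, hMq.trans (mul_comm _ _)⟩
  have hM00 : X.M ≠ 0 := by
    intro h0
    apply hMne
    exact hMq.trans (by rw [h0, mul_zero])
  have hM0ne : X.M ≠ M := by
    intro h
    have h1 : 1 * X.M = q * X.M := by rw [one_mul]; exact h.trans hMq
    have h2 := Nat.eq_of_mul_eq_mul_right (Nat.pos_of_ne_zero hM00) h1
    exact hq.one_lt.ne h2
  have : NeZero X.M := ⟨hM00⟩
  have hkill : ∀ x : heckeAlgebra M 2 (↑S : Set ℕ), KillsLevel X.M x → chig x = 0 := by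
    intro x hx
    by_contra h
    exact hcon x h (h4 M q X hqM (↑S : Set ℕ) hS x hx)
  obtain ⟨F, hF0, hF⟩ := h5 M X.M hM0 (↑S : Set ℕ) hS chig hkill
  obtain ⟨h, hh0, hh1, hh2, hh3⟩ := h6a X.M (↑S : Set ℕ) (fun ℓ => qCoeff g ℓ) F hF0 (by
    intro ℓ hℓ hℓM0 hℓS
    have hℓM : ¬ ℓ ∣ M := fun hd => hℓS (hS ℓ hℓ hd)
    rw [hF ℓ hℓ hℓM hℓM0 hℓS, hchig ℓ hℓ hℓM hℓS])
  obtain ⟨c, hc0, hnorm⟩ := h6b X.M h hh0 hh2 hh3
  set h' : CuspForm (Gamma0 X.M) 2 := c • h with hh'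
  have hh'1 : ∀ (ℓ : ℕ) (hℓ : ℓ.Prime) (hℓM : ¬ ℓ ∣ X.M), ℓ ∉ (↑S : Set ℕ) →
      CuspForm.heckeTLin 2 hℓ hℓM h' = qCoeff g ℓ • h' := by
    intro ℓ hℓ hℓM hℓS
    rw [hh', map_smul, hh1 ℓ hℓ hℓM hℓS, smul_comm]
  apply hg.2 X.M hM0 hM0ne
  refine ⟨h', hnorm, fun ℓ₀ hℓ₀ hℓ₀M => ?_⟩
  have hℓ₀M0 : ¬ ℓ₀ ∣ X.M := fun hd => hℓ₀M (hd.trans hM0)
  obtain ⟨incl, hincl⟩ := hI X.M M hM0
  set H : CuspForm (Gamma0 M) 2 := incl h' with hH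
  have hH1 : qCoeff H 1 = 1 := by
    rw [hincl h']
    exact hnorm.qCoeff_one
  -- `T_ℓ` commutes with `incl`
  have hT : ∀ (ℓ : ℕ) (hℓ : ℓ.Prime) (hℓM : ¬ ℓ ∣ M) (hℓM0 : ¬ ℓ ∣ X.M),
      CuspForm.heckeTLin 2 hℓ hℓM H = incl (CuspForm.heckeTLin 2 hℓ hℓM0 h') := by
    intro ℓ hℓ hℓM hℓM0
    apply DFunLike.coe_injective
    rw [hincl, coe_heckeTLin_apply, coe_heckeTLin_apply, hincl]
  obtain ⟨n, hn, hy⟩ := h7 M S hS hℓ₀ hℓ₀M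
  have hle : heckeAlgebra M 2 (↑S : Set ℕ) ≤ eigenSub₂ g H := by
    refine Algebra.adjoin_le ?_
    rintro x (⟨ℓ, hℓ, hℓM, hℓS, rfl⟩ | ⟨q', hq'M, hq', hq'S, rfl⟩)
    · have hℓM0 : ¬ ℓ ∣ X.M := fun hd => hℓM (hd.trans hM0)
      exact ⟨qCoeff g ℓ, heckeT_eigen hg.1 hℓ hℓM, by
        rw [hT ℓ hℓ hℓM hℓM0, hh'1 ℓ hℓ hℓM0 hℓS, map_smul]⟩
    · exact absurd (hS q' hq' hq'M) hq'S
  obtain ⟨d, hd1, hd2⟩ := hle hy
  rw [LinearMap.smul_apply, heckeT_eigen hg.1 hℓ₀ hℓ₀M, ← Nat.cast_smul_eq_nsmul ℂ, smul_smul]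
    at hd1
  rw [LinearMap.smul_apply, hT ℓ₀ hℓ₀ hℓ₀M hℓ₀M0, heckeT_eigen hnorm hℓ₀ hℓ₀M0, map_smul,
    ← Nat.cast_smul_eq_nsmul ℂ, smul_smul] at hd2
  have e1 := smul_cancel hg.1.qCoeff_one hd1
  have e2 := smul_cancel hH1 hd2
  have hn0 : (n : ℂ) ≠ 0 := Nat.cast_ne_zero.2 hn.ne'
  exact mul_left_cancel₀ hn0 (e2.trans e1.symm)

end Fermat.Agent.BR.F.N8
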