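import Fermat.Agent.BR.F.Interface

/-!
# BR / F, package F-N3 : raising the level; a Hecke operator away from `N` killing the forms of level
`N / r` satisfies `U_r² x = x`.

* `N3.incl : Stmt_Incl`
* `N3.newOfKill (h1 : Stmt_WForm) (h2 : Stmt_Trace) : Stmt_NewOfKill`
-/

set_option autoImplicit false

namespace Fermat.Agent.BR.F.N3

open UpperHalfPlane CongruenceSubgroup CuspForm ModularForm
open scoped MatrixGroups Manifold ModularForm

theorem Gamma0_le_of_dvd {M N : ℕ} (h : M ∣ N) : Gamma0 N ≤ Gamma0 M := by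
  intro g hg
  rw [Gamma0_mem] at hg ⊢
  rw [ZMod.intCast_zmod_eq_zero_iff_dvd] at hg ⊢
  exact (Int.natCast_dvd_natCast.mpr h).trans hg

theorem Gamma0_map_le_of_dvd {M N : ℕ} (h : M ∣ N) :
    (Gamma0 N : Subgroup (GL (Fin 2) ℝ)) ≤ (Gamma0 M : Subgroup (GL (Fin 2) ℝ)) :=
  Subgroup.map_mono (Gamma0_le_of_dvd h)

/-- A cusp form of level `M` is a cusp form of level `N` for `M ∣ N`. -/
noncomputable def levelIncl {M N : ℕ} (h : M ∣ N) :
    CuspForm (Gamma0 M) 2 →ₗ[ℂ] CuspForm (Gamma0 N) 2 where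
  toFun f :=
    { toFun := ⇑f
      slash_action_eq' := fun γ hγ =>
        SlashInvariantFormClass.slash_action_eq f γ (Gamma0_map_le_of_dvd h hγ)
      holo' := CuspFormClass.holo f
      zero_at_cusps' := fun hc => CuspFormClass.zero_at_cusps f (hc.mono (Gamma0_map_le_of_dvd h)) }
  map_add' _ _ := DFunLike.coe_injective rfl
  map_smul' _ _ := DFunLike.coe_injective rfl

theorem incl : Stmt_Incl := fun _ _ h => ⟨levelIncl h, fun _ => rfl⟩

/-- the Hecke algebra away from the primes of `N` commutes with everything that commutes with the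
`T_ℓ`, `ℓ ∤ N`. -/
theorem commute_of_comm {N : ℕ} [NeZero N] {S : Set ℕ} (hS : ∀ q : ℕ, q.Prime → q ∣ N → q ∈ S)
    (V : Module.End ℂ (CuspForm (Gamma0 N) 2))
    (hV : ∀ {ℓ : ℕ} (hℓ : ℓ.Prime) (hℓN : ¬ ℓ ∣ N), Commute (CuspForm.heckeTLin 2 hℓ hℓN) V)
    (x : heckeAlgebra N 2 S) : Commute x.1 V := by
  have hle : heckeAlgebra N 2 S ≤ Subalgebra.centralizer ℤ {V} := by
    refine Algebra.adjoin_le ?_
    rintro T (⟨ℓ, hℓ, hℓN, -, rfl⟩ | ⟨q, hqN, hq, hqS, rfl⟩)
    · intro W hW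
      rw [Set.mem_singleton_iff] at hW
      subst hW
      exact (hV hℓ hℓN).symm
    · exact absurd (hS q hq hqN) hqS
  have := hle x.2
  rw [Subalgebra.mem_centralizer_iff] at this
  exact (this V rfl).symm

theorem newOfKill (h1 : Stmt_WForm) (h2 : Stmt_Trace) : Stmt_NewOfKill := by
  intro N _ r X hrN S hS x hx
  obtain ⟨wf, hwf, hinv, hcomm⟩ := h1 N r X
  have hxU : Commute x.1 (CuspForm.heckeULin 2 hrN) :=
    commute_of_comm hS _ (fun hℓ hℓN => CuspForm.heckeTLin_heckeULin_comm 2 hℓ hℓN hrN) x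
  have hxw : Commute x.1 (wf : Module.End ℂ (CuspForm (Gamma0 N) 2)) :=
    commute_of_comm hS wf (fun hℓ hℓN => LinearMap.ext fun f => (hcomm hℓ hℓN f).symm) x
  have hxU' : ∀ f, x.1 (CuspForm.heckeULin 2 hrN f) = CuspForm.heckeULin 2 hrN (x.1 f) :=
    fun f => LinearMap.congr_fun hxU.eq f
  have hxw' : ∀ f, x.1 (wf f) = wf (x.1 f) := fun f => LinearMap.congr_fun hxw.eq f
  -- the trace is killed
  have hkill : ∀ f, x.1 (f + CuspForm.heckeULin 2 hrN (wf f)) = 0 := by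
    intro f
    obtain ⟨F, hF⟩ := h2 N r X f
    refine hx F _ ?_
    rw [hF, FunLike.coe_add, CuspForm.coe_heckeULin_apply, hwf]
  have hA : ∀ f, x.1 f + CuspForm.heckeULin 2 hrN (wf (x.1 f)) = 0 := by
    intro f
    rw [← hxw', ← hxU', ← map_add]
    exact hkill f
  have hB : ∀ f, wf (x.1 f) + CuspForm.heckeULin 2 hrN (x.1 f) = 0 := by
    intro f
    have := hA (wf f)
    rwa [hxw', hinv] at this
  refine LinearMap.ext fun f => ?_
  show CuspForm.heckeULin 2 hrN (CuspForm.heckeULin 2 hrN (x.1 f)) = x.1 f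
  have h3 : CuspForm.heckeULin 2 hrN (x.1 f) = - wf (x.1 f) := by
    rw [eq_neg_iff_add_eq_zero, add_comm]
    exact hB f
  have h4 : CuspForm.heckeULin 2 hrN (wf (x.1 f)) = - x.1 f := by
    rw [eq_neg_iff_add_eq_zero, add_comm]
    exact hA f
  rw [h3, map_neg, h4, neg_neg]

end Fermat.Agent.BR.F.N3
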