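import Fermat.Agent.BR.F.Interface
import Fermat.Agent.S49.QCoeff

/-!
# BR / F, package N6 : an eigenvector of all `T_ℓ`, `U_q` is a multiple of a normalized eigenform
-/

set_option autoImplicit false

namespace Fermat.Agent.BR.F.N6

open ModularFormClass CongruenceSubgroup UpperHalfPlane Fermat.Agent.S49

/-! ### the combinatorics of the Hecke relations -/

/-- the Hecke relations for a sequence `a` (`e ℓ = ℓ` for good primes, `0` for bad primes). -/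
def Rel (e : ℕ → ℂ) (a : ℕ → ℂ) : Prop :=
  ∀ ℓ : ℕ, ℓ.Prime → ∃ c : ℂ, ∀ n : ℕ,
    a (ℓ * n) + e ℓ * (if ℓ ∣ n then a (n / ℓ) else 0) = c * a n

theorem eq_zero_of_rel {e a : ℕ → ℂ} (h : Rel e a) (h0 : a 0 = 0) (h1 : a 1 = 0) :
    ∀ n, a n = 0 := by
  intro n
  induction n using Nat.strong_induction_on with
  | _ n ih =>
    rcases Nat.lt_or_ge n 2 with hn | hn
    · interval_cases n
      · exact h0
      · exact h1
    have hn1 : n ≠ 1 := by omega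
    have hℓ : (n.minFac).Prime := Nat.minFac_prime hn1
    obtain ⟨n', hn'⟩ := Nat.minFac_dvd n
    obtain ⟨c, hc⟩ := h _ hℓ
    have hpos : 0 < n' := by
      rcases Nat.eq_zero_or_pos n' with h' | h'
      · rw [h', mul_zero] at hn'
        omega
      · exact h'
    have hlt : n' < n := by
      calc n' = 1 * n' := (one_mul _).symm
        _ < n.minFac * n' := Nat.mul_lt_mul_of_pos_right hℓ.one_lt hpos
        _ = n := hn'.symm
    have h2 := hc n'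
    rw [← hn', ih n' hlt, mul_zero] at h2
    have h3 : (if n.minFac ∣ n' then a (n' / n.minFac) else 0) = 0 := by
      split_ifs
      · exact ih _ (lt_of_le_of_lt (Nat.div_le_self _ _) hlt)
      · rfl
    rw [h3, mul_zero, add_zero] at h2
    exact h2

theorem rel_norm {e a : ℕ → ℂ} (h : Rel e a) (h1 : a 1 = 1) {ℓ : ℕ} (hℓ : ℓ.Prime) (n : ℕ) :
    a (ℓ * n) + e ℓ * (if ℓ ∣ n then a (n / ℓ) else 0) = a ℓ * a n := by
  obtain ⟨c, hc⟩ := h ℓ hℓ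
  have h2 := hc 1
  have h3 : ¬ ℓ ∣ 1 := fun h' => hℓ.one_lt.ne' (Nat.dvd_one.1 h')
  rw [if_neg h3, mul_zero, add_zero, mul_one, h1, mul_one] at h2
  rw [h2]
  exact hc n

theorem rel_of_not_dvd {e a : ℕ → ℂ} (h : Rel e a) (h1 : a 1 = 1) {ℓ : ℕ} (hℓ : ℓ.Prime) {n : ℕ}
    (hn : ¬ ℓ ∣ n) : a (ℓ * n) = a ℓ * a n := by
  have := rel_norm h h1 hℓ n
  rwa [if_neg hn, mul_zero, add_zero] at this

theorem rel_mul {e a : ℕ → ℂ} (h : Rel e a) (h1 : a 1 = 1) {ℓ : ℕ} (hℓ : ℓ.Prime) (n : ℕ) :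
    a (ℓ * (ℓ * n)) = a ℓ * a (ℓ * n) - e ℓ * a n := by
  have := rel_norm h h1 hℓ (ℓ * n)
  rw [if_pos (Dvd.intro n rfl), Nat.mul_div_cancel_left _ hℓ.pos] at this
  rw [← this]
  ring

theorem rel_pow {e a : ℕ → ℂ} (h : Rel e a) (h1 : a 1 = 1) {ℓ : ℕ} (hℓ : ℓ.Prime) (r : ℕ) :
    a (ℓ ^ (r + 2)) = a ℓ * a (ℓ ^ (r + 1)) - e ℓ * a (ℓ ^ r) := by
  have := rel_mul h h1 hℓ (ℓ ^ r)
  rwa [← pow_succ', ← pow_succ'] at this

theorem rel_pow_mul {e a : ℕ → ℂ} (h : Rel e a) (h1 : a 1 = 1) {ℓ : ℕ} (hℓ : ℓ.Prime) {n : ℕ}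
    (hn : ¬ ℓ ∣ n) : ∀ k : ℕ, a (ℓ ^ k * n) = a (ℓ ^ k) * a n ∧
      a (ℓ ^ (k + 1) * n) = a (ℓ ^ (k + 1)) * a n := by
  intro k
  induction k with
  | zero =>
    refine ⟨by rw [pow_zero, one_mul, h1, one_mul], ?_⟩
    rw [zero_add, pow_one]
    exact rel_of_not_dvd h h1 hℓ hn
  | succ k ih =>
    refine ⟨ih.2, ?_⟩
    have h2 : ℓ ^ (k + 1 + 1) * n = ℓ * (ℓ * (ℓ ^ k * n)) := by ring
    have h3 : ℓ * (ℓ ^ k * n) = ℓ ^ (k + 1) * n := by ring
    rw [h2, rel_mul h h1 hℓ, h3, ih.1, ih.2, rel_pow h h1 hℓ k]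
    ring

theorem rel_coprime {e a : ℕ → ℂ} (h : Rel e a) (h1 : a 1 = 1) :
    ∀ m n : ℕ, m.Coprime n → a (m * n) = a m * a n := by
  intro m
  induction m using Nat.recOnPosPrimePosCoprime with
  | prime_pow p k hp hk =>
    intro n hn
    have hpn : ¬ p ∣ n := by
      intro hd
      have h2 : p ∣ Nat.gcd (p ^ k) n := Nat.dvd_gcd (dvd_pow_self p hk.ne') hd
      rw [hn] at h2
      exact hp.one_lt.ne' (Nat.dvd_one.1 h2)
    exact (rel_pow_mul h h1 hp hpn k).1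
  | zero =>
    intro n hn
    rw [Nat.coprime_zero_left] at hn
    rw [hn, h1, mul_one, mul_one]
  | one =>
    intro n _
    rw [one_mul, h1, one_mul]
  | coprime x y _ _ hxy ihx ihy =>
    intro n hn
    have hxn : x.Coprime n := Nat.Coprime.coprime_mul_right hn
    have hyn : y.Coprime n := Nat.Coprime.coprime_mul_left hn
    rw [mul_assoc, ihx (y * n) (Nat.Coprime.mul_right hxy hxn), ihy n hyn, ihx y hxy, mul_assoc]

/-! ### modular forms -/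

theorem qCoeff_smul {M : ℕ} (c : ℂ) (h : CuspForm (Gamma0 M) 2) (n : ℕ) :
    qCoeff (⇑(c • h : CuspForm (Gamma0 M) 2)) n = c * qCoeff h n := by
  rw [← qCoeffLin_apply, map_smul, qCoeffLin_apply, smul_eq_mul]

/-- **(N6b)**. -/
theorem normEigen : Stmt_NormEigen := by
  intro M _ h hh hT hU
  let e : ℕ → ℂ := fun ℓ => if ℓ ∣ M then 0 else (ℓ : ℂ)
  have hrel : Rel e (fun n => qCoeff h n) := by
    intro ℓ hℓ
    by_cases hℓM : ℓ ∣ M
    · obtain ⟨c, hc⟩ := hU ℓ hℓ hℓM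
      refine ⟨c, fun n => ?_⟩
      show qCoeff h (ℓ * n) + (if ℓ ∣ M then 0 else (ℓ : ℂ)) * _ = c * qCoeff h n
      rw [if_pos hℓM, zero_mul, add_zero, ← qCoeff_heckeULin hℓ hℓM, hc, qCoeff_smul]
    · obtain ⟨c, hc⟩ := hT ℓ hℓ hℓM
      refine ⟨c, fun n => ?_⟩
      show qCoeff h (ℓ * n) + (if ℓ ∣ M then 0 else (ℓ : ℂ)) * _ = c * qCoeff h n
      rw [if_neg hℓM, ← qCoeff_heckeTLin hℓ hℓM, hc, qCoeff_smul]
  have ha1 : qCoeff h 1 ≠ 0 := by
    intro h1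
    exact hh (eq_zero_of_qCoeff h (eq_zero_of_rel hrel (qCoeff_zero_eq h) h1))
  refine ⟨(qCoeff h 1)⁻¹, inv_ne_zero ha1, ?_⟩
  have hrel' : Rel e (fun n => qCoeff (⇑((qCoeff h 1)⁻¹ • h : CuspForm (Gamma0 M) 2)) n) := by
    intro ℓ hℓ
    obtain ⟨c, hc⟩ := hrel ℓ hℓ
    refine ⟨c, fun n => ?_⟩
    have h2 := hc n
    simp only [qCoeff_smul] at h2 ⊢
    split_ifs at h2 ⊢ with hd
    · linear_combination (qCoeff h 1)⁻¹ * h2
    · linear_combination (qCoeff h 1)⁻¹ * h2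
  have h1 : (fun n => qCoeff (⇑((qCoeff h 1)⁻¹ • h : CuspForm (Gamma0 M) 2)) n) 1 = 1 := by
    show qCoeff (⇑((qCoeff h 1)⁻¹ • h : CuspForm (Gamma0 M) 2)) 1 = 1
    rw [qCoeff_smul, inv_mul_cancel₀ ha1]
  refine ⟨h1, rel_coprime hrel' h1, ?_, ?_⟩
  · intro p r hp hpM
    have := rel_pow hrel' h1 hp r
    have he : e p = (p : ℂ) := if_neg hpM
    rw [he] at this
    exact this
  · intro p r hp hpM
    have := rel_pow hrel' h1 hp r
    have he : e p = 0 := if_pos hpM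
    rw [he, zero_mul, sub_zero] at this
    exact this

end Fermat.Agent.BR.F.N6
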