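import Fermat.Agent.BR.F.Interface
import Fermat.Agent.ES.RepEigen

/-!
# BR / F, package N4 (helper53): a character of `𝕋^S_N` vanishing on the annihilator of the forms of
level `M ∣ N` occurs at level `M`.
-/

set_option autoImplicit false
set_option linter.unusedSectionVars false

open CongruenceSubgroup ModularCurve ModularCurve.Period CuspForm
open scoped MatrixGroups TensorProduct
open Fermat.Agent.S16.HH
open Fermat.Agent.ES.Coh

namespace Fermat.Agent.BR.F.N4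

variable (M : ℕ) [NeZero M]

/-- `Hom_par(Γ₀(M), ℂ)` -/
abbrev LamC : Type := parabolicHoms ℂ (Gamma0 M) ℂ

/-- `H → Hom_par(Γ₀(M), ℂ)` -/
noncomputable def castC : H M →ₗ[ℤ] LamC M :=
  AddMonoidHom.toIntLinearMap
    { toFun := fun φ => ⟨(Int.castAddHom ℂ).comp φ.1, fun γ hγ => by
        rw [AddMonoidHom.comp_apply, φ.2 γ hγ, map_zero]⟩
      map_zero' := Subtype.ext (by ext; simp)
      map_add' := fun φ ψ => Subtype.ext (by ext; simp) }

theorem castC_coe (φ : H M) : (castC M φ).1 = (Int.castAddHom ℂ).comp φ.1 := rfl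

/-- the basis of `Hom_par(Γ₀(M), ℂ)` -/
noncomputable def basisC : Module.Basis (Fin (rk M)) ℂ (LamC M) :=
  Module.Basis.ofEquivFun (parEquiv M ℂ ℂ).symm

theorem castC_basisH (i : Fin (rk M)) : castC M (basisH M i) = basisC M i := by
  classical
  have : basisC M i = parEquiv M ℂ ℂ (Pi.single i 1) := by
    simp [basisC]
  rw [this]
  apply Subtype.ext
  rw [parEquiv_apply, castC_coe]
  ext γ
  simp [mkHom_apply, basisH_apply, Pi.single_apply]

/-- `ℂ ⊗ H ≃ Hom_par(Γ₀(M), ℂ)` -/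
noncomputable def eC : ℂ ⊗[ℤ] H M ≃ₗ[ℂ] LamC M :=
  ((basisH M).baseChange ℂ).equiv (basisC M) (Equiv.refl _)

theorem eC_tmul (φ : H M) : eC M (1 ⊗ₜ φ) = castC M φ := by
  have : ((eC M).toLinearMap.restrictScalars ℤ).comp (TensorProduct.mk ℤ ℂ (H M) 1)
      = castC M := by
    refine (basisH M).ext fun i => ?_
    show eC M (1 ⊗ₜ basisH M i) = _
    rw [castC_basisH, ← Module.Basis.baseChange_apply, eC, Module.Basis.equiv_apply]
    rfl
  exact LinearMap.congr_fun this φ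

theorem isBaseChange_castC : IsBaseChange ℂ (castC M) :=
  IsBaseChange.of_equiv (eC M) (eC_tmul M)

/-- base change of an action on `H` -/
noncomputable def ThetaC {T : Type*} [CommRing T] (Θ : T →+* Module.End ℤ (H M)) :
    T →+* Module.End ℂ (LamC M) :=
  ((eC M).conjRingEquiv.toRingHom).comp
    ((Module.End.baseChangeHom ℤ ℂ (H M)).toRingHom.comp Θ)

theorem ThetaC_castC {T : Type*} [CommRing T] (Θ : T →+* Module.End ℤ (H M)) (x : T) (h : H M) :
    ThetaC M Θ x (castC M h) = castC M (Θ x h) := by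
  show eC M ((Θ x).baseChange ℂ ((eC M).symm (castC M h))) = _
  rw [← eC_tmul, LinearEquiv.symm_apply_apply, LinearMap.baseChange_tmul, eC_tmul]

/-- the Eichler-Shimura isomorphism `S₂ × S₂ ≃ Hom_par(Γ₀(M), ℂ)` (S21) -/
noncomputable def esP :
    (CuspForm (Gamma0 M) 2 × CuspForm (Gamma0 M) 2) ≃ₗ[ℂ] LamC M :=
  LinearEquiv.ofBijective
    ((periodHomPair M).codRestrict (parabolicHoms ℂ (Gamma0 M) ℂ) (fun x => by
      rw [← (Fermat.Agent.S21.result M).2]
      exact ⟨x, rfl⟩))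
    ⟨fun x y h => (Fermat.Agent.S21.result M).1 (congrArg Subtype.val h), fun χ => by
      have h1 : χ.1 ∈ LinearMap.range (periodHomPair M) := by
        rw [(Fermat.Agent.S21.result M).2]
        exact χ.2
      obtain ⟨x, hx⟩ := h1
      exact ⟨x, Subtype.ext hx⟩⟩

theorem esP_coe (x : CuspForm (Gamma0 M) 2 × CuspForm (Gamma0 M) 2) :
    (esP M x).1 = periodHomPair M x := rfl

/-- an endomorphism of `Hom_par(Γ₀(M), ℂ)` inducing `Theta0 t` on the lattice is `t × t`. -/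
theorem end_eq (S : Set ℕ) (t : heckeAlgebra M 2 S) (A : Module.End ℂ (LamC M))
    (hA : ∀ h : H M, A (castC M h) = castC M (Theta0 M S t h))
    (f g : CuspForm (Gamma0 M) 2) : A (esP M (f, g)) = esP M (t.1 f, t.1 g) := by
  let B : Module.End ℂ (LamC M) := (esP M).conj (LinearMap.prodMap t.1 t.1)
  have hAB : A = B := by
    refine (isBaseChange_castC M).algHom_ext _ _ fun h => ?_
    rw [hA]
    obtain ⟨⟨f', g'⟩, hfg⟩ := (esP M).surjective (castC M h)
    rw [← hfg]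
    show _ = esP M (LinearMap.prodMap t.1 t.1 ((esP M).symm (esP M (f', g'))))
    rw [LinearEquiv.symm_apply_apply]
    apply Subtype.ext
    have h1 : castH M h = periodHomPair M (f', g') := by
      have := congrArg Subtype.val hfg
      exact this.symm
    exact Theta0_spec M S t h f' g' h1
  rw [hAB]
  show esP M (LinearMap.prodMap t.1 t.1 ((esP M).symm (esP M (f, g)))) = _
  rw [LinearEquiv.symm_apply_apply]
  rfl

/-- **(N5)** -/
theorem oldEigen (hI : Stmt_Incl) : Stmt_OldEigen := by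
  intro N M _ _ hMN S hS χ hχ
  obtain ⟨incl, hincl⟩ := hI M N hMN
  let ι : Type := {ℓ : Nat.Primes // (ℓ : ℕ) ∉ S}
  have hιN : ∀ ℓ : ι, ¬ (ℓ.1 : ℕ) ∣ N := fun ℓ h => ℓ.2 (hS _ ℓ.1.2 h)
  have hιM : ∀ ℓ : ι, ¬ (ℓ.1 : ℕ) ∣ M := fun ℓ h => hιN ℓ (h.trans hMN)
  let evN : MvPolynomial ι ℤ →ₐ[ℤ] heckeAlgebra N 2 S :=
    MvPolynomial.aeval (fun ℓ => heckeAlgebra.T ℓ.1.2 (hιN ℓ) ℓ.2)
  let evM : MvPolynomial ι ℤ →ₐ[ℤ] heckeAlgebra M 2 S :=
    MvPolynomial.aeval (fun ℓ => heckeAlgebra.T ℓ.1.2 (hιM ℓ) ℓ.2)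
  have hcomm : ∀ (P : MvPolynomial ι ℤ) (F : CuspForm (Gamma0 M) 2),
      (evN P).1 (incl F) = incl ((evM P).1 F) := by
    intro P
    induction P using MvPolynomial.induction_on with
    | C a =>
      intro F
      have h1 : evN (MvPolynomial.C a) = algebraMap ℤ _ a := MvPolynomial.aeval_C _ a
      have h2 : evM (MvPolynomial.C a) = algebraMap ℤ _ a := MvPolynomial.aeval_C _ a
      rw [h1, h2]
      show a • incl F = incl (a • F)
      rw [map_zsmul]
    | add P Q hP hQ =>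
      intro F
      rw [map_add, map_add]
      show (evN P).1 (incl F) + (evN Q).1 (incl F) = incl ((evM P).1 F + (evM Q).1 F)
      rw [hP, hQ, map_add]
    | mul_X P ℓ hP =>
      intro F
      rw [map_mul, map_mul]
      have h1 : evN (MvPolynomial.X ℓ) = heckeAlgebra.T ℓ.1.2 (hιN ℓ) ℓ.2 :=
        MvPolynomial.aeval_X _ ℓ
      have h2 : evM (MvPolynomial.X ℓ) = heckeAlgebra.T ℓ.1.2 (hιM ℓ) ℓ.2 :=
        MvPolynomial.aeval_X _ ℓ
      rw [h1, h2]
      show (evN P).1 (heckeTLin 2 ℓ.1.2 (hιN ℓ) (incl F))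
        = incl ((evM P).1 (heckeTLin 2 ℓ.1.2 (hιM ℓ) F))
      have h3 : heckeTLin 2 ℓ.1.2 (hιN ℓ) (incl F) = incl (heckeTLin 2 ℓ.1.2 (hιM ℓ) F) := by
        apply DFunLike.coe_injective
        rw [hincl, coe_heckeTLin_apply, coe_heckeTLin_apply, hincl]
      rw [h3, hP]
  -- the quotient ring
  let Θ₀ : MvPolynomial ι ℤ →+* Module.End ℤ (H M) := (Theta0 M S).comp evM.toRingHom
  let T : Type := MvPolynomial ι ℤ ⧸ RingHom.ker Θ₀
  let Θ : T →+* Module.End ℤ (H M) := RingHom.kerLift Θ₀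
  have hΘ : Function.Injective Θ := RingHom.kerLift_injective Θ₀
  have hker : ∀ P ∈ RingHom.ker Θ₀, (χ.comp evN.toRingHom) P = 0 := by
    intro P hP
    have h1 : evM P = 0 := Theta0_injective M S (by rw [map_zero]; exact hP)
    apply hχ
    intro F f hfF
    have h2 : f = incl F := DFunLike.coe_injective (by rw [hincl, hfF])
    rw [h2]
    show (evN P).1 (incl F) = 0
    rw [hcomm, h1]
    exact map_zero incl
  let χT : T →+* ℂ := Ideal.Quotient.lift (RingHom.ker Θ₀) (χ.comp evN.toRingHom) hker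
  obtain ⟨v, hv0, hv⟩ := Fermat.Agent.ES.Rep.exists_eigenvector_baseChange Θ hΘ (castC M)
    (isBaseChange_castC M) (ThetaC M Θ) (ThetaC_castC M Θ) χT
  obtain ⟨⟨F₁, F₂⟩, hF⟩ := (esP M).surjective v
  have hF0 : (F₁, F₂) ≠ (0 : CuspForm (Gamma0 M) 2 × CuspForm (Gamma0 M) 2) := by
    intro h
    apply hv0
    rw [← hF, h, map_zero]
  have key : ∀ (ℓ : ℕ) (hℓ : ℓ.Prime) (hℓN : ¬ ℓ ∣ N) (hℓM : ¬ ℓ ∣ M) (hℓS : ℓ ∉ S),
      (heckeTLin 2 hℓ hℓM F₁, heckeTLin 2 hℓ hℓM F₂)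
        = χ (heckeAlgebra.T hℓ hℓN hℓS) • (F₁, F₂) := by
    intro ℓ hℓ hℓN hℓM hℓS
    let i : ι := ⟨⟨ℓ, hℓ⟩, hℓS⟩
    let t : T := Ideal.Quotient.mk _ (MvPolynomial.X i)
    have h1 : Θ t = Theta0 M S (heckeAlgebra.T hℓ hℓM hℓS) := by
      have : Θ t = Θ₀ (MvPolynomial.X i) := RingHom.kerLift_mk Θ₀ _
      rw [this]
      show Theta0 M S (evM (MvPolynomial.X i)) = _
      congr 1
      exact MvPolynomial.aeval_X _ i
    have h2 : χT t = χ (heckeAlgebra.T hℓ hℓN hℓS) := by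
      have : χT t = (χ.comp evN.toRingHom) (MvPolynomial.X i) := Ideal.Quotient.lift_mk _ _ _
      rw [this]
      show χ (evN (MvPolynomial.X i)) = _
      congr 1
      exact MvPolynomial.aeval_X _ i
    have h3 := end_eq M S (heckeAlgebra.T hℓ hℓM hℓS) (ThetaC M Θ t) (fun h => by
      rw [ThetaC_castC, h1]) F₁ F₂
    have h4 := hv t
    rw [← hF, h3, h2, ← map_smul] at h4
    exact (esP M).injective h4
  by_cases h1 : F₁ = 0
  · have h2 : F₂ ≠ 0 := by
      intro h2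
      apply hF0
      rw [h1, h2]
      rfl
    exact ⟨F₂, h2, fun ℓ hℓ hℓN hℓM hℓS => congrArg Prod.snd (key ℓ hℓ hℓN hℓM hℓS)⟩
  · exact ⟨F₁, h1, fun ℓ hℓ hℓN hℓM hℓS => congrArg Prod.fst (key ℓ hℓ hℓN hℓM hℓS)⟩

end Fermat.Agent.BR.F.N4
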