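import Fermat.Agent.BR.F.Interface
import Fermat.Agent.SMO.Operator

/-!
# BR / F, package (N7): strong multiplicity one at a good prime

Adapter from helper99's `Fermat.Agent.SMO.smo` (operator form of strong multiplicity one).
-/

set_option autoImplicit false

namespace Fermat.Agent.BR.F.N7

open CuspForm

theorem smo_of_ES (hES : Fermat.Agent.ES.Rep.Stmt_ES) : Stmt_SMO := by
  intro N _ S _ ℓ₀ hℓ₀ hℓ₀N
  obtain ⟨m, x, hm, hx⟩ := Fermat.Agent.SMO.smo hES N S hℓ₀ hℓ₀N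
  have hx' : (x : Module.End ℂ (CuspForm (CongruenceSubgroup.Gamma0 N) 2))
      = m • heckeTLin 2 hℓ₀ hℓ₀N := by
    apply LinearMap.ext
    intro f
    rw [hx f]
    have h1 : (m • heckeTLin 2 hℓ₀ hℓ₀N) f = m • (heckeTLin 2 hℓ₀ hℓ₀N f) :=
      map_zsmul (LinearMap.applyₗ (R := ℂ) f :
        Module.End ℂ (CuspForm (CongruenceSubgroup.Gamma0 N) 2) →ₗ[ℂ] _).toAddMonoidHom m _
    rw [h1, Int.cast_smul_eq_zsmul]
  refine ⟨m.natAbs, Int.natAbs_pos.mpr hm, ?_⟩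
  have hmem : m • heckeTLin 2 hℓ₀ hℓ₀N ∈ heckeAlgebra N 2 (↑S : Set ℕ) := hx' ▸ x.2
  rcases Int.natAbs_eq m with h | h
  · have : m.natAbs • heckeTLin 2 hℓ₀ hℓ₀N = m • heckeTLin 2 hℓ₀ hℓ₀N := by
      conv_rhs => rw [h]
      rw [natCast_zsmul]
    rw [this]
    exact hmem
  · have : m.natAbs • heckeTLin 2 hℓ₀ hℓ₀N = -(m • heckeTLin 2 hℓ₀ hℓ₀N) := by
      conv_rhs => rw [h]
      rw [neg_zsmul, neg_neg, natCast_zsmul]
    rw [this]
    exact neg_mem hmem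

theorem smo (_hFD : Fermat.Agent.FD.Stmt_FD) (hES : Fermat.Agent.ES.Rep.Stmt_ES) : Stmt_SMO :=
  smo_of_ES hES

end Fermat.Agent.BR.F.N7
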